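import Fermat.Agent.S36R.Unit.Psi
import Fermat.Agent.DR.Conc.Series
import Fermat.Agent.GAL.Hecke.SeriesFrob
import Fermat.Agent.GAL.Hecke.SeriesRed

/-!
# S36 route R, block R-UNIT: Gauss valuations and residues of the `Δ`-quotients

`GR A x r` : the Laurent series `x ∈ K((t))` is Gauss integral (`x ∈ gRing A`) with residue `r ∈ k((t))`.
-/

set_option autoImplicit false

noncomputable section

namespace Fermat.Agent.S36R.Unit

open ModularCurve Fermat.Agent.S28 Fermat.Agent.GAL.Gauss Fermat.Agent.DR.Conc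

section API

variable {K : Type*} [Field K] (A : ValuationSubring K)

/-- `x` is Gauss integral with residue `r`. -/
def GR (x : LaurentSeries K) (r : LaurentSeries (IsLocalRing.ResidueField ↥A)) : Prop :=
  ∃ h : x ∈ gRing A, gRes A ⟨x, h⟩ = r

variable {A}
variable {x y : LaurentSeries K} {r s : LaurentSeries (IsLocalRing.ResidueField ↥A)}

theorem GR.mem (h : GR A x r) : x ∈ gRing A := h.1

theorem GR.unique (h : GR A x r) (h' : GR A x s) : r = s := by
  obtain ⟨h1, rfl⟩ := h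
  obtain ⟨h2, rfl⟩ := h'
  rfl

theorem GR.of_mem (h : x ∈ gRing A) : GR A x (gRes A ⟨x, h⟩) := ⟨h, rfl⟩

theorem GR.mul (h : GR A x r) (h' : GR A y s) : GR A (x * y) (r * s) := by
  obtain ⟨h1, rfl⟩ := h
  obtain ⟨h2, rfl⟩ := h'
  refine ⟨mul_mem h1 h2, ?_⟩
  rw [← map_mul]
  exact congrArg _ (Subtype.ext (by rw [Subring.coe_mul]))

theorem GR.add (h : GR A x r) (h' : GR A y s) : GR A (x + y) (r + s) := by
  obtain ⟨h1, rfl⟩ := h
  obtain ⟨h2, rfl⟩ := h'
  refine ⟨add_mem h1 h2, ?_⟩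
  rw [← map_add]
  exact congrArg _ (Subtype.ext (by rw [Subring.coe_add]))

theorem GR.neg (h : GR A x r) : GR A (-x) (-r) := by
  obtain ⟨h1, rfl⟩ := h
  refine ⟨neg_mem h1, ?_⟩
  rw [← map_neg]
  exact congrArg _ (Subtype.ext (by rw [Subring.coe_neg]))

theorem GR.sub (h : GR A x r) (h' : GR A y s) : GR A (x - y) (r - s) := by
  rw [sub_eq_add_neg, sub_eq_add_neg]
  exact h.add h'.neg

theorem GR.one : GR A (1 : LaurentSeries K) 1 := ⟨one_mem _, map_one (gRes A)⟩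

theorem GR.zero : GR A (0 : LaurentSeries K) 0 := ⟨zero_mem _, map_zero (gRes A)⟩

theorem GR.pow (h : GR A x r) (n : ℕ) : GR A (x ^ n) (r ^ n) := by
  obtain ⟨h1, rfl⟩ := h
  refine ⟨pow_mem h1 n, ?_⟩
  rw [← map_pow]
  exact congrArg _ (Subtype.ext (by rw [Subring.coe_pow]))

theorem GR.natCast (n : ℕ) : GR A (n : LaurentSeries K) (n : LaurentSeries (IsLocalRing.ResidueField ↥A)) :=
  ⟨natCast_mem _ n, map_natCast (gRes A) n⟩

theorem GR.inv (h : GR A x r) (hr : r ≠ 0) : GR A x⁻¹ r⁻¹ := by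
  obtain ⟨h1, rfl⟩ := h
  have h2 := inv_mem_gRing_of_gRes_ne_zero A ⟨x, h1⟩ hr
  exact ⟨h2, gRes_inv A ⟨x, h1⟩ h2⟩

theorem GR.div (h : GR A x r) (h' : GR A y s) (hs : s ≠ 0) : GR A (x / y) (r / s) := by
  rw [div_eq_mul_inv, div_eq_mul_inv]
  exact h.mul (h'.inv hs)

theorem GR.iA (z : LaurentSeries ↥A) : GR A (iA A z) (pA A z) := ⟨iA_mem_gRing A z, gRes_iA A z⟩

theorem GR.C (a : ↥A) : GR A (HahnSeries.C (a : K)) (HahnSeries.C (IsLocalRing.residue ↥A a)) :=
  ⟨(C_mem_gRing_iff A _).mpr a.2, gRes_C A a _⟩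

theorem GR.qExpand (h : GR A x r) (d : ℕ) [NeZero d] :
    GR A (ModularCurve.qExpand K d x) (ModularCurve.qExpand (IsLocalRing.ResidueField ↥A) d r) := by
  obtain ⟨h1, rfl⟩ := h
  exact ⟨qExpand_mem_gRing A d h1, gRes_qExpand A d h1⟩

theorem GR.twist (h : GR A x r) {c : K} (hc0 : c ≠ 0) (hc : c ∈ A) (hc' : c⁻¹ ∈ A)
    (h1 : IsLocalRing.residue ↥A ⟨c, hc⟩ = 1) : GR A (Fermat.Agent.S24.twist c hc0 x) r := by
  obtain ⟨h2, rfl⟩ := h
  exact ⟨twist_mem_gRing A hc0 hc hc' h2, gRes_twist A hc0 hc hc' h1 h2⟩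

/-- a Gauss integral series whose inverse is Gauss integral has a nonzero residue. -/
theorem GR.ne_zero_of_inv_mem (h : GR A x r) (hx : x ≠ 0) (h' : x⁻¹ ∈ gRing A) : r ≠ 0 := by
  have h2 := h.mul (GR.of_mem h')
  rw [mul_inv_cancel₀ hx] at h2
  intro h0
  rw [h0, zero_mul] at h2
  exact one_ne_zero (GR.one.unique h2)

theorem GR_j : GR A (jqModC K) (jqModC (IsLocalRing.ResidueField ↥A)) := by
  have := GR.iA (A := A) (jqModC ↥A)
  rwa [iA_jqModC, pA_jqModC] at this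

theorem GR_Dl : GR A (DlL K) (DlL (IsLocalRing.ResidueField ↥A)) := by
  have := GR.iA (A := A) (DlL ↥A)
  rwa [Fermat.Agent.GAL.Gauss.iA, Fermat.Agent.GAL.Gauss.pA, cpar_coeffMap_DlL,
    cpar_coeffMap_DlL] at this

theorem GR_Dlinv : GR A (DlLinv K) (DlLinv (IsLocalRing.ResidueField ↥A)) := by
  have := GR.iA (A := A) (DlLinv ↥A)
  rwa [Fermat.Agent.GAL.Gauss.iA, Fermat.Agent.GAL.Gauss.pA, cpar_coeffMap_DlLinv,
    cpar_coeffMap_DlLinv] at this

end API

section Frob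

variable (k : Type*) [Field k] (q : ℕ) [NeZero q] [Fact q.Prime] [CharP k q]

/-- series with coefficients in the prime field: `x(t^q) = x(t)^q`. -/
theorem qExpand_eq_pow_of_int (z : LaurentSeries ℤ) :
    qExpand k q (coeffMap (Int.castRingHom k) z) = coeffMap (Int.castRingHom k) z ^ q := by
  rw [Fermat.Agent.GAL.Hecke.pow_char_eq_qExpand k q]
  congr 1
  ext n
  simp [coeffMap_coeff]

theorem qExpand_j : qExpand k q (jqModC k) = jqModC k ^ q := by
  have := qExpand_eq_pow_of_int k q (jqModC ℤ)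
  rwa [coeffMap_jqModC] at this

theorem qExpand_Dl : qExpand k q (DlL k) = DlL k ^ q := by
  have := qExpand_eq_pow_of_int k q (DlL ℤ)
  rwa [cpar_coeffMap_DlL] at this

theorem qExpand_Dlinv : qExpand k q (DlLinv k) = DlLinv k ^ q := by
  have := qExpand_eq_pow_of_int k q (DlLinv ℤ)
  rwa [cpar_coeffMap_DlLinv] at this

end Frob

end Fermat.Agent.S36R.Unit
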