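import Fermat.Agent.S36R.Unit.Psi
import Fermat.Agent.GAL.Igusa.CuspSep
import Fermat.Agent.GAL.Igusa.PoleSpace

/-!
# S36 route R, block R-UNIT: criterion for integrality over `k[1/j]` (regularity at the cusps)
-/

set_option autoImplicit false

noncomputable section

namespace Fermat.Agent.S36R.Unit

open ModularCurve Polynomial Fermat.Agent.S28 Fermat.Agent.S24 Fermat.Agent.GAL.Igusa AlgebraicCurve

variable {k : Type} [Field k] {N : ℕ} [NeZero N]

/-- **Leaf IC1.** (criterion)  `y` is integral over `k[1/j]` as soon as it is regular at the cusps and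
`j^n y` is integral over `k[j]`.
PROOF. `GAL.Igusa.isIntegral_of_forall_mem_place (x := (jE k N)⁻¹)` (instances
`finiteDimensional_jE hB hN`, `isSeparable_jE hB hN`, `transcendental_inv (transcendental_jE k N)`, as
in the proof of `card_poles_le`, `GAL/Igusa/CuspMain.lean`).  Let `v` be a place containing `(jE)⁻¹`.
If `v.ord (jE) < 0`: as in `card_poles_le` (`exists_embedding_of_place_sep`) there is `σ` with
`v.toValuationSubring = ringOf (phi hN σ)`, and `y ∈ ringOf ..` is `h2 σ` (`mem_ringOf`).
Otherwise `jE ∈ v`; then `jE ^ n * y ∈ v` by `mem_place_of_isIntegral`, and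
`y = ((jE)⁻¹) ^ n * (jE ^ n * y)`. -/
theorem isIntegral_inv_of_cusps [IsAlgClosed k] (hN : (N : k) ≠ 0) (y : EC k N)
    (h1 : ∃ n : ℕ, IsIntegral (Algebra.adjoin k {jE k N}) (jE k N ^ n * y))
    (h2 : ∀ σ : ↥(FF k N) →ₐ[↥(EE k)] OmBar k, 0 ≤ ordOf (phi hN σ) y) :
    IsIntegral (Algebra.adjoin k {(jE k N)⁻¹}) y := by
  classical
  have := finiteDimensional_FF k N hB hN
  have := isSeparable_FF k N hB hN
  have := finiteDimensional_jE (k := k) (N := N) hB hN
  have := isSeparable_jE (k := k) (N := N) hB hN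
  have htr : Transcendental k (jE k N)⁻¹ := transcendental_inv (transcendental_jE k N)
  have hcard : Fintype.card (↥(FF k N) →ₐ[↥(EE k)] OmBar k) =
      Module.finrank (IntermediateField.adjoin k {(jE k N)⁻¹}) (EC k N) := by
    rw [finrank_jE hB hN, AlgHom.card]
  refine isIntegral_of_forall_mem_place (jE k N)⁻¹ htr y ?_
  intro v hv
  by_cases hneg : v.ord (jE k N) < 0
  · obtain ⟨σ, hσ⟩ := exists_embedding_of_place_sep (jE k N)⁻¹ htr hcard (phi hN)
      (phi_injective hN) (fun σ σ' a => by rw [phi_algebraMap, phi_algebraMap])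
      (fun σ σ' => by rw [map_inv₀, map_inv₀, phi_jE, phi_jE])
      (fun σ => by rw [ordOf_phi_jE_inv]; exact_mod_cast NeZero.pos N) v
      (by rw [v.ord_inv]; omega)
    rw [hσ, mem_ringOf]
    exact h2 σ
  · obtain ⟨n, hn⟩ := h1
    have hj0 : jE k N ≠ 0 := fun h0 => transcendental_jE k N (h0 ▸ isAlgebraic_zero)
    have hjv : jE k N ∈ v.toValuationSubring := mem_of_ord_nonneg v hj0 (by omega)
    have h3 := mem_place_of_isIntegral v hjv hn
    have h4 : y = ((jE k N)⁻¹) ^ n * (jE k N ^ n * y) := by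
      rw [← mul_assoc, ← mul_pow, inv_mul_cancel₀ hj0, one_pow, one_mul]
    rw [h4]
    exact mul_mem (pow_mem hv n) h3

theorem IntCrit_isIntegral_map_iff {k F L : Type*} [Field k] [Field F] [Field L] [Algebra k F]
    [Algebra k L] (φ : F →ₐ[k] L) (c y : F) :
    IsIntegral (Algebra.adjoin k {φ c}) (φ y) ↔ IsIntegral (Algebra.adjoin k {c}) y := by
  have hmap : (Algebra.adjoin k {c}).map φ = Algebra.adjoin k {φ c} := by
    rw [AlgHom.map_adjoin, Set.image_singleton]
  have hmem : ∀ z : Algebra.adjoin k {c}, φ z ∈ Algebra.adjoin k {φ c} := fun z => by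
    rw [← hmap]
    exact ⟨z, z.2, rfl⟩
  let g : Algebra.adjoin k {c} →+* Algebra.adjoin k {φ c} :=
    ((φ : F →+* L).comp (algebraMap (Algebra.adjoin k {c}) F)).codRestrict
      (Algebra.adjoin k {φ c}).toSubring hmem
  have hginj : Function.Injective g := by
    intro a b hab
    have h1 : φ a = φ b := congrArg Subtype.val hab
    exact Subtype.ext ((φ : F →+* L).injective h1)
  have hgsurj : Function.Surjective g := by
    rintro ⟨w, hw⟩
    rw [← hmap] at hw
    obtain ⟨z, hz, rfl⟩ := hw
    exact ⟨⟨z, hz⟩, rfl⟩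
  have hcomp : (algebraMap (Algebra.adjoin k {φ c}) L).comp g =
      (φ : F →+* L).comp (algebraMap (Algebra.adjoin k {c}) F) := rfl
  constructor
  · rintro ⟨p, hp, hpe⟩
    obtain ⟨q, rfl⟩ := Polynomial.map_surjective g hgsurj p
    refine ⟨q, Polynomial.monic_of_injective hginj hp, (φ : F →+* L).injective ?_⟩
    rw [map_zero, Polynomial.hom_eval₂, ← hcomp, ← Polynomial.eval₂_map]
    exact hpe
  · rintro ⟨q, hq, hqe⟩
    refine ⟨q.map g, hq.map g, ?_⟩
    rw [Polynomial.eval₂_map, hcomp]
    have h1 := Polynomial.hom_eval₂ q (algebraMap (Algebra.adjoin k {c}) F) (φ : F →+* L) y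
    rw [hqe, map_zero] at h1
    exact h1.symm

/-- **Leaf IC2.** integrality over `k[c]` does not depend on the ambient field.
PROOF. `IsIntegral (Algebra.adjoin k {c}) y ↔ ∃ P : k[X][X], P.Monic ∧ eval₂ (aeval c).toRingHom y P = 0`
(every element of `Algebra.adjoin k {c}` is `aeval c p`: `Algebra.adjoin_singleton_eq_range_aeval`; lift the
coefficients of a monic polynomial, `Polynomial.lifts_and_degree_eq_and_monic` or by hand), and the
inclusion `EC k N → LaurentSeries k` is an injective `k`-algebra homomorphism (`Polynomial.hom_eval₂`). -/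
theorem isIntegral_coe_iff (c y : EC k N) :
    IsIntegral (Algebra.adjoin k {(c : LaurentSeries k)}) (y : LaurentSeries k) ↔
      IsIntegral (Algebra.adjoin k {c}) y :=
  IntCrit_isIntegral_map_iff (modularFunctionFieldFullC k N).val c y

end Fermat.Agent.S36R.Unit
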