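import Fermat.Agent.S28.CUnit
import Fermat.Agent.GAL.Igusa.CuspEmb

/-!
# S36 route R, block R-UNIT: the modular units `ψ(y, x) = G(y, x) / Φ'_X(y, x)`

`(Φ, U, G, m, c)` = the data of S28, block B at the prime `q` (`S28.BData q Φ U G m c`; existence:
`GAL.Igusa.hB q hq`).  For a pair `(y, x)` of `q`-isogenous `j`-invariants in ANY field,
`psiOf Φ G y x` is the `m`-th power of the "unit" `q¹² Δ(x)/Δ(y)` resp. `Δ(x)/Δ(y)`.
It commutes with all ring homomorphisms (`map_psiOf`), so that its expansions are computed from the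
expansions of `y` and `x`:

* `psiOf_up`      : `ψ(j(t), j(t^q)) = (q¹² Δ(t^q)/Δ(t))^m`
* `psiOf_up2`     : `ψ(j(t^q), j(t^{q²})) = (q¹² Δ(t^{q²})/Δ(t^q))^m`
* `psiOf_tw`      : `ψ(j(t^q), j(ζ^b t)) = (Δ(ζ^b t)/Δ(t^q))^m`
* `psiOf_down`    : `ψ(j(t^q), j(t)) = (Δ(t)/Δ(t^q))^m`
* `psiOf_down2`   : `ψ(j(t^{q²}), j(t^q)) = (Δ(t^q)/Δ(t^{q²}))^m`
-/

set_option autoImplicit false

noncomputable section

namespace Fermat.Agent.S36R.Unit

open ModularCurve Polynomial Fermat.Agent.S28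

/-- `ψ(y, x) = G(y, x) / (∂Φ/∂X)(y, x)`. -/
def psiOf {F : Type*} [Field F] (Φ G : ℤ[X][X]) (y x : F) : F :=
  (G.map (evY y)).eval x / (Φ.map (evY y)).derivative.eval x

theorem map_psiOf {F F' : Type*} [Field F] [Field F'] (f : F →+* F') (Φ G : ℤ[X][X]) (y x : F) :
    f (psiOf Φ G y x) = psiOf Φ G (f y) (f x) := by
  rw [psiOf, psiOf, map_div₀, map_eval_evY, map_eval_derivative_evY]

variable {q : ℕ} [NeZero q] {Φ U G : ℤ[X][X]} {m : ℕ} {c : ℤ}
variable {K : Type} [Field K]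

theorem evBase_eq : evBase q K = evY (qExpand K q (jqModC K)) := rfl

/-- `Φ(j(t^q), X)` is separable. -/
theorem separable_base (hB : BData q Φ U G m c) (hq : q.Prime) (hqK : (q : K) ≠ 0) :
    (Φ.map (evY (qExpand K q (jqModC K)))).Separable := by
  have h := Phi_jd_sep K hB hq
    (by rw [← map_natCast (algebraMap K (AlgebraicClosure K))]
        exact (_root_.map_ne_zero _).mpr hqK) q (NeZero.ne q)
  rwa [jd_eq] at h

theorem natCast_ne_zero_of_prim {ζ : Kˣ} (hζ : IsPrimitiveRoot ζ q) : (q : K) ≠ 0 :=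
  (IsPrimitiveRoot.coe_units_iff.mpr hζ).neZero'.out

theorem psiOf_eq_of_root (hB : BData q Φ U G m c) (hq : q.Prime) (hqK : (q : K) ≠ 0)
    {x u : LaurentSeries K} (hx : (Φ.map (evY (qExpand K q (jqModC K)))).eval x = 0)
    (hu : (G.map (evY (qExpand K q (jqModC K)))).eval x
      = u * (Φ.map (evY (qExpand K q (jqModC K)))).derivative.eval x) :
    psiOf Φ G (qExpand K q (jqModC K)) x = u := by
  have hne : (Φ.map (evY (qExpand K q (jqModC K)))).derivative.eval x ≠ 0 := by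
    have h1 := (separable_base hB hq hqK).eval₂_derivative_ne_zero (RingHom.id _) (x := x)
      (by rwa [eval₂_id])
    rwa [eval₂_id] at h1
  rw [psiOf, hu, mul_div_assoc, div_self hne, mul_one]

/-- `ψ(j(t^q), j(t^{q²})) = (q¹² Δ(t^{q²})/Δ(t^q))^m`. -/
theorem psiOf_up2 (hB : BData q Φ U G m c) (hq : q.Prime) (ζ : Kˣ) (hζ : IsPrimitiveRoot ζ q) :
    psiOf Φ G (qExpand K q (jqModC K)) (qExpand K q (qExpand K q (jqModC K))) = unitInf q K ^ m := by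
  obtain ⟨hfac, hInf, -⟩ := hB.2.2.2.2.2.2 K ζ hζ
  refine psiOf_eq_of_root hB hq (natCast_ne_zero_of_prim hζ) ?_ hInf
  rw [← evBase_eq, hfac, eval_mul]
  simp [rootInf]

/-- `ψ(j(t^q), j(ζ^b t)) = (Δ(ζ^b t)/Δ(t^q))^m`. -/
theorem psiOf_tw (hB : BData q Φ U G m c) (hq : q.Prime) (ζ : Kˣ) (hζ : IsPrimitiveRoot ζ q)
    (b : ℕ) (hb : b < q) :
    psiOf Φ G (qExpand K q (jqModC K)) (twist (ζ ^ b) (jqModC K)) = unitFin q ζ b ^ m := by
  obtain ⟨hfac, -, hFin⟩ := hB.2.2.2.2.2.2 K ζ hζ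
  refine psiOf_eq_of_root hB hq (natCast_ne_zero_of_prim hζ) ?_ (hFin b hb)
  rw [← evBase_eq, hfac, eval_mul, eval_prod,
    Finset.prod_eq_zero (Finset.mem_range.mpr hb) (by simp [rootFin]), mul_zero]

/-- `ψ(j(t^q), j(t)) = (Δ(t)/Δ(t^q))^m`. -/
theorem psiOf_down (hB : BData q Φ U G m c) (hq : q.Prime) (ζ : Kˣ) (hζ : IsPrimitiveRoot ζ q) :
    psiOf Φ G (qExpand K q (jqModC K)) (jqModC K) = (DlL K * qExpand K q (DlLinv K)) ^ m := by
  have h := psiOf_tw hB hq ζ hζ 0 (Nat.pos_of_ne_zero (NeZero.ne q))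
  have h1 : ∀ x : LaurentSeries K, twist (ζ ^ 0) x = x := by
    intro x
    ext n
    simp
  rwa [unitFin, h1, h1] at h

/-- `ψ(j(t), j(t^q)) = (q¹² Δ(t^q)/Δ(t))^m`. -/
theorem psiOf_up (hB : BData q Φ U G m c) (hq : q.Prime) (ζ : Kˣ) (hζ : IsPrimitiveRoot ζ q) :
    psiOf Φ G (jqModC K) (qExpand K q (jqModC K))
      = ((q : LaurentSeries K) ^ 12 * qExpand K q (DlL K) * DlLinv K) ^ m := by
  apply (qExpand K q).injective
  rw [map_psiOf, psiOf_up2 hB hq ζ hζ, unitInf, map_pow, map_mul, map_mul, map_pow, map_natCast]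

/-- `ψ(j(t^{q²}), j(t^q)) = (Δ(t^q)/Δ(t^{q²}))^m`. -/
theorem psiOf_down2 (hB : BData q Φ U G m c) (hq : q.Prime) (ζ : Kˣ) (hζ : IsPrimitiveRoot ζ q) :
    psiOf Φ G (qExpand K q (qExpand K q (jqModC K))) (qExpand K q (jqModC K))
      = (qExpand K q (DlL K) * qExpand K q (qExpand K q (DlLinv K))) ^ m := by
  rw [← map_psiOf, psiOf_down hB hq ζ hζ, map_pow, map_mul]

end Fermat.Agent.S36R.Unit
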