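import Fermat.Agent.S36R.Unit.ConcCut

/-!
# S36 route R, block R-UNIT (concrete part): incidence of the three components on `R₀`

`PointOK.inc` at every prime `𝔫 ∋ q` of `R₀ = Bridge.RR (O0 A) S.j`.
-/

set_option autoImplicit false
set_option linter.unusedSectionVars false

noncomputable section

namespace Fermat.Agent.S36R.Unit.Conc

open ModularCurve Polynomial Fermat.Agent.S24 Fermat.Agent.S28 Fermat.Agent.GAL Fermat.Agent.GAL.Gauss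
  Fermat.Agent.S36R.NormC Fermat.Agent.S36R.Val Fermat.Agent.S36R.Unit Fermat.Agent.S36.StepA
  Fermat.Agent.S36R.Bridge Fermat.Agent.S36R.Inj

theorem one_or_all (T : Fin 3 → Prop) (h : ∃ i, T i) (h01 : T 0 → T 1 → T 2) (h02 : T 0 → T 2 → T 1)
    (h12 : T 1 → T 2 → T 0) : (∃! i, T i) ∨ ∀ i, T i := by
  by_cases h0 : T 0 <;> by_cases h1 : T 1 <;> by_cases h2 : T 2
  · right
    intro i
    fin_cases i
    · exact h0
    · exact h1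
    · exact h2
  · exact absurd (h01 h0 h1) h2
  · exact absurd (h02 h0 h2) h1
  · left
    refine ⟨0, h0, fun j hj => ?_⟩
    fin_cases j
    · rfl
    · exact absurd hj h1
    · exact absurd hj h2
  · exact absurd (h12 h1 h2) h0
  · left
    refine ⟨1, h1, fun j hj => ?_⟩
    fin_cases j
    · exact absurd hj h0
    · rfl
    · exact absurd hj h2
  · left
    refine ⟨2, h2, fun j hj => ?_⟩
    fin_cases j
    · exact absurd hj h0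
    · exact absurd hj h1
    · rfl
  · obtain ⟨i, hi⟩ := h
    fin_cases i
    · exact absurd hi h0
    · exact absurd hi h1
    · exact absurd hi h2

/-- abstract: `x ≡ y ^ n` on a component through `𝔫`. -/
theorem mem_iff_of_cg {F : Type*} [Field F] {ι : Type*} {W : ι → ValuationSubring F} {R : Subring F}
    (𝔫 : Ideal R) [𝔫.IsPrime] {i : ι} (ht : Thru W 𝔫 i) (x y : R) {n : ℕ} (hn : 0 < n)
    (h : Cg (W i) (x : F) ((y : F) ^ n)) : x ∈ 𝔫 ↔ y ∈ 𝔫 := by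
  have h1 : x - y ^ n ∈ 𝔫 := ht _ (by push_cast; exact h)
  constructor
  · intro hx
    have h2 : y ^ n ∈ 𝔫 := by
      have := 𝔫.sub_mem hx h1
      rwa [sub_sub_cancel] at this
    exact Ideal.IsPrime.mem_of_pow_mem ‹_› n h2
  · intro hy
    have h2 : y ^ n ∈ 𝔫 := Ideal.pow_mem_of_mem 𝔫 hy n hn
    have := 𝔫.add_mem h1 h2
    rwa [sub_add_cancel] at this

variable {A : ValuationSubring Kbar} {M q : ℕ} [NeZero M] [NeZero q] (S : Setup A M q)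
variable {m : ℕ} {Φ U G : ℤ[X][X]} {c : ℤ}

/-- **`PointOK.inc` on the affine chart.** -/
theorem inc_R0 (hB : BData q Φ U G m c) (hV : Vert (q : O0 A) S.W (q - 1))
    (hR : Chart (q : O0 A) S.W S.j (RR (O0 A) S.j))
    (eW0 : ∀ z : S.F, z ≠ 0 → ∃ x : ℤ, IsU (S.W 0) (z / (q : S.F) ^ x))
    (eW2 : ∀ z : S.F, z ≠ 0 → ∃ x : ℤ, IsU (S.W 2) (z / (q : S.F) ^ x))
    (𝔫 : Ideal (RR (O0 A) S.j)) [𝔫.IsPrime]
    (hq : ∀ x : RR (O0 A) S.j, (x : S.F) = algebraMap (O0 A) S.F (q : O0 A) → x ∈ 𝔫) :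
    (∃! i, Thru S.W 𝔫 i) ∨ ∀ i, Thru S.W 𝔫 i := by
  have hq1 : 0 < q - 1 := Nat.sub_pos_of_lt S.hq.one_lt
  have hA := (isCut_psiA S hB hV eW0).mem_iff_thru hR 𝔫 ⟨_, psiA_mem S hB⟩ rfl
  have hBm := (isCut_psiB S hB hV).mem_iff_thru hR 𝔫 ⟨_, psiB_mem S hB hR⟩ rfl
  have hC := (isCut_psiC S hB hV eW2).mem_iff_thru hR 𝔫 ⟨_, psiC_mem S hB⟩ rfl
  have k0 : Thru S.W 𝔫 0 → (Thru S.W 𝔫 1 ↔ Thru S.W 𝔫 2) := fun ht => by
    rw [← hBm, ← hC]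
    exact mem_iff_of_cg 𝔫 ht _ _ hq1 (cg0_psiB S hB)
  have k2 : Thru S.W 𝔫 2 → (Thru S.W 𝔫 1 ↔ Thru S.W 𝔫 0) := fun ht => by
    rw [← hBm, ← hA]
    exact mem_iff_of_cg 𝔫 ht _ _ hq1 (cg2_psiB S hB)
  exact one_or_all _ (exists_thru hV hR 𝔫 hq) (fun h0 h1 => (k0 h0).1 h1)
    (fun h0 h2 => (k0 h0).2 h2) (fun h1 h2 => (k2 h2).1 h1)

/-- the same for `D = S.lvl`. -/
theorem inc_R0_lvl (hB : BData q Φ U G m c) (hV : Vert (q : O0 A) S.lvl.W (q - 1))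
    (hR : Chart (q : O0 A) S.lvl.W S.j (RR (O0 A) S.j))
    (eW0 : ∀ z : S.F, z ≠ 0 → ∃ x : ℤ, IsU (S.lvl.W 0) (z / (q : S.F) ^ x))
    (eW2 : ∀ z : S.F, z ≠ 0 → ∃ x : ℤ, IsU (S.lvl.W 2) (z / (q : S.F) ^ x))
    (𝔫 : Ideal (RR (O0 A) S.j)) [𝔫.IsPrime]
    (hq : ∀ x : RR (O0 A) S.j, (x : S.F) = algebraMap (O0 A) S.F (q : O0 A) → x ∈ 𝔫) :
    (∃! i, Thru S.lvl.W 𝔫 i) ∨ ∀ i, Thru S.lvl.W 𝔫 i :=
  inc_R0 S hB hV hR eW0 eW2 𝔫 hq

end Fermat.Agent.S36R.Unit.Conc
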