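import Fermat.Agent.S36R.Unit.ConcTab

/-!
# S36 route R, block R-UNIT (concrete part): residues and valuations of `psiA, psiB, psiC`

With `H = Hs k q m = Δ̄^{(1-q) m}`:

|        | `psiA`                 | `psiB`                  | `psiC`                  |
|--------|------------------------|-------------------------|-------------------------|
| `e0`   | `q^(12m) · (H^{-q})`   | `H^(q-1)`               | `H`                     |
| `e1`   | `H`                    | `q^(12m) · (H^{-2})`    | `H`                     |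
| `e2`   | `H`                    | `H^(q-1)`               | `q^(12m) · (H^{-q})`    |
-/

set_option autoImplicit false
set_option linter.unusedSectionVars false

noncomputable section

namespace Fermat.Agent.S36R.Unit.Conc

open ModularCurve Polynomial Fermat.Agent.S24 Fermat.Agent.S28 Fermat.Agent.GAL Fermat.Agent.GAL.Gauss
  Fermat.Agent.S36R.NormC Fermat.Agent.S36R.Val Fermat.Agent.S36R.Unit Fermat.Agent.S36.StepA

variable {A : ValuationSubring Kbar} {M q : ℕ} [NeZero M] [NeZero q] (S : Setup A M q)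

set_option quotPrecheck false in
local notation "𝕜" => IsLocalRing.ResidueField ↥A

include S in
theorem charP_k : CharP 𝕜 q := Hecke.charP_residueField A S.hq S.hA

variable (m : ℕ)

include S in
theorem GR_sUp : GR A (sUp q m) (Hs 𝕜 q m)⁻¹ := by
  have := charP_k S
  have : Fact q.Prime := ⟨S.hq⟩
  exact GR_up m

include S in
theorem GR_sUp2 : GR A (sUp2 q m) (Hs 𝕜 q m ^ q)⁻¹ := by
  have := charP_k S
  have : Fact q.Prime := ⟨S.hq⟩
  exact GR_up2 m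

include S in
theorem GR_sDn : GR A (sDn q m) (Hs 𝕜 q m) := by
  have := charP_k S
  have : Fact q.Prime := ⟨S.hq⟩
  exact GR_down m

include S in
theorem GR_sDn2 : GR A (sDn2 q m) (Hs 𝕜 q m ^ q) := by
  have := charP_k S
  have : Fact q.Prime := ⟨S.hq⟩
  exact GR_down2 m

theorem GR_sTw : GR A (sTw S m) (Hs 𝕜 q m) := by
  have := charP_k S
  have : Fact q.Prime := ⟨S.hq⟩
  obtain ⟨h1, h2⟩ := KS.zeta_mem A q S.hζ.pow_eq_one
  exact GR_tw m (hζ0 S) h1 h2 (KS.residue_zeta A q S.hζ.pow_eq_one h1)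

theorem qL_ne_zero : (q : LaurentSeries Kbar) ≠ 0 := by
  rw [← map_natCast (HahnSeries.C : Kbar →+* LaurentSeries Kbar)]
  exact (_root_.map_ne_zero _).2 (Nat.cast_ne_zero.2 (NeZero.ne q))

theorem qF_ne_zero : (q : S.F) ≠ 0 := Nat.cast_ne_zero.2 (NeZero.ne q)

theorem Hs_pow_sub_one : (Hs 𝕜 q m) ^ q / Hs 𝕜 q m = Hs 𝕜 q m ^ (q - 1) := by
  have hq : q - 1 + 1 = q := Nat.sub_add_cancel (Nat.pos_of_ne_zero (NeZero.ne q))
  rw [div_eq_iff (Hs_ne_zero 𝕜 q m), ← pow_succ, hq]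

variable {m} {Φ U G : ℤ[X][X]} {c : ℤ}

/-! ### expansions -/

theorem e0_psiA (hB : BData q Φ U G m c) :
    S.e0 (psiA S Φ G) = (q : LaurentSeries Kbar) ^ (12 * m) * sUp2 q m := e0_U2 S hB

theorem e1_psiA (hB : BData q Φ U G m c) : S.e1 (psiA S Φ G) = sTw S m := e1_U2 S hB

theorem e2_psiA (hB : BData q Φ U G m c) : S.e2 (psiA S Φ G) = sDn q m := e2_U2 S hB

theorem e0_psiB (hB : BData q Φ U G m c) : S.e0 (psiB S Φ G) = sUp q m / sUp2 q m := by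
  rw [psiB, map_div₀, e0_U1 S hB, e0_U2 S hB, mul_div_mul_left _ _ (pow_ne_zero _ qL_ne_zero)]

theorem e1_psiB (hB : BData q Φ U G m c) :
    S.e1 (psiB S Φ G) = (q : LaurentSeries Kbar) ^ (12 * m) * (sUp q m / sTw S m) := by
  rw [psiB, map_div₀, e1_U1 S hB, e1_U2 S hB, mul_div_assoc]

theorem e2_psiB (hB : BData q Φ U G m c) : S.e2 (psiB S Φ G) = sDn2 q m / sDn q m := by
  rw [psiB, map_div₀, e2_U1 S hB, e2_U2 S hB]

theorem e0_psiC (hB : BData q Φ U G m c) : S.e0 (psiC S Φ G m) = (sUp q m)⁻¹ := by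
  rw [psiC, map_div₀, e0_U1 S hB, map_pow, map_natCast, div_mul_cancel_left₀
    (pow_ne_zero _ qL_ne_zero)]

theorem e1_psiC (hB : BData q Φ U G m c) : S.e1 (psiC S Φ G m) = (sUp q m)⁻¹ := by
  rw [psiC, map_div₀, e1_U1 S hB, map_pow, map_natCast, div_mul_cancel_left₀
    (pow_ne_zero _ qL_ne_zero)]

theorem e2_psiC (hB : BData q Φ U G m c) :
    S.e2 (psiC S Φ G m) = (q : LaurentSeries Kbar) ^ (12 * m) * (sDn2 q m)⁻¹ := by
  rw [psiC, map_div₀, e2_U1 S hB, map_pow, map_natCast, div_eq_mul_inv]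

/-! ### residues -/

theorem GR_e0_psiB (hB : BData q Φ U G m c) : GR A (S.e0 (psiB S Φ G)) (Hs 𝕜 q m ^ (q - 1)) := by
  rw [e0_psiB S hB]
  have h := (GR_sUp S m).div (GR_sUp2 S m) (inv_ne_zero (pow_ne_zero _ (Hs_ne_zero 𝕜 q m)))
  rwa [inv_div_inv, Hs_pow_sub_one] at h

theorem GR_e0_psiC (hB : BData q Φ U G m c) : GR A (S.e0 (psiC S Φ G m)) (Hs 𝕜 q m) := by
  rw [e0_psiC S hB]
  have h := (GR_sUp S m).inv (inv_ne_zero (Hs_ne_zero 𝕜 q m))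
  rwa [inv_inv] at h

theorem GR_e1_psiA (hB : BData q Φ U G m c) : GR A (S.e1 (psiA S Φ G)) (Hs 𝕜 q m) := by
  rw [e1_psiA S hB]
  exact GR_sTw S m

theorem GR_e1_psiC (hB : BData q Φ U G m c) : GR A (S.e1 (psiC S Φ G m)) (Hs 𝕜 q m) := by
  rw [e1_psiC S hB]
  have h := (GR_sUp S m).inv (inv_ne_zero (Hs_ne_zero 𝕜 q m))
  rwa [inv_inv] at h

theorem GR_e2_psiA (hB : BData q Φ U G m c) : GR A (S.e2 (psiA S Φ G)) (Hs 𝕜 q m) := by
  rw [e2_psiA S hB]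
  exact GR_sDn S m

theorem GR_e2_psiB (hB : BData q Φ U G m c) : GR A (S.e2 (psiB S Φ G)) (Hs 𝕜 q m ^ (q - 1)) := by
  rw [e2_psiB S hB]
  have h := (GR_sDn2 S m).div (GR_sDn S m) (Hs_ne_zero 𝕜 q m)
  rwa [Hs_pow_sub_one] at h

theorem GR_e0_psiA (hB : BData q Φ U G m c) :
    GR A (S.e0 (psiA S Φ G / (q : S.F) ^ (12 * m))) (Hs 𝕜 q m ^ q)⁻¹ := by
  rw [map_div₀, e0_psiA S hB, map_pow, map_natCast, mul_div_cancel_left₀ _
    (pow_ne_zero _ qL_ne_zero)]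
  exact GR_sUp2 S m

theorem GR_e1_psiB (hB : BData q Φ U G m c) :
    GR A (S.e1 (psiB S Φ G / (q : S.F) ^ (12 * m))) ((Hs 𝕜 q m)⁻¹ / Hs 𝕜 q m) := by
  rw [map_div₀, e1_psiB S hB, map_pow, map_natCast, mul_div_cancel_left₀ _
    (pow_ne_zero _ qL_ne_zero)]
  exact (GR_sUp S m).div (GR_sTw S m) (Hs_ne_zero 𝕜 q m)

theorem GR_e2_psiC (hB : BData q Φ U G m c) :
    GR A (S.e2 (psiC S Φ G m / (q : S.F) ^ (12 * m))) (Hs 𝕜 q m ^ q)⁻¹ := by
  rw [map_div₀, e2_psiC S hB, map_pow, map_natCast, mul_div_cancel_left₀ _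
    (pow_ne_zero _ qL_ne_zero)]
  exact (GR_sDn2 S m).inv (pow_ne_zero _ (Hs_ne_zero 𝕜 q m))

/-! ### valuations -/

theorem isU_of_GR0 {x : S.F} {r : LaurentSeries 𝕜} (h : GR A (S.e0 x) r) (hr : r ≠ 0) :
    IsU (S.W 0) x :=
  (isU_gVS_iff (h := S.normable_e0)).2 ⟨r, hr, h⟩

theorem isU_of_GR1 {x : S.F} {r : LaurentSeries 𝕜} (h : GR A (S.e1 x) r) (hr : r ≠ 0) :
    IsU (S.W 1) x :=
  (isU_gVS_iff (h := S.normable_e1)).2 ⟨r, hr, h⟩

theorem isU_of_GR2 {x : S.F} {r : LaurentSeries 𝕜} (h : GR A (S.e2 x) r) (hr : r ≠ 0) :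
    IsU (S.W 2) x :=
  (isU_gVS_iff (h := S.normable_e2)).2 ⟨r, hr, h⟩

theorem cg_of_GR0 {x y : S.F} {r : LaurentSeries 𝕜} (h : GR A (S.e0 x) r) (h' : GR A (S.e0 y) r) :
    Cg (S.W 0) x y := cg_of_red (h := S.normable_e0) h h'

theorem cg_of_GR1 {x y : S.F} {r : LaurentSeries 𝕜} (h : GR A (S.e1 x) r) (h' : GR A (S.e1 y) r) :
    Cg (S.W 1) x y := cg_of_red (h := S.normable_e1) h h'

theorem cg_of_GR2 {x y : S.F} {r : LaurentSeries 𝕜} (h : GR A (S.e2 x) r) (h' : GR A (S.e2 y) r) :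
    Cg (S.W 2) x y := cg_of_red (h := S.normable_e2) h h'

theorem isU0_psiA (hB : BData q Φ U G m c) : IsU (S.W 0) (psiA S Φ G / (q : S.F) ^ (12 * m)) :=
  isU_of_GR0 S (GR_e0_psiA S hB) (inv_ne_zero (pow_ne_zero _ (Hs_ne_zero 𝕜 q m)))

theorem isU1_psiA (hB : BData q Φ U G m c) : IsU (S.W 1) (psiA S Φ G) :=
  isU_of_GR1 S (GR_e1_psiA S hB) (Hs_ne_zero 𝕜 q m)

theorem isU2_psiA (hB : BData q Φ U G m c) : IsU (S.W 2) (psiA S Φ G) :=
  isU_of_GR2 S (GR_e2_psiA S hB) (Hs_ne_zero 𝕜 q m)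

theorem isU0_psiB (hB : BData q Φ U G m c) : IsU (S.W 0) (psiB S Φ G) :=
  isU_of_GR0 S (GR_e0_psiB S hB) (pow_ne_zero _ (Hs_ne_zero 𝕜 q m))

theorem isU1_psiB (hB : BData q Φ U G m c) : IsU (S.W 1) (psiB S Φ G / (q : S.F) ^ (12 * m)) :=
  isU_of_GR1 S (GR_e1_psiB S hB)
    (div_ne_zero (inv_ne_zero (Hs_ne_zero 𝕜 q m)) (Hs_ne_zero 𝕜 q m))

theorem isU2_psiB (hB : BData q Φ U G m c) : IsU (S.W 2) (psiB S Φ G) :=
  isU_of_GR2 S (GR_e2_psiB S hB) (pow_ne_zero _ (Hs_ne_zero 𝕜 q m))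

theorem isU0_psiC (hB : BData q Φ U G m c) : IsU (S.W 0) (psiC S Φ G m) :=
  isU_of_GR0 S (GR_e0_psiC S hB) (Hs_ne_zero 𝕜 q m)

theorem isU1_psiC (hB : BData q Φ U G m c) : IsU (S.W 1) (psiC S Φ G m) :=
  isU_of_GR1 S (GR_e1_psiC S hB) (Hs_ne_zero 𝕜 q m)

theorem isU2_psiC (hB : BData q Φ U G m c) : IsU (S.W 2) (psiC S Φ G m / (q : S.F) ^ (12 * m)) :=
  isU_of_GR2 S (GR_e2_psiC S hB) (inv_ne_zero (pow_ne_zero _ (Hs_ne_zero 𝕜 q m)))

/-! ### the congruences -/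

/-- `ψ_b ≡ ψ_c^(q-1)` on `W20`. -/
theorem cg0_psiB (hB : BData q Φ U G m c) : Cg (S.W 0) (psiB S Φ G) (psiC S Φ G m ^ (q - 1)) := by
  refine cg_of_GR0 S (GR_e0_psiB S hB) ?_
  rw [map_pow]
  exact (GR_e0_psiC S hB).pow _

/-- `ψ_b ≡ ψ_a^(q-1)` on `W02`. -/
theorem cg2_psiB (hB : BData q Φ U G m c) : Cg (S.W 2) (psiB S Φ G) (psiA S Φ G ^ (q - 1)) := by
  refine cg_of_GR2 S (GR_e2_psiB S hB) ?_
  rw [map_pow]
  exact (GR_e2_psiA S hB).pow _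

/-- `ψ_a ≡ ψ_c` on `W11`. -/
theorem cg1_psiA (hB : BData q Φ U G m c) : Cg (S.W 1) (psiA S Φ G) (psiC S Φ G m) :=
  cg_of_GR1 S (GR_e1_psiA S hB) (GR_e1_psiC S hB)

/-! ### the expansion of `ψ_b` at the middle cusp -/

theorem psiB_aux {L : Type*} [CommRing L] (Q a a' b d d' : L) (h1 : a * a' = 1) (h2 : d * d' = 1) :
    Q * (a * b) = Q * a ^ 2 * b * d' * (d * a') := by
  linear_combination (-(Q * a * b * d * d')) * h1 - (Q * a * b) * h2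

theorem e1_psiB_eq (hB : BData q Φ U G m c) :
    S.e1 (psiB S Φ G) = KS.psiB q S.ζ (hζ0 S) m := by
  have h1 : qExpand Kbar q (DlL Kbar) * qExpand Kbar q (DlLinv Kbar) = 1 := by
    rw [← map_mul, DlL_mul_DlLinv, map_one]
  have h2 : S24.twist S.ζ (hζ0 S) (DlL Kbar) * S24.twist S.ζ (hζ0 S) (DlLinv Kbar) = 1 := by
    rw [← map_mul, DlL_mul_DlLinv, map_one]
  have h3 : sTw S m ≠ 0 := by
    rw [sTw]
    exact pow_ne_zero _ (mul_ne_zero (left_ne_zero_of_mul_eq_one h2) (right_ne_zero_of_mul_eq_one h1))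
  rw [e1_psiB S hB, ← mul_div_assoc, div_eq_iff h3, KS.psiB, sUp, sTw, pow_mul, ← mul_pow, ← mul_pow,
    psiB_aux _ _ _ _ _ _ h1 h2]

end Fermat.Agent.S36R.Unit.Conc
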