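import Fermat.Agent.S36R.Unit.Gauss

/-!
# S36 route R, block R-UNIT: the table of residues of the `Δ`-quotients

`Hs k q m = (Δ̄ / Δ̄^q)^m ∈ k((t))`  (the `12 m`-th power of the Hasse invariant divided by `Δ̄^{(q-1) m}`... as a
function: `Δ̄^{(1-q) m}`).
-/

set_option autoImplicit false

noncomputable section

namespace Fermat.Agent.S36R.Unit

open ModularCurve Fermat.Agent.S28 Fermat.Agent.GAL.Gauss

/-- `Δ̄^{(1-q) m}`. -/
def Hs (k : Type*) [Field k] (q m : ℕ) : LaurentSeries k := (DlL k * DlLinv k ^ q) ^ m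

theorem DlL_ne_zero (k : Type*) [Field k] : DlL k ≠ 0 :=
  left_ne_zero_of_mul_eq_one (DlL_mul_DlLinv k)

theorem DlLinv_eq_inv (k : Type*) [Field k] : DlLinv k = (DlL k)⁻¹ :=
  eq_inv_of_mul_eq_one_right (DlL_mul_DlLinv k)

theorem Hs_ne_zero (k : Type*) [Field k] (q m : ℕ) : Hs k q m ≠ 0 := by
  rw [Hs, DlLinv_eq_inv]
  exact pow_ne_zero _ (mul_ne_zero (DlL_ne_zero k) (pow_ne_zero _ (inv_ne_zero (DlL_ne_zero k))))

theorem twist_eq {K : Type*} [Field K] (ζ : K) (hζ0 : ζ ≠ 0) (x : LaurentSeries K) :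
    Fermat.Agent.S24.twist ζ hζ0 x = Fermat.Agent.S28.twist (Units.mk0 ζ hζ0) x := by
  ext n
  rw [Fermat.Agent.S24.twist_coeff, Fermat.Agent.S28.twist_coeff, Units.val_zpow_eq_zpow_val,
    Units.val_mk0]

theorem qExpand_Hs (k : Type*) [Field k] (q : ℕ) [NeZero q] [Fact q.Prime] [CharP k q] (m : ℕ) :
    qExpand k q (Hs k q m) = Hs k q m ^ q := by
  rw [Hs, map_pow, map_mul, map_pow, qExpand_Dl, qExpand_Dlinv, ← mul_pow, ← pow_mul, ← pow_mul,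
    mul_comm m q]

section Table

variable {K : Type*} [Field K] {A : ValuationSubring K} {q : ℕ} [NeZero q] [Fact q.Prime]
  [CharP (IsLocalRing.ResidueField ↥A) q] (m : ℕ)

/-- `(Δ(t)/Δ(t^q))^m ↦ H`. -/
theorem GR_down : GR A ((DlL K * qExpand K q (DlLinv K)) ^ m) (Hs (IsLocalRing.ResidueField ↥A) q m) := by
  have h := ((GR_Dl (A := A)).mul ((GR_Dlinv (A := A)).qExpand q)).pow m
  rwa [qExpand_Dlinv (IsLocalRing.ResidueField ↥A) q] at h

/-- `(Δ(c t)/Δ(t^q))^m ↦ H` if `c ≡ 1`. -/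
theorem GR_tw {c : K} (hc0 : c ≠ 0) (hc : c ∈ A) (hc' : c⁻¹ ∈ A)
    (h1 : IsLocalRing.residue ↥A ⟨c, hc⟩ = 1) :
    GR A ((Fermat.Agent.S24.twist c hc0 (DlL K) * qExpand K q (DlLinv K)) ^ m)
      (Hs (IsLocalRing.ResidueField ↥A) q m) := by
  have h := (((GR_Dl (A := A)).twist hc0 hc hc' h1).mul ((GR_Dlinv (A := A)).qExpand q)).pow m
  rwa [qExpand_Dlinv (IsLocalRing.ResidueField ↥A) q] at h

/-- `(Δ(t^q)/Δ(t))^m ↦ H⁻¹`. -/
theorem GR_up : GR A ((qExpand K q (DlL K) * DlLinv K) ^ m) (Hs (IsLocalRing.ResidueField ↥A) q m)⁻¹ := by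
  have h := (((GR_Dl (A := A)).qExpand q).mul (GR_Dlinv (A := A))).pow m
  rw [qExpand_Dl (IsLocalRing.ResidueField ↥A) q] at h
  convert h using 1
  rw [Hs, DlLinv_eq_inv, ← inv_pow, mul_inv, inv_pow, inv_inv, mul_comm]

/-- `(Δ(t^{q²})/Δ(t^q))^m ↦ H^{-q}`. -/
theorem GR_up2 : GR A ((qExpand K q (qExpand K q (DlL K)) * qExpand K q (DlLinv K)) ^ m)
    (Hs (IsLocalRing.ResidueField ↥A) q m ^ q)⁻¹ := by
  have h := (GR_up (A := A) (q := q) m).qExpand q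
  rw [map_pow, map_mul] at h
  convert h using 1
  rw [map_inv₀, qExpand_Hs]

/-- `(Δ(t^q)/Δ(t^{q²}))^m ↦ H^q`. -/
theorem GR_down2 : GR A ((qExpand K q (DlL K) * qExpand K q (qExpand K q (DlLinv K))) ^ m)
    (Hs (IsLocalRing.ResidueField ↥A) q m ^ q) := by
  have h := (GR_down (A := A) (q := q) m).qExpand q
  rw [map_pow, map_mul] at h
  convert h using 1
  rw [qExpand_Hs]

end Table

end Fermat.Agent.S36R.Unit
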