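import Fermat.Agent.S36R.Unit.Units

/-!
# S36 route R, block R-UNIT: `U1`, `U2` are units outside the cusps (integrality over `Kbar[j]`)
-/

set_option autoImplicit false

noncomputable section

namespace Fermat.Agent.S36R.Unit

open ModularCurve Polynomial Fermat.Agent.S28 Fermat.Agent.GAL.Gauss Fermat.Agent.S24
  Fermat.Agent.S36R.Inj

variable {A : ValuationSubring Kbar} {q : ℕ} [NeZero q] {ζ : Kbar} {hζ0 : ζ ≠ 0}
  {F : Type*} [Field F] (T : Frame A q ζ hζ0 F) {Φ U G : ℤ[X][X]} {m : ℕ} {c₀ : ℤ}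

namespace Frame

section Integral

variable (hB : BData q Φ U G m c₀) (hq : q.Prime) (hζ : IsPrimitiveRoot ζ q)
include hB hq hζ

/-- **Leaf AF1a.** `φ 0 U1` and its inverse are integral over `Kbar[j]`.
PROOF. `phi0_U1` (or directly `U1`, `map_psiOf`, `T.h00`, `T.h01`, `psiOf_up`): `φ 0 U1 = u ^ m` with
`u = q¹² Δ(t^q) Δ(t)⁻¹`.  `S28.isIntegral_unit Kbar (q * q) GAL.Igusa.hB hN (p := q) (d := 1) hq _` gives the integrality of
`u`, `u⁻¹` (rewrite `qExpand Kbar (q * 1)` with `qExpand_congr (mul_one q)`, `qExpand Kbar 1` with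
`qExpand_one_apply`); `IsIntegral.pow`, `inv_pow`. -/
theorem isIntegral_U1 : IsIntegral ↥(AA Kbar) (T.φ 0 (T.U1 Φ G)) ∧
    IsIntegral ↥(AA Kbar) (T.φ 0 (T.U1 Φ G))⁻¹ := by
  have : NeZero (q * q) := ⟨mul_ne_zero (NeZero.ne q) (NeZero.ne q)⟩
  have : NeZero (q * 1) := ⟨by rw [mul_one]; exact NeZero.ne q⟩
  have hN : ((q * q : ℕ) : Kbar) ≠ 0 := Nat.cast_ne_zero.mpr (NeZero.ne (q * q))
  obtain ⟨h1, h2⟩ := isIntegral_unit Kbar (q * q) Fermat.Agent.GAL.Igusa.hB hN (p := q) (d := 1) hq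
    (by rw [mul_one]; exact Dvd.intro q rfl)
  rw [qExpand_congr (mul_one q), qExpand_one_apply] at h1 h2
  rw [U1, map_psiOf, T.h00, T.h01, psiOf_up hB hq _ (prim_unit hζ0 hζ), ← inv_pow]
  exact ⟨h1.pow m, h2.pow m⟩

/-- **Leaf AF1b.** `φ 0 U2` and its inverse are integral over `Kbar[j]`.
PROOF. the same with `d = q` (`qExpand_qExpand`: `qExpand q (qExpand q x) = qExpand (q * q) x`), `psiOf_up2`, `unitInf`. -/
theorem isIntegral_U2 : IsIntegral ↥(AA Kbar) (T.φ 0 (T.U2 Φ G)) ∧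
    IsIntegral ↥(AA Kbar) (T.φ 0 (T.U2 Φ G))⁻¹ := by
  have : NeZero (q * q) := ⟨mul_ne_zero (NeZero.ne q) (NeZero.ne q)⟩
  have hN : ((q * q : ℕ) : Kbar) ≠ 0 := Nat.cast_ne_zero.mpr (NeZero.ne (q * q))
  obtain ⟨h1, h2⟩ := isIntegral_unit Kbar (q * q) Fermat.Agent.GAL.Igusa.hB hN (p := q) (d := q) hq
    (dvd_refl _)
  rw [U2, map_psiOf, T.h01, T.h02, psiOf_up2 hB hq _ (prim_unit hζ0 hζ), unitInf, qExpand_qExpand,
    ← inv_pow]
  exact ⟨h1.pow m, h2.pow m⟩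

end Integral

end Frame

end Fermat.Agent.S36R.Unit
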