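import Fermat.Agent.S36R.Inj.Local

/-!
# S36 route R, block R-UNIT: abstract lemmas on a chart

`R` a chart (`Inj.Chart`), `W i` the vertical valuation rings.  Everything is elementwise inside the
field `F`.

* `Chart.mem_of_pow_mul`     : `π ^ k z ∈ R`, `z ∈ W i` for all `i`  ⟹  `z ∈ R`;
* `exists_thru`              : a prime containing `π` contains the centre of some `W i`;
* `IsCut ψ i e`              : `ψ` cuts out the component `i` (set theoretically) on the chart;
* `IsCut.mem_iff_thru`       : `ψ ∈ 𝔫 ↔ Thru W 𝔫 i`;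
* `LocGen`                   : `b` generates the centre of `W i` in the local ring at `𝔫`;
* `locGen_of_unit`           : the principality criterion `a ^ e / ψ` unit at `𝔫`;
* `locGen_pi`                : `π` generates if `e(W i) = 1` and no other component passes through `𝔫`.
-/

set_option autoImplicit false

namespace Fermat.Agent.S36R.Unit

open Fermat.Agent.S36R.Inj

variable {O : Type*} [CommRing O] {F : Type*} [Field F] [Algebra O F] {ι : Type*}
variable {π : O} {W : ι → ValuationSubring F} {c : F} {R : Subring F}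

theorem Chart.mem_of_pow_mul (h : Chart π W c R) (k : ℕ) {z : F}
    (hk : algebraMap O F π ^ k * z ∈ R) (hW : ∀ i, z ∈ W i) : z ∈ R := by
  induction k with
  | zero => simpa using hk
  | succ k ih =>
    apply ih
    apply h.sat
    · rw [← mul_assoc, ← pow_succ']; exact hk
    · intro i
      exact mul_mem (pow_mem (h.algebraMap_mem_W π i) k) (hW i)

/-- `b` generates the centre of `W i` in the local ring of `R` at `𝔫`. -/
def LocGen (W : ι → ValuationSubring F) {R : Subring F} (𝔫 : Ideal R) (i : ι) (b : R) : Prop :=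
  (W i).valuation (b : F) < 1 ∧
    ∀ x : R, (W i).valuation (x : F) < 1 → ∃ s y : R, s ∉ 𝔫 ∧ s * x = b * y

/-- `ψ` cuts out the component `i` on the chart `R`, with exponent `e`. -/
structure IsCut (π : O) (W : ι → ValuationSubring F) (R : Subring F) (ψ : F) (i : ι) (e : ℕ) :
    Prop where
  pos : 0 < e
  lt : (W i).valuation ψ < 1
  ne : ψ ≠ 0
  other : ∀ j, j ≠ i → (W j).valuation ψ = 1
  pow_le : ∀ z : F, (W i).valuation z < 1 → (W i).valuation z ^ e ≤ (W i).valuation ψ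
  inv : ∃ k : ℕ, algebraMap O F π ^ k * ψ⁻¹ ∈ R

/-- `z ^ e / ψ ∈ R` for `z` in the centre of `W i`. -/
theorem IsCut.pow_div_mem (h : Chart π W c R) {ψ : F} {i : ι} {e : ℕ} (hψ : IsCut π W R ψ i e)
    {z : F} (hz : z ∈ R) (hzi : (W i).valuation z < 1) : z ^ e * ψ⁻¹ ∈ R := by
  obtain ⟨k, hk⟩ := hψ.inv
  apply Chart.mem_of_pow_mul h k
  · have : algebraMap O F π ^ k * (z ^ e * ψ⁻¹) = z ^ e * (algebraMap O F π ^ k * ψ⁻¹) := by ring
    rw [this]; exact mul_mem (pow_mem hz e) hk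
  · intro j
    rw [← ValuationSubring.valuation_le_one_iff, map_mul, map_pow, map_inv₀]
    have hne : (W j).valuation ψ ≠ 0 := (Valuation.ne_zero_iff _).mpr hψ.ne
    by_cases hj : j = i
    · subst hj
      rw [← div_eq_mul_inv]
      exact (div_le_one₀ (zero_lt_iff.mpr hne)).mpr (hψ.pow_le z hzi)
    · rw [hψ.other j hj, inv_one, mul_one]
      exact pow_le_one' ((ValuationSubring.valuation_le_one_iff _ _).mpr (h.le_W j z hz)) e

/-- the component `i` passes through `𝔫` iff `ψ ∈ 𝔫`. -/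
theorem IsCut.thru_of_mem (h : Chart π W c R) {ψ : F} {i : ι} {e : ℕ} (hψ : IsCut π W R ψ i e)
    (𝔫 : Ideal R) [𝔫.IsPrime] (ψR : R) (hψR : (ψR : F) = ψ) (hmem : ψR ∈ 𝔫) : Thru W 𝔫 i := by
  intro x hx
  have h1 := hψ.pow_div_mem h x.2 hx
  have h2 : x ^ e = ψR * ⟨_, h1⟩ := by
    apply Subtype.ext
    push_cast
    rw [hψR]
    field_simp [hψ.ne]
  exact Ideal.IsPrime.mem_of_pow_mem ‹_› e (h2 ▸ 𝔫.mul_mem_right _ hmem)

theorem IsCut.mem_iff_thru (h : Chart π W c R) {ψ : F} {i : ι} {e : ℕ} (hψ : IsCut π W R ψ i e)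
    (𝔫 : Ideal R) [𝔫.IsPrime] (ψR : R) (hψR : (ψR : F) = ψ) : ψR ∈ 𝔫 ↔ Thru W 𝔫 i :=
  ⟨hψ.thru_of_mem h 𝔫 ψR hψR, fun ht => ht ψR (hψR ▸ hψ.lt)⟩

/-- **Principality criterion.** `ψ ≠ 0` such that `z ^ e / ψ ∈ R` for all `z` in the centre of `W i`;
if `a` is in the centre and `u = a ^ e / ψ` is a unit at `𝔫` then `a` generates the centre at `𝔫`. -/
theorem locGen_of_unit (h : Chart π W c R) {ψ : F} {i : ι} {e : ℕ} (he : 0 < e)
    (hψ : ∀ z : R, (W i).valuation (z : F) < 1 → (z : F) ^ e * ψ⁻¹ ∈ R)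
    (𝔫 : Ideal R) (a u : R) (ha : (W i).valuation (a : F) < 1)
    (hu : (u : F) * ψ = (a : F) ^ e) (hψ0 : ψ ≠ 0) (hun : u ∉ 𝔫) : LocGen W 𝔫 i a := by
  refine ⟨ha, fun x hx => ?_⟩
  have hu0 : (u : F) ≠ 0 := by
    intro h0
    apply hun
    have : u = 0 := Subtype.ext h0
    rw [this]; exact zero_mem _
  have ha0 : (a : F) ≠ 0 := by
    intro h0
    rw [h0, zero_pow he.ne'] at hu
    exact (mul_ne_zero hu0 hψ0) hu
  have h1 := hψ x hx
  have h2 : ((u : F) * x * (a : F)⁻¹) ^ e ∈ R := by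
    have : ((u : F) * x * (a : F)⁻¹) ^ e = (u : F) ^ (e - 1) * ((x : F) ^ e * ψ⁻¹) := by
      obtain ⟨e', rfl⟩ : ∃ e', e = e' + 1 := ⟨e - 1, by omega⟩
      rw [mul_pow, mul_pow, inv_pow, ← hu, Nat.add_sub_cancel]
      field_simp
      ring
    rw [this]; exact mul_mem (pow_mem u.2 _) h1
  have h3 := h.root_closed _ e he h2
  refine ⟨u, ⟨_, h3⟩, hun, ?_⟩
  apply Subtype.ext
  push_cast
  field_simp

section Finite

variable [Finite ι] {E : ℕ}

/-- an element of `R`, outside `𝔫`, in the centre of all the `W j` which do not pass through `𝔫`. -/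
theorem exists_off (hRW : ∀ i, ∀ z ∈ R, z ∈ W i) (𝔫 : Ideal R) [𝔫.IsPrime] :
    ∃ s : R, s ∉ 𝔫 ∧ ∀ j, ¬ Thru W 𝔫 j → (W j).valuation (s : F) < 1 := by
  classical
  cases nonempty_fintype ι
  have hch : ∀ j, ∃ x : R, x ∉ 𝔫 ∧ (¬ Thru W 𝔫 j → (W j).valuation (x : F) < 1) := by
    intro j
    by_cases hj : Thru W 𝔫 j
    · exact ⟨1, (Ideal.ne_top_iff_one 𝔫).1 (Ideal.IsPrime.ne_top ‹_›), fun h => absurd hj h⟩
    · simp only [Thru, not_forall] at hj
      obtain ⟨x, hx, hxn⟩ := hj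
      exact ⟨x, hxn, fun _ => hx⟩
  choose x hxn hx using hch
  refine ⟨∏ j, x j, ?_, fun j hj => ?_⟩
  · intro hmem
    obtain ⟨j, -, hj⟩ := (Ideal.IsPrime.prod_mem_iff (hp := ‹_›)).mp hmem
    exact hxn j hj
  · have hle : ∀ (s : Finset ι), (W j).valuation ((∏ l ∈ s, x l : R) : F) ≤ 1 := fun s =>
      (ValuationSubring.valuation_le_one_iff _ _).mpr (hRW j _ (∏ l ∈ s, x l : R).2)
    rw [← Finset.mul_prod_erase Finset.univ x (Finset.mem_univ j)]
    push_cast
    rw [map_mul]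
    have h2 := hle (Finset.univ.erase j)
    push_cast at h2
    exact mul_lt_one_of_lt_of_le (hx j hj) h2

/-- a prime of `R` containing `π` contains the centre of some `W i`. -/
theorem exists_thru (hV : Vert π W E) (h : Chart π W c R) (𝔫 : Ideal R) [𝔫.IsPrime]
    (hπ : ∀ x : R, (x : F) = algebraMap O F π → x ∈ 𝔫) : ∃ i, Thru W 𝔫 i := by
  by_contra hcon
  push Not at hcon
  obtain ⟨s, hs, hsW⟩ := exists_off h.le_W 𝔫
  have h1 : (s : F) ^ E * (algebraMap O F π)⁻¹ ∈ R := by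
    apply h.sat
    · rw [mul_comm, mul_assoc, inv_mul_cancel₀ hV.pi_ne, mul_one]; exact pow_mem s.2 E
    · intro j
      rw [← ValuationSubring.valuation_le_one_iff, map_mul, map_pow, map_inv₀, ← div_eq_mul_inv]
      exact (div_le_one₀ (zero_lt_iff.mpr ((Valuation.ne_zero_iff _).mpr hV.pi_ne))).mpr
        (hV.disc j _ (hsW j (hcon j)))
  have h2 : s ^ E = ⟨algebraMap O F π, h.algebraMap_mem π⟩ * ⟨_, h1⟩ := by
    apply Subtype.ext
    push_cast
    field_simp [hV.pi_ne]
  exact hs (Ideal.IsPrime.mem_of_pow_mem ‹_› E (h2 ▸ 𝔫.mul_mem_right _ (hπ _ rfl)))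

/-- `π` generates the centre of `W i` at `𝔫` if `e(W i) = 1` and `W i` is the only component
through `𝔫`. -/
theorem locGen_pi (hV : Vert π W E) (h : Chart π W c R) (𝔫 : Ideal R) [𝔫.IsPrime] (i : ι)
    (hi : ∀ z : F, (W i).valuation z < 1 → (W i).valuation z ≤ (W i).valuation (algebraMap O F π))
    (hoff : ∀ j, j ≠ i → ¬ Thru W 𝔫 j) :
    LocGen W 𝔫 i ⟨algebraMap O F π, h.algebraMap_mem π⟩ := by
  refine ⟨hV.pi_lt i, fun x hx => ?_⟩
  obtain ⟨s, hs, hsW⟩ := exists_off h.le_W 𝔫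
  have h1 : (s : F) ^ E * x * (algebraMap O F π)⁻¹ ∈ R := by
    apply h.sat
    · rw [mul_comm, mul_assoc, inv_mul_cancel₀ hV.pi_ne, mul_one]
      exact mul_mem (pow_mem s.2 E) x.2
    · intro j
      have hpos := zero_lt_iff.mpr ((Valuation.ne_zero_iff (W j).valuation).mpr hV.pi_ne)
      rw [← ValuationSubring.valuation_le_one_iff, map_mul, map_mul, map_pow, map_inv₀,
        ← div_eq_mul_inv]
      apply (div_le_one₀ hpos).mpr
      by_cases hj : j = i
      · subst hj
        calc (W j).valuation (s : F) ^ E * (W j).valuation (x : F)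
            ≤ 1 * (W j).valuation (x : F) := by
              gcongr
              exact pow_le_one' ((ValuationSubring.valuation_le_one_iff _ _).mpr
                (h.le_W j _ s.2)) E
          _ ≤ _ := by rw [one_mul]; exact hi _ hx
      · calc (W j).valuation (s : F) ^ E * (W j).valuation (x : F)
            ≤ (W j).valuation (s : F) ^ E * 1 := by
              gcongr
              exact (ValuationSubring.valuation_le_one_iff _ _).mpr (h.le_W j _ x.2)
          _ ≤ _ := by rw [mul_one]; exact hV.disc j _ (hsW j (hoff j hj))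
  refine ⟨s ^ E, ⟨_, h1⟩, fun hmem => hs (Ideal.IsPrime.mem_of_pow_mem ‹_› E hmem), ?_⟩
  apply Subtype.ext
  push_cast
  field_simp [hV.pi_ne]

end Finite

end Fermat.Agent.S36R.Unit
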