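import Fermat.Agent.S36R.Unit.AffInt

/-!
# S36 route R, block R-UNIT: the affine chart `R₀` : the `ψ`'s cut out the components

Hypotheses (contracts of the other blocks), for a frame `T` on `F`:
* `hV : Inj.Vert (q : O) T.W (q - 1)`, `chart : Inj.Chart (q : O) T.W c R`      (R-VAL, R-AA)
* `e0, e1, e2` : the value groups (`Lvl.Good.eW0, eW1, eW2`)                      (R-VAL)
* `GF` : the generic fibre criterion: if the expansion `φ 0 x` is integral over `Kbar[j]` then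
  `q ^ k * x ∈ R` for some `k`      (`Unit/GF.lean`).
-/

set_option autoImplicit false

noncomputable section

namespace Fermat.Agent.S36R.Unit

open ModularCurve Polynomial Fermat.Agent.S28 Fermat.Agent.GAL.Gauss Fermat.Agent.S24
  Fermat.Agent.S36R.Inj

variable {A : ValuationSubring Kbar} {q : ℕ} [NeZero q] {ζ : Kbar} {hζ0 : ζ ≠ 0}
  {F : Type*} [Field F] (T : Frame A q ζ hζ0 F) {Φ U G : ℤ[X][X]} {m : ℕ} {c₀ : ℤ}

namespace Frame

section Chart

variable {O : Type*} [CommRing O] [Algebra O F] {c : F} {R : Subring F}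
variable [hqF : Fact q.Prime] [CharP (IsLocalRing.ResidueField ↥A) q]
variable (hB : BData q Φ U G m c₀) (hζ : IsPrimitiveRoot ζ q)
  (hV : Vert (q : O) T.W (q - 1)) (chart : Chart (q : O) T.W c R)
  (e0 : ∀ z : F, z ≠ 0 → ∃ x : ℤ, (T.W 0).valuation (z / (q : F) ^ x) = 1)
  (e1 : ∀ z : F, z ≠ 0 → ∃ x : ℤ, (T.W 1).valuation (z ^ (q - 1) / (q : F) ^ x) = 1)
  (e2 : ∀ z : F, z ≠ 0 → ∃ x : ℤ, (T.W 2).valuation (z / (q : F) ^ x) = 1)
  (GF : ∀ x : F, IsIntegral ↥(AA Kbar) (T.φ 0 x) → ∃ k : ℕ, (q : F) ^ k * x ∈ R)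

include hV in
/-- **Leaf AF2a.** from the value group: `v z < 1 → v z ^ e ≤ v q`.
PROOF. `z = 0`: `e = 0` is impossible?  NO: treat `z = 0` separately only if `e > 0`; for `z = 0`, `e = 0` the claim
`1 ≤ v q` is false, so use `he` at `z = q`... SIMPLER: if `z = 0` and `e = 0`, apply `he 1`: harmless; to avoid this corner
case you may add the hypothesis `0 < e` (all uses have `e = 1` or `e = q - 1 ≥ 1`).
Main case `z ≠ 0`: `v (z ^ e) = v q ^ x` (`x : ℤ`, from `he`, `map_div₀`, `map_zpow₀`, `div_eq_one_iff_eq`); `v z ^ e < 1`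
and `v q < 1` (`hV.pi_lt i`, `map_natCast`) force `x ≥ 1` (if `x ≤ 0` then `v q ^ x ≥ 1`: `one_le_zpow_of_nonpos₀`-like), and
`v q ^ x ≤ v q ^ 1` (`zpow_le_zpow_right_of_le_one₀`). -/
theorem pow_le_of_valueGroup (i : Fin 3) (e : ℕ)
    (he0 : 0 < e)
    (he : ∀ z : F, z ≠ 0 → ∃ x : ℤ, (T.W i).valuation (z ^ e / (q : F) ^ x) = 1) (z : F)
    (hz : (T.W i).valuation z < 1) : (T.W i).valuation z ^ e ≤ (T.W i).valuation (q : F) := by
  have hvq : (T.W i).valuation (q : F) < 1 := by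
    have := hV.pi_lt i
    rwa [map_natCast] at this
  have hq0 : (q : F) ≠ 0 := by
    have := hV.pi_ne
    rwa [map_natCast] at this
  have hvq0 : (T.W i).valuation (q : F) ≠ 0 := (Valuation.ne_zero_iff _).mpr hq0
  by_cases hz0 : z = 0
  · subst hz0
    rw [map_zero, zero_pow he0.ne']
    exact zero_le
  obtain ⟨x, hx⟩ := he z hz0
  rw [map_div₀, map_zpow₀, map_pow, div_eq_one_iff_eq (zpow_ne_zero _ hvq0)] at hx
  rw [hx]
  have hlt : (T.W i).valuation (q : F) ^ x < 1 := hx ▸ pow_lt_one₀ zero_le hz he0.ne'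
  have hx1 : 1 ≤ x := by
    by_contra hcon
    have hx0 : x ≤ 0 := by omega
    obtain ⟨k, hk⟩ : ∃ k : ℕ, x = -(k : ℤ) := ⟨(-x).toNat, by omega⟩
    rw [hk, zpow_neg, zpow_natCast] at hlt
    have h1 : (T.W i).valuation (q : F) ^ k ≤ 1 := pow_le_one₀ zero_le hvq.le
    have h2 : 1 ≤ ((T.W i).valuation (q : F) ^ k)⁻¹ :=
      (one_le_inv₀ (zero_lt_iff.mpr (pow_ne_zero _ hvq0))).mpr h1
    exact absurd hlt (not_lt.mpr h2)
  obtain ⟨k, hk⟩ : ∃ k : ℕ, x = (k : ℤ) + 1 := ⟨(x - 1).toNat, by omega⟩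
  rw [hk, zpow_add₀ hvq0, zpow_natCast, zpow_one]
  calc (T.W i).valuation (q : F) ^ k * (T.W i).valuation (q : F)
      ≤ 1 * (T.W i).valuation (q : F) := by
        gcongr
        exact pow_le_one₀ zero_le hvq.le
    _ = _ := one_mul _

include chart GF in
/-- membership in `R` from the generic fibre criterion and the three valuations. -/
theorem mem_of_GF {x : F} (h : IsIntegral ↥(AA Kbar) (T.φ 0 x)) (hW : ∀ i, x ∈ T.W i) : x ∈ R := by
  obtain ⟨k, hk⟩ := GF x h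
  refine Chart.mem_of_pow_mul chart k ?_ hW
  rwa [map_natCast]


/-- `x ∈ W i` if `x / q ^ E` is integral. -/
theorem mem_W_of_res_div {i : Fin 3} {x : F} {E : ℕ}
    {r : LaurentSeries (IsLocalRing.ResidueField ↥A)} (h : T.Res i (x / (q : F) ^ E) r) :
    x ∈ T.W i := by
  have hq0 : (q : F) ^ E ≠ 0 := pow_ne_zero _ (T.natCast_ne_zero q hqF.out.ne_zero)
  have e : x = (q : F) ^ E * (x / (q : F) ^ E) := by field_simp
  rw [e]
  exact mul_mem (pow_mem (Res.natCast (T := T) (i := i) q).mem E) h.mem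

include hV GF in
/-- the general form of the three `isCut`. -/
theorem isCut_of_table (i : Fin 3) (e E : ℕ) (he0 : 0 < e) (hE : 0 < E) {ψ : F}
    {r : LaurentSeries (IsLocalRing.ResidueField ↥A)} (hr : r ≠ 0)
    (hres : T.Res i (ψ / (q : F) ^ E) r)
    (hoth : ∀ j, j ≠ i → ∃ s, s ≠ 0 ∧ T.Res j ψ s)
    (he : ∀ z : F, z ≠ 0 → ∃ x : ℤ, (T.W i).valuation (z ^ e / (q : F) ^ x) = 1)
    (hint : IsIntegral ↥(AA Kbar) (T.φ 0 ψ)⁻¹) : IsCut (q : O) T.W R ψ i (E * e) := by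
  have hvq : (T.W i).valuation (q : F) < 1 := by
    have := hV.pi_lt i
    rwa [map_natCast] at this
  have hq0 : (q : F) ≠ 0 := T.natCast_ne_zero q hqF.out.ne_zero
  have hvq0 : (T.W i).valuation (q : F) ≠ 0 := (Valuation.ne_zero_iff _).mpr hq0
  have hval : (T.W i).valuation ψ = (T.W i).valuation (q : F) ^ E := by
    have h1 := hres.val_eq_one hr
    rwa [map_div₀, map_pow, div_eq_one_iff_eq (pow_ne_zero _ hvq0)] at h1
  refine ⟨Nat.mul_pos hE he0, ?_, ?_, ?_, ?_, ?_⟩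
  · rw [hval]
    exact pow_lt_one₀ zero_le hvq hE.ne'
  · intro h0
    rw [h0, map_zero] at hval
    exact pow_ne_zero _ hvq0 hval.symm
  · intro j hj
    obtain ⟨s, hs, hjs⟩ := hoth j hj
    exact hjs.val_eq_one hs
  · intro z hz
    rw [hval, pow_mul']
    exact pow_le_pow_left₀ zero_le (T.pow_le_of_valueGroup hV i e he0 he z hz) E
  · obtain ⟨k, hk⟩ := GF ψ⁻¹ (by rwa [map_inv₀])
    exact ⟨k, by rwa [map_natCast]⟩

omit [NeZero q] hqF in
theorem isIntegral_natCast_AA (n : ℕ) : IsIntegral ↥(AA Kbar) (n : LaurentSeries Kbar) := by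
  have h : (n : LaurentSeries Kbar) = algebraMap ↥(AA Kbar) (LaurentSeries Kbar) (n : ↥(AA Kbar)) := by
    rw [map_natCast]
  rw [h]
  exact isIntegral_algebraMap

omit [NeZero q] hqF in
theorem isIntegral_natCast_inv_AA (n : ℕ) : IsIntegral ↥(AA Kbar) (n : LaurentSeries Kbar)⁻¹ := by
  have h : (n : LaurentSeries Kbar)⁻¹ = algebraMap ↥(AA Kbar) (LaurentSeries Kbar)
      (algebraMap Kbar ↥(AA Kbar) (n : Kbar)⁻¹) := by
    rw [← IsScalarTower.algebraMap_apply, map_inv₀, map_natCast]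
  rw [h]
  exact isIntegral_algebraMap

include hB hζ hV chart e0 GF in
/-- **Leaf AF2b.**  PROOF. `m > 0` is `hB.1`.  From the table (`Unit/Units.lean`): `res0_psiA` + `Res.val_eq_one` give
`v_0 (psiA / q^(12m)) = 1`, i.e. `v_0 psiA = v_0 q ^ (12m) < 1`; `res1_psiA`, `res2_psiA` + `Hs_ne_zero` give `other`
(`Fin 3`: `fin_cases j`); `pow_le`: `pow_le_of_valueGroup` with `e = 1` (rewrite `pow_one` in `e0`) and `pow_le_pow_left₀`;
`inv`: `GF (psiA)⁻¹` with `isIntegral_U2 .. |>.2` (`map_inv₀`, `map_natCast`). -/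
theorem isCut_psiA : IsCut (q : O) T.W R (T.psiA Φ G) 0 (12 * m) := by
  have hH := Hs_ne_zero (IsLocalRing.ResidueField ↥A) q m
  have h := T.isCut_of_table hV GF 0 1 (12 * m) one_pos (Nat.mul_pos (by norm_num) hB.1)
    (inv_ne_zero (pow_ne_zero q hH)) (T.res0_psiA hB hζ)
    (fun j hj => by
      fin_cases j
      · exact absurd rfl hj
      · exact ⟨_, hH, T.res1_psiA hB hζ⟩
      · exact ⟨_, hH, T.res2_psiA hB hζ⟩)
    (fun z hz => by simpa using e0 z hz) (T.isIntegral_U2 hB hqF.out hζ).2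
  rwa [mul_one] at h

include hB hζ hV chart e1 GF in
/-- **Leaf AF2c.**  the same with `res1_psiB`, `res0_psiB`, `res2_psiB`; `pow_le`: `v z ^ (12 m (q-1)) = (v z ^ (q-1)) ^ (12 m)
≤ v q ^ (12 m) = v psiB`; `inv`: `psiB⁻¹ = U2 * U1⁻¹`, `IsIntegral.mul`. -/
theorem isCut_psiB : IsCut (q : O) T.W R (T.psiB Φ G) 1 (12 * m * (q - 1)) := by
  have hH := Hs_ne_zero (IsLocalRing.ResidueField ↥A) q m
  refine T.isCut_of_table hV GF 1 (q - 1) (12 * m) (Nat.sub_pos_of_lt hqF.out.one_lt)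
    (Nat.mul_pos (by norm_num) hB.1) (inv_ne_zero (pow_ne_zero 2 hH)) (T.res1_psiB hB hζ)
    (fun j hj => by
      fin_cases j
      · exact ⟨_, pow_ne_zero _ hH, T.res0_psiB hB hζ⟩
      · exact absurd rfl hj
      · exact ⟨_, pow_ne_zero _ hH, T.res2_psiB hB hζ⟩)
    e1 ?_
  rw [psiB, map_div₀, inv_div, div_eq_mul_inv]
  exact (T.isIntegral_U2 hB hqF.out hζ).1.mul (T.isIntegral_U1 hB hqF.out hζ).2

include hB hζ hV chart e2 GF in
/-- **Leaf AF2d.**  the same with `res2_psiC`, `res0_psiC`, `res1_psiC`; `inv`: `psiC⁻¹ = U1 / q^(12m)`; the constant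
`(q : LaurentSeries Kbar)⁻¹` is integral (it is `algebraMap` of an element of `Kbar`). -/
theorem isCut_psiC : IsCut (q : O) T.W R (T.psiC Φ G m) 2 (12 * m) := by
  have hH := Hs_ne_zero (IsLocalRing.ResidueField ↥A) q m
  have h := T.isCut_of_table hV GF 2 1 (12 * m) one_pos (Nat.mul_pos (by norm_num) hB.1)
    (inv_ne_zero (pow_ne_zero q hH)) (T.res2_psiC hB hζ)
    (fun j hj => by
      fin_cases j
      · exact ⟨_, hH, T.res0_psiC hB hζ⟩
      · exact ⟨_, hH, T.res1_psiC hB hζ⟩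
      · exact absurd rfl hj)
    (fun z hz => by simpa using e2 z hz) (by
      rw [psiC, map_div₀, inv_div, div_eq_mul_inv, map_pow, map_natCast, ← inv_pow]
      exact (T.isIntegral_U1 hB hqF.out hζ).1.mul ((isIntegral_natCast_inv_AA q).pow _))
  rwa [mul_one] at h

include hB hζ chart GF in
/-- **Leaf AF2e.** (`mem_of_GF`; integrality: `isIntegral_U1/U2`; membership in `W i`: the table; e.g.
`psiA = q^(12m) * (psiA / q^(12m)) ∈ W 0`.) -/
theorem psiA_mem : T.psiA Φ G ∈ R := by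
  refine T.mem_of_GF chart GF (T.isIntegral_U2 hB hqF.out hζ).1 fun i => ?_
  fin_cases i
  · exact T.mem_W_of_res_div (T.res0_psiA hB hζ)
  · exact (T.res1_psiA hB hζ).mem
  · exact (T.res2_psiA hB hζ).mem

include hB hζ chart GF in
theorem psiB_mem : T.psiB Φ G ∈ R := by
  refine T.mem_of_GF chart GF ?_ fun i => ?_
  · rw [psiB, map_div₀, div_eq_mul_inv]
    exact (T.isIntegral_U1 hB hqF.out hζ).1.mul (T.isIntegral_U2 hB hqF.out hζ).2
  fin_cases i
  · exact (T.res0_psiB hB hζ).mem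
  · exact T.mem_W_of_res_div (T.res1_psiB hB hζ)
  · exact (T.res2_psiB hB hζ).mem

include hB hζ chart GF in
theorem psiC_mem : T.psiC Φ G m ∈ R := by
  refine T.mem_of_GF chart GF ?_ fun i => ?_
  · rw [psiC, map_div₀, div_eq_mul_inv, map_pow, map_natCast]
    exact ((isIntegral_natCast_AA q).pow _).mul (T.isIntegral_U1 hB hqF.out hζ).2
  fin_cases i
  · exact (T.res0_psiC hB hζ).mem
  · exact (T.res1_psiC hB hζ).mem
  · exact T.mem_W_of_res_div (T.res2_psiC hB hζ)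

end Chart

end Frame

end Fermat.Agent.S36R.Unit
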