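import Fermat.Agent.S36R.Unit.AffCut

/-!
# S36 route R, block R-UNIT: variant of `AffCut.lean` with four membership facts instead of `GF` (primed names)

Hypotheses (contracts of the other blocks), for a frame `T` on `F`:
* `hV : Inj.Vert (q : O) T.W (q - 1)`, `chart : Inj.Chart (q : O) T.W c R`      (R-VAL, R-AA)
* `e0, e1, e2` : the value groups (`Lvl.Good.eW0, eW1, eW2`)                      (R-VAL)
* `hU1, hU1', hU2, hU2'` : `U1, q^(12m)/U1, U2, q^(12m)/U2 ∈ R`.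
-/

set_option autoImplicit false
set_option linter.unusedSectionVars false

noncomputable section

namespace Fermat.Agent.S36R.Unit

open ModularCurve Polynomial Fermat.Agent.S28 Fermat.Agent.GAL.Gauss Fermat.Agent.S24
  Fermat.Agent.S36R.Inj

variable {A : ValuationSubring Kbar} {q : ℕ} [NeZero q] {ζ : Kbar} {hζ0 : ζ ≠ 0}
  {F : Type*} [Field F] (T : Frame A q ζ hζ0 F) {Φ U G : ℤ[X][X]} {m : ℕ} {c₀ : ℤ}

namespace Frame

section Chart

variable {O : Type*} [CommRing O] [Algebra O F] {c : F} {R : Subring F}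
variable [hqF : Fact q.Prime] [CharP (IsLocalRing.ResidueField ↥A) q]
variable (hB : BData q Φ U G m c₀) (hζ : IsPrimitiveRoot ζ q)
  (hV : Vert (q : O) T.W (q - 1)) (chart : Chart (q : O) T.W c R)
  (e0 : ∀ z : F, z ≠ 0 → ∃ x : ℤ, (T.W 0).valuation (z / (q : F) ^ x) = 1)
  (e1 : ∀ z : F, z ≠ 0 → ∃ x : ℤ, (T.W 1).valuation (z ^ (q - 1) / (q : F) ^ x) = 1)
  (e2 : ∀ z : F, z ≠ 0 → ∃ x : ℤ, (T.W 2).valuation (z / (q : F) ^ x) = 1)
  (hU1 : T.U1 Φ G ∈ R) (hU1' : (q : F) ^ (12 * m) / T.U1 Φ G ∈ R)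
  (hU2 : T.U2 Φ G ∈ R) (hU2' : (q : F) ^ (12 * m) / T.U2 Φ G ∈ R)

include hV in
/-- the general form of the three `isCut`. -/
theorem isCut_of_table' (i : Fin 3) (e E : ℕ) (he0 : 0 < e) (hE : 0 < E) {ψ : F}
    {r : LaurentSeries (IsLocalRing.ResidueField ↥A)} (hr : r ≠ 0)
    (hres : T.Res i (ψ / (q : F) ^ E) r)
    (hoth : ∀ j, j ≠ i → ∃ s, s ≠ 0 ∧ T.Res j ψ s)
    (he : ∀ z : F, z ≠ 0 → ∃ x : ℤ, (T.W i).valuation (z ^ e / (q : F) ^ x) = 1)
    (hinv : ∃ k : ℕ, (q : F) ^ k * ψ⁻¹ ∈ R) : IsCut (q : O) T.W R ψ i (E * e) := by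
  have hvq : (T.W i).valuation (q : F) < 1 := by
    have := hV.pi_lt i
    rwa [map_natCast] at this
  have hq0 : (q : F) ≠ 0 := T.natCast_ne_zero q hqF.out.ne_zero
  have hvq0 : (T.W i).valuation (q : F) ≠ 0 := (Valuation.ne_zero_iff _).mpr hq0
  have hval : (T.W i).valuation ψ = (T.W i).valuation (q : F) ^ E := by
    have h1 := hres.val_eq_one hr
    rwa [map_div₀, map_pow, div_eq_one_iff_eq (pow_ne_zero _ hvq0)] at h1
  refine ⟨Nat.mul_pos hE he0, ?_, ?_, ?_, ?_, ?_⟩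
  · rw [hval]
    exact pow_lt_one₀ zero_le hvq hE.ne'
  · intro h0
    rw [h0, map_zero] at hval
    exact pow_ne_zero _ hvq0 hval.symm
  · intro j hj
    obtain ⟨s, hs, hjs⟩ := hoth j hj
    exact hjs.val_eq_one hs
  · intro z hz
    rw [hval, pow_mul']
    exact pow_le_pow_left₀ zero_le (T.pow_le_of_valueGroup hV i e he0 he z hz) E
  · obtain ⟨k, hk⟩ := hinv
    exact ⟨k, by rwa [map_natCast]⟩

include hB hζ hV e0 hU2' in
/-- `psiA` cuts out `W 0`. -/
theorem isCut_psiA' : IsCut (q : O) T.W R (T.psiA Φ G) 0 (12 * m) := by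
  have hH := Hs_ne_zero (IsLocalRing.ResidueField ↥A) q m
  have h := T.isCut_of_table' (R := R) hV 0 1 (12 * m) one_pos (Nat.mul_pos (by norm_num) hB.1)
    (inv_ne_zero (pow_ne_zero q hH)) (T.res0_psiA hB hζ)
    (fun j hj => by
      fin_cases j
      · exact absurd rfl hj
      · exact ⟨_, hH, T.res1_psiA hB hζ⟩
      · exact ⟨_, hH, T.res2_psiA hB hζ⟩)
    (fun z hz => by simpa using e0 z hz) ⟨12 * m, by rw [psiA, ← div_eq_mul_inv]; exact hU2'⟩
  rwa [mul_one] at h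

include hB hζ hV e1 hU1' hU2 in
/-- `psiB` cuts out `W 1`. -/
theorem isCut_psiB' : IsCut (q : O) T.W R (T.psiB Φ G) 1 (12 * m * (q - 1)) := by
  have hH := Hs_ne_zero (IsLocalRing.ResidueField ↥A) q m
  refine T.isCut_of_table' hV 1 (q - 1) (12 * m) (Nat.sub_pos_of_lt hqF.out.one_lt)
    (Nat.mul_pos (by norm_num) hB.1) (inv_ne_zero (pow_ne_zero 2 hH)) (T.res1_psiB hB hζ)
    (fun j hj => by
      fin_cases j
      · exact ⟨_, pow_ne_zero _ hH, T.res0_psiB hB hζ⟩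
      · exact absurd rfl hj
      · exact ⟨_, pow_ne_zero _ hH, T.res2_psiB hB hζ⟩)
    e1 ⟨12 * m, ?_⟩
  have e : (q : F) ^ (12 * m) * (T.psiB Φ G)⁻¹ = T.U2 Φ G * ((q : F) ^ (12 * m) / T.U1 Φ G) := by
    rw [psiB, inv_div]; ring
  rw [e]
  exact mul_mem hU2 hU1'

include hB hζ hV e2 hU1 in
/-- `psiC` cuts out `W 2`. -/
theorem isCut_psiC' : IsCut (q : O) T.W R (T.psiC Φ G m) 2 (12 * m) := by
  have hH := Hs_ne_zero (IsLocalRing.ResidueField ↥A) q m
  have hq0 : (q : F) ^ (12 * m) ≠ 0 := pow_ne_zero _ (T.natCast_ne_zero q hqF.out.ne_zero)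
  have h := T.isCut_of_table' (R := R) hV 2 1 (12 * m) one_pos (Nat.mul_pos (by norm_num) hB.1)
    (inv_ne_zero (pow_ne_zero q hH)) (T.res2_psiC hB hζ)
    (fun j hj => by
      fin_cases j
      · exact ⟨_, hH, T.res0_psiC hB hζ⟩
      · exact ⟨_, hH, T.res1_psiC hB hζ⟩
      · exact absurd rfl hj)
    (fun z hz => by simpa using e2 z hz) ⟨12 * m, by
      have e : (q : F) ^ (12 * m) * (T.psiC Φ G m)⁻¹ = T.U1 Φ G := by
        rw [psiC, inv_div]; field_simp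
      rw [e]; exact hU1⟩
  rwa [mul_one] at h

include hU2 in
theorem psiA_mem' : T.psiA Φ G ∈ R := hU2

include hB hζ chart hU1 hU2' in
theorem psiB_mem' : T.psiB Φ G ∈ R := by
  refine Chart.mem_of_pow_mul chart (12 * m) ?_ fun i => ?_
  · have e : algebraMap O F (q : O) ^ (12 * m) * T.psiB Φ G =
        T.U1 Φ G * ((q : F) ^ (12 * m) / T.U2 Φ G) := by
      rw [map_natCast, psiB]; ring
    rw [e]
    exact mul_mem hU1 hU2'
  fin_cases i
  · exact (T.res0_psiB hB hζ).mem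
  · exact T.mem_W_of_res_div (T.res1_psiB hB hζ)
  · exact (T.res2_psiB hB hζ).mem

include hU1' in
theorem psiC_mem' : T.psiC Φ G m ∈ R := hU1'

end Chart

end Frame

end Fermat.Agent.S36R.Unit
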