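import Fermat.Agent.S36R.Unit.AffCut

/-!
# S36 route R, block R-UNIT: incidence of the components on the affine chart (`Lvl.ChartOK.inc`)
-/

set_option autoImplicit false

noncomputable section

namespace Fermat.Agent.S36R.Unit

open ModularCurve Polynomial Fermat.Agent.S28 Fermat.Agent.GAL.Gauss Fermat.Agent.S24
  Fermat.Agent.S36R.Inj

variable {A : ValuationSubring Kbar} {q : ℕ} [NeZero q] {ζ : Kbar} {hζ0 : ζ ≠ 0}
  {F : Type*} [Field F] (T : Frame A q ζ hζ0 F) {Φ U G : ℤ[X][X]} {m : ℕ} {c₀ : ℤ}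

namespace Frame

section Chart

variable {O : Type*} [CommRing O] [Algebra O F] {c : F} {R : Subring F}
variable [hqF : Fact q.Prime] [CharP (IsLocalRing.ResidueField ↥A) q]
variable (hB : BData q Φ U G m c₀) (hζ : IsPrimitiveRoot ζ q)
  (hV : Vert (q : O) T.W (q - 1)) (chart : Chart (q : O) T.W c R)
  (e0 : ∀ z : F, z ≠ 0 → ∃ x : ℤ, (T.W 0).valuation (z / (q : F) ^ x) = 1)
  (e1 : ∀ z : F, z ≠ 0 → ∃ x : ℤ, (T.W 1).valuation (z ^ (q - 1) / (q : F) ^ x) = 1)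
  (e2 : ∀ z : F, z ≠ 0 → ∃ x : ℤ, (T.W 2).valuation (z / (q : F) ^ x) = 1)
  (hU1 : T.U1 Φ G ∈ R) (hU1' : (q : F) ^ (12 * m) / T.U1 Φ G ∈ R)
  (hU2 : T.U2 Φ G ∈ R) (hU2' : (q : F) ^ (12 * m) / T.U2 Φ G ∈ R)

include hB hζ hV chart e0 e1 e2 hU1 hU1' hU2 hU2' in
/-- **Incidence** (`Lvl.ChartOK.inc` on the affine chart): a prime of `R` containing `q` lies on exactly
one component or on all three.
PROOF. `exists_thru hV chart 𝔫` gives one component (`hπ`: an `x : R` with `(x : F) = algebraMap O F (q : O)` is `(q : R)`: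
`Subtype.ext`, `map_natCast`).  With `ψA, ψB, ψC : R` (`psiA_mem ...`) and `IsCut.mem_iff_thru`:
`ψA ∈ 𝔫 ↔ Thru 0`, `ψB ∈ 𝔫 ↔ Thru 1`, `ψC ∈ 𝔫 ↔ Thru 2`.  Congruences (`Res.cg`, `Res.pow`, table):
`v_2 (ψB - ψA^(q-1)) < 1`, `v_0 (ψB - ψC^(q-1)) < 1`, `v_1 (ψA - ψC) < 1`.  Hence
`Thru 0 ∧ Thru 2 → ψA ∈ 𝔫, ψB - ψA^(q-1) ∈ 𝔫 → ψB ∈ 𝔫` (`q - 1 ≥ 1`); `Thru 0 ∧ Thru 1 → ψA, ψA - ψC ∈ 𝔫 → ψC ∈ 𝔫`;
`Thru 1 ∧ Thru 2 → ψC, ψA - ψC ∈ 𝔫 → ψA ∈ 𝔫`.  So two components through `𝔫` imply all three. -/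
theorem inc (𝔫 : Ideal R) [𝔫.IsPrime] (hq𝔫 : (q : R) ∈ 𝔫) :
    (∃! i, Thru T.W 𝔫 i) ∨ ∀ i, Thru T.W 𝔫 i := by
  have hq1 : 1 ≤ q - 1 := by have := hqF.out.two_le; omega
  set ψA : R := ⟨_, T.psiA_mem hU2⟩ with hψA
  set ψB : R := ⟨_, T.psiB_mem hB hζ chart hU1 hU2'⟩ with hψB
  set ψC : R := ⟨_, T.psiC_mem hU1'⟩ with hψC
  have iA := (T.isCut_psiA hB hζ hV e0 hU2').mem_iff_thru chart 𝔫 ψA rfl
  have iB := (T.isCut_psiB hB hζ hV e1 hU1' hU2).mem_iff_thru chart 𝔫 ψB rfl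
  have iC := (T.isCut_psiC hB hζ hV e2 hU1).mem_iff_thru chart 𝔫 ψC rfl
  have c2 : (T.W 2).valuation ((ψB - ψA ^ (q - 1) : R) : F) < 1 :=
    (T.res2_psiB hB hζ).cg ((T.res2_psiA hB hζ).pow (q - 1))
  have c1 : (T.W 1).valuation ((ψA - ψC : R) : F) < 1 :=
    (T.res1_psiA hB hζ).cg (T.res1_psiC hB hζ)
  have h02 : Thru T.W 𝔫 0 → Thru T.W 𝔫 2 → Thru T.W 𝔫 1 := by
    intro h0 h2
    rw [← iB]
    have hA : ψA ∈ 𝔫 := iA.mpr h0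
    have h3 := 𝔫.add_mem (h2 _ c2) (𝔫.pow_mem_of_mem hA (q - 1) hq1)
    rwa [sub_add_cancel] at h3
  have h01 : Thru T.W 𝔫 0 → Thru T.W 𝔫 1 → Thru T.W 𝔫 2 := by
    intro h0 h1
    rw [← iC]
    have hA : ψA ∈ 𝔫 := iA.mpr h0
    have h3 := 𝔫.sub_mem hA (h1 _ c1)
    rwa [sub_sub_cancel] at h3
  have h12 : Thru T.W 𝔫 1 → Thru T.W 𝔫 2 → Thru T.W 𝔫 0 := by
    intro h1 h2
    rw [← iA]
    have hC : ψC ∈ 𝔫 := iC.mpr h2
    have h3 := 𝔫.add_mem (h1 _ c1) hC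
    rwa [sub_add_cancel] at h3
  obtain ⟨i, hi⟩ := exists_thru hV chart 𝔫 (fun x hx => by
    have : x = (q : R) := Subtype.ext (by rw [hx, map_natCast]; simp)
    rw [this]; exact hq𝔫)
  by_cases hall : ∀ i, Thru T.W 𝔫 i
  · exact Or.inr hall
  · refine Or.inl ⟨i, hi, fun j hj => ?_⟩
    by_contra hne
    apply hall
    have key : Thru T.W 𝔫 0 ∧ Thru T.W 𝔫 1 ∧ Thru T.W 𝔫 2 := by
      fin_cases i <;> fin_cases j <;> simp only [Fin.zero_eta, Fin.mk_one, Fin.reduceFinMk] at hi hj hne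
      · exact absurd trivial hne
      · exact ⟨hi, hj, h01 hi hj⟩
      · exact ⟨hi, h02 hi hj, hj⟩
      · exact ⟨hj, hi, h01 hj hi⟩
      · exact absurd trivial hne
      · exact ⟨h12 hi hj, hi, hj⟩
      · exact ⟨hj, h02 hj hi, hi⟩
      · exact ⟨h12 hj hi, hj, hi⟩
      · exact absurd trivial hne
    intro l
    fin_cases l
    · exact key.1
    · exact key.2.1
    · exact key.2.2

end Chart

end Frame

end Fermat.Agent.S36R.Unit
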