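import Fermat.Agent.S36R.Unit.ConcRes

/-!
# S36 route R, block R-UNIT (concrete part): `psiA, psiB, psiC` cut out the three components on `R₀`

`R₀ = Bridge.RR (O0 A) S.j`.  Hypotheses (from block VAL): `hV : Inj.Vert (q : O0 A) S.W (q - 1)`,
`hR : Inj.Chart (q : O0 A) S.W S.j R₀`, and `e(W20) = e(W02) = 1` in the shape of `Lvl.Good.eW0, eW2`.
-/

set_option autoImplicit false
set_option linter.unusedSectionVars false

noncomputable section

namespace Fermat.Agent.S36R.Unit.Conc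

open ModularCurve Polynomial Fermat.Agent.S24 Fermat.Agent.S28 Fermat.Agent.GAL Fermat.Agent.GAL.Gauss
  Fermat.Agent.S36R.NormC Fermat.Agent.S36R.Val Fermat.Agent.S36R.Unit Fermat.Agent.S36.StepA
  Fermat.Agent.S36R.Bridge Fermat.Agent.S36R.Inj

/-! ### abstract lemmas -/

section Abs

variable {O : Type*} [CommRing O] {F : Type*} [Field F] [Algebra O F] {ι : Type*}

/-- `e = 1` from the value group. -/
theorem disc_one {V : ValuationSubring F} {p : F} (hp : V.valuation p < 1)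
    (h : ∀ z : F, z ≠ 0 → ∃ x : ℤ, IsU V (z / p ^ x)) (z : F) (hz : V.valuation z < 1) :
    V.valuation z ^ 1 ≤ V.valuation p := by
  rw [pow_one]
  by_cases hz0 : z = 0
  · rw [hz0, map_zero]; exact zero_le
  obtain ⟨x, hx⟩ := h z hz0
  rw [IsU, map_div₀, map_zpow₀] at hx
  rcases le_or_gt x 0 with h0 | h0
  · exfalso
    obtain ⟨n, rfl⟩ : ∃ n : ℕ, x = -(n : ℤ) := ⟨(-x).toNat, by omega⟩
    rw [zpow_neg, div_inv_eq_mul, zpow_natCast] at hx
    have : V.valuation z * V.valuation p ^ n < 1 :=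
      mul_lt_one_of_lt_of_le hz (pow_le_one' hp.le n)
    exact this.ne hx
  · obtain ⟨n, rfl⟩ : ∃ n : ℕ, x = (n : ℤ) + 1 := ⟨(x - 1).toNat, by omega⟩
    have hp0 : V.valuation p ≠ 0 := by
      intro h1
      rw [h1, zero_zpow _ (by omega), div_zero] at hx
      exact zero_ne_one hx
    rw [div_eq_iff (zpow_ne_zero _ hp0), one_mul, zpow_add_one₀ hp0, zpow_natCast] at hx
    rw [hx]
    exact mul_le_of_le_one_left' (pow_le_one' hp.le n)

/-- constructor for `IsCut`. -/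
theorem isCut_mk {π : O} {W : ι → ValuationSubring F} {R : Subring F} {ψ : F} {i : ι} {E k : ℕ}
    (hE : 0 < E) (hk : 0 < k) (hπ : (W i).valuation (algebraMap O F π) < 1)
    (hπ0 : algebraMap O F π ≠ 0)
    (hdisc : ∀ z : F, (W i).valuation z < 1 →
      (W i).valuation z ^ E ≤ (W i).valuation (algebraMap O F π))
    (hψ : IsU (W i) (ψ / algebraMap O F π ^ k))
    (hother : ∀ j, j ≠ i → IsU (W j) ψ)
    (hinv : algebraMap O F π ^ k * ψ⁻¹ ∈ R) : IsCut π W R ψ i (k * E) := by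
  have hv0 : (W i).valuation (algebraMap O F π) ≠ 0 := (Valuation.ne_zero_iff _).2 hπ0
  have hval : (W i).valuation ψ = (W i).valuation (algebraMap O F π) ^ k := by
    rw [IsU, map_div₀, map_pow, div_eq_iff (pow_ne_zero _ hv0), one_mul] at hψ
    exact hψ
  refine ⟨Nat.mul_pos hk hE, ?_, ?_, hother, ?_, ⟨k, hinv⟩⟩
  · rw [hval]
    exact pow_lt_one₀ zero_le hπ hk.ne'
  · intro h0
    rw [h0, map_zero] at hval
    exact pow_ne_zero _ hv0 hval.symm
  · intro z hz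
    rw [hval, mul_comm, pow_mul]
    exact pow_le_pow_left₀ zero_le (hdisc z hz) k

end Abs

variable {A : ValuationSubring Kbar} {M q : ℕ} [NeZero M] [NeZero q] (S : Setup A M q)
variable {m : ℕ} {Φ U G : ℤ[X][X]} {c : ℤ}

/-! ### the modular equations -/

include S in
theorem Phi_series (hB : BData q Φ U G m c) :
    (Φ.map (evY (qExpand Kbar q (jqModC Kbar)))).eval (qExpand Kbar q (qExpand Kbar q (jqModC Kbar)))
      = 0 := by
  obtain ⟨hfac, -, -⟩ := hB.2.2.2.2.2.2 Kbar (ζu S) (hζu S)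
  rw [← Unit.evBase_eq, hfac, eval_mul]
  simp [rootInf]

theorem Phi_j1_j2 (hB : BData q Φ U G m c) : (Φ.map (evY (j1 S))).eval (j2 S) = 0 := by
  apply S.e0.injective
  rw [map_eval_evY, e0_j1, e0_j2, map_zero, Phi_series S hB]

theorem Phi_j0_j1 (hB : BData q Φ U G m c) : (Φ.map (evY S.j)).eval (j1 S) = 0 := by
  apply S.e0.injective
  apply (qExpand Kbar q).injective
  rw [map_eval_evY, map_eval_evY, e0_j0, e0_j1, map_zero, map_zero, Phi_series S hB]

/-- `u = q¹² Δ(t^q)/Δ(t)`. -/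
def uS (q : ℕ) [NeZero q] : LaurentSeries Kbar :=
  (q : LaurentSeries Kbar) ^ 12 * qExpand Kbar q (DlL Kbar) * DlLinv Kbar

theorem U_series (hB : BData q Φ U G m c) : (U.map (evY (jqModC Kbar))).eval (uS q) = 0 := by
  have h := hB.2.2.2.2.2.1
  have h2 := map_eval_evY (coeffMap (Int.castRingHom Kbar)) (jqModC ℤ)
    ((q : LaurentSeries ℤ) ^ 12 * qExpand ℤ q (DlL ℤ) * DlLinv ℤ) U
  have h3 : (U.map (evY (jqModC ℤ))).eval
      ((q : LaurentSeries ℤ) ^ 12 * qExpand ℤ q (DlL ℤ) * DlLinv ℤ) = 0 := h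
  rw [h3, map_zero, coeffMap_jqModC, map_mul, map_mul, map_pow, map_natCast, coeffMap_qExpand,
    coeffMap_DlL, coeffMap_DlLinv] at h2
  exact h2.symm

theorem uS_pow (m : ℕ) : uS q ^ m = (q : LaurentSeries Kbar) ^ (12 * m) * sUp q m := by
  rw [uS, sUp, mul_assoc, mul_pow, ← pow_mul]

theorem qExpand_uS_pow (m : ℕ) :
    qExpand Kbar q (uS q) ^ m = (q : LaurentSeries Kbar) ^ (12 * m) * sUp2 q m := by
  rw [uS, sUp2, map_mul, map_mul, map_pow, map_natCast, mul_assoc, mul_pow, ← pow_mul]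

theorem uS_ne_zero : uS q ≠ 0 := by
  have h1 : qExpand Kbar q (DlL Kbar) * qExpand Kbar q (DlLinv Kbar) = 1 := by
    rw [← map_mul, DlL_mul_DlLinv, map_one]
  exact mul_ne_zero (mul_ne_zero (pow_ne_zero _ qL_ne_zero) (left_ne_zero_of_mul_eq_one h1))
    (right_ne_zero_of_mul_eq_one (DlL_mul_DlLinv (Λ := Kbar)))

/-! ### integrality -/

theorem j1_mem (hB : BData q Φ U G m c) : j1 S ∈ RR (O0 A) S.j :=
  mem_RR.2 (isIntegral_of_evY Φ hB.2.1 _ _ (mem_RR.1 (self_mem_RR _)) (Phi_j0_j1 S hB))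

theorem j2_mem (hB : BData q Φ U G m c) : j2 S ∈ RR (O0 A) S.j :=
  mem_RR.2 (isIntegral_of_evY Φ hB.2.1 _ _ (mem_RR.1 (j1_mem S hB)) (Phi_j1_j2 S hB))

theorem U1_mem (hB : BData q Φ U G m c) : U1 S Φ G ∈ RR (O0 A) S.j := by
  refine mem_RR.2 (isIntegral_of_pow_root S.e0 U hB.2.2.1 S.j _ (uS q) m
    (mem_RR.1 (self_mem_RR _)) ?_ ?_)
  · rw [e0_j0]; exact U_series hB
  · rw [e0_U1 S hB, uS_pow]

theorem U2_mem (hB : BData q Φ U G m c) : U2 S Φ G ∈ RR (O0 A) S.j := by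
  refine mem_RR.2 (isIntegral_of_pow_root S.e0 U hB.2.2.1 (j1 S) _ (qExpand Kbar q (uS q)) m
    (mem_RR.1 (j1_mem S hB)) ?_ ?_)
  · rw [e0_j1, ← map_eval_evY, U_series hB, map_zero]
  · rw [e0_U2 S hB, qExpand_uS_pow]

theorem U1_ne_zero (hB : BData q Φ U G m c) : U1 S Φ G ≠ 0 := by
  intro h
  have := e0_U1 S hB
  rw [h, map_zero, ← uS_pow] at this
  exact pow_ne_zero _ uS_ne_zero this.symm

theorem U2_ne_zero (hB : BData q Φ U G m c) : U2 S Φ G ≠ 0 := by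
  intro h
  have := e0_U2 S hB
  rw [h, map_zero, ← qExpand_uS_pow] at this
  exact pow_ne_zero _ ((_root_.map_ne_zero _).2 uS_ne_zero) this.symm

theorem sq_q_pow (hB : BData q Φ U G m c) : ((q : S.F) ^ (12 * m)) ^ 2 = ((c : S.F) ^ m) ^ 2 := by
  have h : c * c = (q : ℤ) ^ 24 := hB.2.2.2.2.1
  have h2 : (c : S.F) * c = (q : S.F) ^ 24 := by exact_mod_cast congrArg (Int.cast : ℤ → S.F) h
  rw [← pow_mul, ← pow_mul, mul_comm m 2, pow_mul (c : S.F), sq, h2, ← pow_mul]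
  congr 1
  ring

theorem q_div_U1_mem (hB : BData q Φ U G m c) : (q : S.F) ^ (12 * m) / U1 S Φ G ∈ RR (O0 A) S.j := by
  have h1 : (c : S.F) ^ m / U1 S Φ G ∈ RR (O0 A) S.j := by
    refine mem_RR.2 (isIntegral_of_inv_root S.e0 U hB.2.2.1 c hB.2.2.2.1 S.j _ (uS q) m uS_ne_zero
      (mem_RR.1 (self_mem_RR _)) ?_ ?_)
    · rw [e0_j0]; exact U_series hB
    · rw [map_div₀, e0_U1 S hB, uS_pow, map_pow, map_intCast, div_mul_cancel₀]
      rw [← uS_pow]
      exact pow_ne_zero _ uS_ne_zero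
  apply root_closed_RR _ 2 (by norm_num)
  rw [div_pow, sq_q_pow S hB, ← div_pow]
  exact pow_mem h1 2

theorem q_div_U2_mem (hB : BData q Φ U G m c) : (q : S.F) ^ (12 * m) / U2 S Φ G ∈ RR (O0 A) S.j := by
  have h1 : (c : S.F) ^ m / U2 S Φ G ∈ RR (O0 A) S.j := by
    refine mem_RR.2 (isIntegral_of_inv_root S.e0 U hB.2.2.1 c hB.2.2.2.1 (j1 S) _
      (qExpand Kbar q (uS q)) m ((_root_.map_ne_zero _).2 uS_ne_zero) (mem_RR.1 (j1_mem S hB)) ?_ ?_)
    · rw [e0_j1, ← map_eval_evY, U_series hB, map_zero]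
    · rw [map_div₀, e0_U2 S hB, qExpand_uS_pow, map_pow, map_intCast, div_mul_cancel₀]
      rw [← qExpand_uS_pow]
      exact pow_ne_zero _ ((_root_.map_ne_zero _).2 uS_ne_zero)
  apply root_closed_RR _ 2 (by norm_num)
  rw [div_pow, sq_q_pow S hB, ← div_pow]
  exact pow_mem h1 2

theorem psiA_mem (hB : BData q Φ U G m c) : psiA S Φ G ∈ RR (O0 A) S.j := U2_mem S hB

theorem psiC_mem (hB : BData q Φ U G m c) : psiC S Φ G m ∈ RR (O0 A) S.j := q_div_U1_mem S hB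

theorem algebraMap_q : algebraMap (O0 A) S.F (q : O0 A) = (q : S.F) := map_natCast _ q

theorem mem_W_of_isU {V : ValuationSubring S.F} {x : S.F} (h : IsU V x) : x ∈ V :=
  (V.valuation_le_one_iff x).1 h.le

theorem psiB_mem (hB : BData q Φ U G m c) (hR : Chart (q : O0 A) S.W S.j (RR (O0 A) S.j)) :
    psiB S Φ G ∈ RR (O0 A) S.j := by
  apply Chart.mem_of_pow_mul hR (12 * m)
  · rw [algebraMap_q]
    have : (q : S.F) ^ (12 * m) * psiB S Φ G = U1 S Φ G * ((q : S.F) ^ (12 * m) / U2 S Φ G) := by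
      rw [psiB]; ring
    rw [this]
    exact mul_mem (U1_mem S hB) (q_div_U2_mem S hB)
  · intro i
    fin_cases i
    · exact mem_W_of_isU S (isU0_psiB S hB)
    · show psiB S Φ G ∈ S.W 1
      have h1 := mem_W_of_isU S (isU1_psiB S hB)
      have h2 : (q : S.F) ^ (12 * m) ∈ S.W 1 := by
        rw [← algebraMap_q]
        exact pow_mem (hR.algebraMap_mem_W _ 1) _
      have h3 := mul_mem h1 h2
      rwa [div_mul_cancel₀ _ (pow_ne_zero _ (qF_ne_zero S))] at h3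
    · exact mem_W_of_isU S (isU2_psiB S hB)

theorem psi_mul (hB : BData q Φ U G m c) :
    psiA S Φ G * psiB S Φ G * psiC S Φ G m = (q : S.F) ^ (12 * m) := by
  rw [psiA, psiB, psiC]
  field_simp [U1_ne_zero S hB, U2_ne_zero S hB]

/-! ### the cuts -/

theorem isCut_psiA (hB : BData q Φ U G m c) (hV : Vert (q : O0 A) S.W (q - 1))
    (eW0 : ∀ z : S.F, z ≠ 0 → ∃ x : ℤ, IsU (S.W 0) (z / (q : S.F) ^ x)) :
    IsCut (q : O0 A) S.W (RR (O0 A) S.j) (psiA S Φ G) 0 (12 * m) := by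
  have h := isCut_mk (π := (q : O0 A)) (W := S.W) (R := RR (O0 A) S.j) (ψ := psiA S Φ G) (i := 0)
    (E := 1) (k := 12 * m) one_pos (Nat.mul_pos (by norm_num) hB.1) (hV.pi_lt 0) hV.pi_ne ?_ ?_ ?_ ?_
  · rwa [mul_one] at h
  · have h0 := hV.pi_lt 0
    rw [algebraMap_q] at h0 ⊢
    exact disc_one h0 eW0
  · rw [algebraMap_q]; exact isU0_psiA S hB
  · intro j hj
    fin_cases j
    · exact absurd rfl hj
    · exact isU1_psiA S hB
    · exact isU2_psiA S hB
  · rw [algebraMap_q, ← div_eq_mul_inv]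
    exact q_div_U2_mem S hB

theorem isCut_psiB (hB : BData q Φ U G m c) (hV : Vert (q : O0 A) S.W (q - 1)) :
    IsCut (q : O0 A) S.W (RR (O0 A) S.j) (psiB S Φ G) 1 (12 * m * (q - 1)) := by
  refine isCut_mk (Nat.sub_pos_of_lt S.hq.one_lt) (Nat.mul_pos (by norm_num) hB.1) (hV.pi_lt 1)
    hV.pi_ne (hV.disc 1) ?_ ?_ ?_
  · rw [algebraMap_q]; exact isU1_psiB S hB
  · intro j hj
    fin_cases j
    · exact isU0_psiB S hB
    · exact absurd rfl hj
    · exact isU2_psiB S hB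
  · rw [algebraMap_q]
    have : (q : S.F) ^ (12 * m) * (psiB S Φ G)⁻¹ = U2 S Φ G * ((q : S.F) ^ (12 * m) / U1 S Φ G) := by
      rw [psiB, inv_div]; ring
    rw [this]
    exact mul_mem (U2_mem S hB) (q_div_U1_mem S hB)

theorem isCut_psiC (hB : BData q Φ U G m c) (hV : Vert (q : O0 A) S.W (q - 1))
    (eW2 : ∀ z : S.F, z ≠ 0 → ∃ x : ℤ, IsU (S.W 2) (z / (q : S.F) ^ x)) :
    IsCut (q : O0 A) S.W (RR (O0 A) S.j) (psiC S Φ G m) 2 (12 * m) := by
  have h := isCut_mk (π := (q : O0 A)) (W := S.W) (R := RR (O0 A) S.j) (ψ := psiC S Φ G m) (i := 2)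
    (E := 1) (k := 12 * m) one_pos (Nat.mul_pos (by norm_num) hB.1) (hV.pi_lt 2) hV.pi_ne ?_ ?_ ?_ ?_
  · rwa [mul_one] at h
  · have h0 := hV.pi_lt 2
    rw [algebraMap_q] at h0 ⊢
    exact disc_one h0 eW2
  · rw [algebraMap_q]; exact isU2_psiC S hB
  · intro j hj
    fin_cases j
    · exact isU0_psiC S hB
    · exact isU1_psiC S hB
    · exact absurd rfl hj
  · rw [algebraMap_q, psiC, inv_div, mul_div_cancel₀ _ (pow_ne_zero _ (qF_ne_zero S))]
    exact U1_mem S hB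

end Fermat.Agent.S36R.Unit.Conc
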