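import Fermat.Agent.S28.CInt
import Fermat.Agent.S28.CStep

/-!
# S36 route R, block R-UNIT (concrete part): integrality of the modular units, abstract form

`e : F → L` an injective ring homomorphism (an expansion), `R` a ring over which `F` is an algebra.
An element `x : F` whose expansion is `u ^ m`, `u` a root of a monic `U(y, X)`, `y = e y₀` with `y₀` integral over `R`,
is integral over `R`; the same for `x'` with `e x' * u ^ m = c ^ m`, `c` the constant coefficient of `U`.
-/

set_option autoImplicit false

namespace Fermat.Agent.S36R.Unit.Conc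

open Polynomial Fermat.Agent.S28

variable {R F L : Type*} [CommRing R] [Field F] [Field L] [Algebra R F]

/-- integrality can be tested after an injective ring homomorphism. -/
theorem isIntegral_of_map (e : F →+* L) {x : F}
    (h : (e.comp (algebraMap R F)).IsIntegralElem (e x)) : IsIntegral R x := by
  obtain ⟨p, hp, h0⟩ := h
  refine ⟨p, hp, e.injective ?_⟩
  rw [map_zero, ← h0, hom_eval₂]

theorem map_isIntegral (e : F →+* L) {x : F} (h : IsIntegral R x) :
    (e.comp (algebraMap R F)).IsIntegralElem (e x) := by
  obtain ⟨p, hp, h0⟩ := h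
  refine ⟨p, hp, ?_⟩
  rw [← hom_eval₂, h0, map_zero]

/-- values of two variable integer polynomials at integral elements are integral. -/
theorem isIntegral_eval_evY {R L : Type*} [CommRing R] [CommRing L] [Algebra R L] (P : ℤ[X][X])
    (y u : L) (hy : IsIntegral R y) (hu : IsIntegral R u) :
    IsIntegral R ((P.map (evY y)).eval u) := by
  let yB : integralClosure R L := ⟨y, hy⟩
  let uB : integralClosure R L := ⟨u, hu⟩
  have := map_eval_evY (algebraMap (integralClosure R L) L) yB uB P
  have h2 : (P.map (evY y)).eval u = algebraMap (integralClosure R L) L ((P.map (evY yB)).eval uB) :=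
    this.symm
  rw [h2]
  exact ((P.map (evY yB)).eval uB).2

/-- `x` with expansion `u ^ m`. -/
theorem isIntegral_of_pow_root (e : F →+* L) (U : ℤ[X][X]) (hU : U.Monic) (y₀ x : F) (u : L) (m : ℕ)
    (hy : IsIntegral R y₀) (hu : (U.map (evY (e y₀))).eval u = 0) (hx : e x = u ^ m) :
    IsIntegral R x := by
  apply isIntegral_of_map e
  let _ : Algebra R L := (e.comp (algebraMap R F)).toAlgebra
  have hy' : IsIntegral R (e y₀) := map_isIntegral e hy
  have h1 : IsIntegral R u := isIntegral_of_evY U hU (e y₀) u hy' hu
  have h2 : IsIntegral R (u ^ m) := h1.pow m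
  rw [hx]
  exact h2

/-- `x'` with expansion `(c / u) ^ m`. -/
theorem isIntegral_of_inv_root (e : F →+* L) (U : ℤ[X][X]) (hU : U.Monic) (c : ℤ)
    (hc : U.coeff 0 = C c) (y₀ x' : F) (u : L) (m : ℕ) (hu0 : u ≠ 0)
    (hy : IsIntegral R y₀) (hu : (U.map (evY (e y₀))).eval u = 0)
    (hx : e x' * u ^ m = (c : L) ^ m) : IsIntegral R x' := by
  apply isIntegral_of_map e
  let _ : Algebra R L := (e.comp (algebraMap R F)).toAlgebra
  have hy' : IsIntegral R (e y₀) := map_isIntegral e hy
  have h1 : IsIntegral R u := isIntegral_of_evY U hU (e y₀) u hy' hu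
  have h2 : IsIntegral R ((U.divX.map (evY (e y₀))).eval u) := isIntegral_eval_evY _ _ _ hy' h1
  have h3 : (U.divX.map (evY (e y₀))).eval u * u + (c : L) = 0 := by
    have h4 := congrArg (fun P : ℤ[X][X] => (P.map (evY (e y₀))).eval u) (divX_mul_X_add U)
    simp only [Polynomial.map_add, Polynomial.map_mul, map_X, map_C, eval_add, eval_mul, eval_X,
      eval_C, hc, evY_C] at h4
    rw [h4, hu]
  have h5 : e x' = (-(U.divX.map (evY (e y₀))).eval u) ^ m := by
    have h6 : (c : L) = -(U.divX.map (evY (e y₀))).eval u * u := by linear_combination h3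
    rw [h6, mul_pow] at hx
    exact mul_right_cancel₀ (pow_ne_zero m hu0) hx
  rw [h5]
  exact (h2.neg).pow m

end Fermat.Agent.S36R.Unit.Conc
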