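import Fermat.Agent.S36R.Unit.ConcInc
import Fermat.Agent.S36R.KS.Prin0
import Fermat.Agent.S36R.AA.ForKS
import Fermat.Agent.S36R.Main

/-!
# S36 route R: the field `Deliver.p₀` (`PointOK` at the closed points of the special fibre of `R₀`)

`inc` : `Unit.Conc.inc_R0`;  `prin` : `KS.prin_mid` with `ψ = Unit.Conc.psiB`;  `vr` : `AA.pointOK_vr_R0`.
-/

set_option autoImplicit false
set_option linter.unusedSectionVars false

noncomputable section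

namespace Fermat.Agent.S36R.Unit.Conc

open ModularCurve Polynomial Fermat.Agent.S24 Fermat.Agent.S28 Fermat.Agent.GAL Fermat.Agent.GAL.Gauss
  Fermat.Agent.S36R.NormC Fermat.Agent.S36R.Unit Fermat.Agent.S36R.Bridge Fermat.Agent.S36R.Inj

variable {A : ValuationSubring Kbar} {M q : ℕ} [NeZero M] [NeZero q] (S : Setup A M q)

/-- **`Deliver.p₀`.** -/
theorem deliver_p₀ (hneat : 4 ∣ M ∨ 9 ∣ M) (hV : Vert (q : O0 A) S.W (q - 1))
    (hR : Chart (q : O0 A) S.W S.j (RR (O0 A) S.j))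
    (eW0 : ∀ z : S.F, z ≠ 0 → ∃ x : ℤ, IsU (S.W 0) (z / (q : S.F) ^ x))
    (eW2 : ∀ z : S.F, z ≠ 0 → ∃ x : ℤ, IsU (S.W 2) (z / (q : S.F) ^ x))
    (hM : ((M : ℕ) : IsLocalRing.ResidueField ↥A) ≠ 0) (hg : DR.Conc.GoodRed A M) (h3 : AA.ResOK S)
    (𝔫 : Ideal S.R₀) [h𝔫 : 𝔫.IsMaximal] (hq𝔫 : (q : S.R₀) ∈ 𝔫) : S.lvl.PointOK S.R₀ 𝔫 := by
  obtain ⟨Φ, U, G, m, c, hB⟩ := Igusa.hB q S.hq
  have := charP_k S
  have : Fact q.Prime := ⟨S.hq⟩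
  refine ⟨?_, ?_, ?_⟩
  · refine inc_R0_lvl S hB hV hR eW0 eW2 𝔫 fun x hx => ?_
    have : x = (q : S.R₀) := Subtype.ext (by rw [hx, map_natCast]; simp)
    rw [this]
    exact hq𝔫
  · intro ht
    exact KS.prin_mid A M q hM hneat S.hζ (hζ0 S) m hR S.e1 (AA.rho (AA.g1 h3)) (AA.KS_hrho h3)
      (AA.KS_hfull hM hg h3) (AA.KS_hlift hM hg h3) (psiB_mem S hB hR) (isCut_psiB S hB hV)
      (e1_psiB_eq S hB) 𝔫 h𝔫 ht
  · intro i ht z hz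
    exact AA.pointOK_vr_R0 hM hg h3 𝔫 i ht z hz

end Fermat.Agent.S36R.Unit.Conc
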