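import Fermat.Agent.S36R.Unit.Table
import Fermat.Agent.S36R.Unit.Abs
import Fermat.Agent.S36R.Unit.ConcInt
import Fermat.Agent.S36R.Val.Bridge
import Fermat.Agent.S36R.NormC.Int
import Fermat.Agent.S36R.KS.Res11

/-!
# S36 route R, block R-UNIT (concrete part): the three cutting functions and their expansions

`S : NormC.Setup A M q`, `(Φ, U, G, m, c)` the data of S28/B at `q`.
`j0 = S.j = j(t)`, `j1 = j(t^q)`, `j2 = j(t^{q²})` in `S.F`;
`U1 = ψ(j0, j1)`, `U2 = ψ(j1, j2)`; `psiA = U2`, `psiB = U1 / U2`, `psiC = q^(12 m) / U1`.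

|        | `U1`                              | `U2`                                   |
|--------|-----------------------------------|----------------------------------------|
| `e0`   | `q^(12m) (Δ(t^q)/Δ(t))^m`         | `q^(12m) (Δ(t^{q²})/Δ(t^q))^m`         |
| `e1`   | `q^(12m) (Δ(t^q)/Δ(t))^m`         | `(Δ(ζ t)/Δ(t^q))^m`                    |
| `e2`   | `(Δ(t^q)/Δ(t^{q²}))^m`            | `(Δ(t)/Δ(t^q))^m`                      |
-/

set_option autoImplicit false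
set_option linter.unusedSectionVars false

noncomputable section

namespace Fermat.Agent.S36R.Unit.Conc

open ModularCurve Polynomial Fermat.Agent.S24 Fermat.Agent.S28 Fermat.Agent.GAL Fermat.Agent.GAL.Gauss
  Fermat.Agent.S36R.NormC Fermat.Agent.S36R.Val Fermat.Agent.S36R.Unit

variable {A : ValuationSubring Kbar} {M q : ℕ} [NeZero M] [NeZero q] (S : Setup A M q)

/-- `j(t)` at level `M`. -/
abbrev jM (A : ValuationSubring Kbar) (M : ℕ) : F0 A M := Tors.Dict.jF (K0 A) M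

theorem hat_jM : hat A M (jM A M) = jqModC Kbar := by
  rw [hat_apply, Bridge.coe_jF, coeffMap_jqModC]

/-- `j(t^q)`. -/
def j1 : S.F := pi1 A M q (jM A M)

/-- `j(t^{q²})`. -/
def j2 : S.F := pi2 A M q (jM A M)

theorem pi0_jM : pi0 A M q (jM A M) = S.j := by
  apply Subtype.ext
  rw [coe_pi0, Bridge.coe_jF, Bridge.coe_jF]

theorem hζ0 : S.ζ ≠ 0 := S.hζ.ne_zero S.hq.ne_zero

/-- `ζ` as a unit. -/
def ζu : Kbarˣ := Units.mk0 S.ζ (hζ0 S)

theorem hζu : IsPrimitiveRoot (ζu S) q := IsPrimitiveRoot.coe_units_iff.1 S.hζ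

/-! ### the table for `j0, j1, j2` -/

theorem e0_j0 : S.e0 S.j = jqModC Kbar := by rw [← pi0_jM, e0_pi0, hat_jM]
theorem e0_j1 : S.e0 (j1 S) = qExpand Kbar q (jqModC Kbar) := by rw [j1, e0_pi1, hat_jM]
theorem e0_j2 : S.e0 (j2 S) = qExpand Kbar q (qExpand Kbar q (jqModC Kbar)) := by
  rw [j2, e0_pi2, hat_jM]
theorem e1_j0 : S.e1 S.j = jqModC Kbar := by rw [← pi0_jM, e1_pi0, hat_jM]
theorem e1_j1 : S.e1 (j1 S) = qExpand Kbar q (jqModC Kbar) := by rw [j1, e1_pi1, hat_jM]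
theorem e1_j2 : S.e1 (j2 S) = S24.twist S.ζ (hζ0 S) (jqModC Kbar) := by rw [j2, e1_pi2, hat_jM]
theorem e2_j0 : S.e2 S.j = qExpand Kbar q (qExpand Kbar q (jqModC Kbar)) := by
  rw [← pi0_jM, e2_pi0, hat_jM]
theorem e2_j1 : S.e2 (j1 S) = qExpand Kbar q (jqModC Kbar) := by rw [j1, e2_pi1, hat_jM]
theorem e2_j2 : S.e2 (j2 S) = jqModC Kbar := by rw [j2, e2_pi2, hat_jM]

variable (Φ G : ℤ[X][X]) (m : ℕ)

/-- `ψ(j0, j1)`. -/
def U1 : S.F := psiOf Φ G S.j (j1 S)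

/-- `ψ(j1, j2)`. -/
def U2 : S.F := psiOf Φ G (j1 S) (j2 S)

/-- cuts out `W20`. -/
def psiA : S.F := U2 S Φ G

/-- cuts out `W11`. -/
def psiB : S.F := U1 S Φ G / U2 S Φ G

/-- cuts out `W02`. -/
def psiC : S.F := (q : S.F) ^ (12 * m) / U1 S Φ G

/-! ### the five series -/

/-- `(Δ(t^q)/Δ(t))^m`. -/
def sUp (q m : ℕ) [NeZero q] : LaurentSeries Kbar := (qExpand Kbar q (DlL Kbar) * DlLinv Kbar) ^ m

/-- `(Δ(t^{q²})/Δ(t^q))^m`. -/
def sUp2 (q m : ℕ) [NeZero q] : LaurentSeries Kbar :=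
  (qExpand Kbar q (qExpand Kbar q (DlL Kbar)) * qExpand Kbar q (DlLinv Kbar)) ^ m

/-- `(Δ(t)/Δ(t^q))^m`. -/
def sDn (q m : ℕ) [NeZero q] : LaurentSeries Kbar := (DlL Kbar * qExpand Kbar q (DlLinv Kbar)) ^ m

/-- `(Δ(t^q)/Δ(t^{q²}))^m`. -/
def sDn2 (q m : ℕ) [NeZero q] : LaurentSeries Kbar :=
  (qExpand Kbar q (DlL Kbar) * qExpand Kbar q (qExpand Kbar q (DlLinv Kbar))) ^ m

/-- `(Δ(ζ t)/Δ(t^q))^m`. -/
def sTw : LaurentSeries Kbar :=
  (S24.twist S.ζ (hζ0 S) (DlL Kbar) * qExpand Kbar q (DlLinv Kbar)) ^ m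

variable {Φ G m} {U : ℤ[X][X]} {c : ℤ}

theorem e0_U1 (hB : BData q Φ U G m c) :
    S.e0 (U1 S Φ G) = (q : LaurentSeries Kbar) ^ (12 * m) * sUp q m := by
  rw [U1, map_psiOf, e0_j0, e0_j1, psiOf_up hB S.hq (ζu S) (hζu S), sUp, mul_assoc, mul_pow,
    ← pow_mul]

theorem e0_U2 (hB : BData q Φ U G m c) :
    S.e0 (U2 S Φ G) = (q : LaurentSeries Kbar) ^ (12 * m) * sUp2 q m := by
  rw [U2, map_psiOf, e0_j1, e0_j2, psiOf_up2 hB S.hq (ζu S) (hζu S), sUp2, unitInf, mul_assoc,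
    mul_pow, ← pow_mul]

theorem e1_U1 (hB : BData q Φ U G m c) :
    S.e1 (U1 S Φ G) = (q : LaurentSeries Kbar) ^ (12 * m) * sUp q m := by
  rw [U1, map_psiOf, e1_j0, e1_j1, psiOf_up hB S.hq (ζu S) (hζu S), sUp, mul_assoc, mul_pow,
    ← pow_mul]

theorem e1_U2 (hB : BData q Φ U G m c) : S.e1 (U2 S Φ G) = sTw S m := by
  have h := psiOf_tw hB S.hq (ζu S) (hζu S) 1 S.hq.one_lt
  rw [pow_one, unitFin, pow_one] at h
  rw [U2, map_psiOf, e1_j1, e1_j2, sTw, twist_eq, twist_eq]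
  exact h

theorem e2_U1 (hB : BData q Φ U G m c) : S.e2 (U1 S Φ G) = sDn2 q m := by
  rw [U1, map_psiOf, e2_j0, e2_j1, psiOf_down2 hB S.hq (ζu S) (hζu S), sDn2]

theorem e2_U2 (hB : BData q Φ U G m c) : S.e2 (U2 S Φ G) = sDn q m := by
  rw [U2, map_psiOf, e2_j1, e2_j2, psiOf_down hB S.hq (ζu S) (hζu S), sDn]

end Fermat.Agent.S36R.Unit.Conc
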