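import Fermat.Agent.S36R.Unit.CuspRes
import Fermat.Agent.S36R.KS.Res11
import Fermat.Agent.S36R.KS.JIdentity

/-!
# S36 route R, block R-UNIT: the residue of `(j2/j0 - 1)^e / ψ'` on the middle component
-/

set_option autoImplicit false

noncomputable section

namespace Fermat.Agent.S36R.Unit

open ModularCurve Polynomial Fermat.Agent.S28 Fermat.Agent.GAL.Gauss Fermat.Agent.S24
  Fermat.Agent.S36R.Inj

variable {A : ValuationSubring Kbar} {q : ℕ} [NeZero q] {ζ : Kbar} {hζ0 : ζ ≠ 0}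
  {F : Type*} [Field F] (T : Frame A q ζ hζ0 F) {Φ U G : ℤ[X][X]} {m : ℕ} {c₀ : ℤ}

theorem cuspKS_alg {L : Type*} [Field L] (a a' b b' d' Q : L) (m : ℕ) (h3 : a * a' = 1)
    (h2 : b * b' = 1) :
    Q ^ (12 * m) * (a * d') ^ m = (Q ^ 12 * a ^ 2 * d' * b') ^ m * (b * a') ^ m := by
  rw [← mul_pow, pow_mul, ← mul_pow]
  congr 1
  calc Q ^ 12 * (a * d') = Q ^ 12 * (a * d') * (b * b') * (a * a') := by
        rw [h2, h3, mul_one, mul_one]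
    _ = _ := by ring

namespace Frame

variable [hqF : Fact q.Prime] [CharP (IsLocalRing.ResidueField ↥A) q]

/-- **Leaf CR3.** the expansion of `psiB` at the middle cusp is `KS.psiB`.
(`phi1_U1`, `phi1_U2`, `DlL_mul_DlLinv` and its images under `qExpand`, `twist`.) -/
theorem phi1_psiB (hB : BData q Φ U G m c₀) (hζ : IsPrimitiveRoot ζ q) :
    T.φ 1 (T.psiB Φ G) = KS.psiB q ζ hζ0 m := by
  have hDD := DlL_mul_DlLinv (Λ := Kbar)
  have h2 : Fermat.Agent.S24.twist ζ hζ0 (DlL Kbar) * Fermat.Agent.S24.twist ζ hζ0 (DlLinv Kbar) = 1 := by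
    rw [← map_mul, hDD, map_one]
  have h3 : qExpand Kbar q (DlL Kbar) * qExpand Kbar q (DlLinv Kbar) = 1 := by
    rw [← map_mul, hDD, map_one]
  have hne : (Fermat.Agent.S24.twist ζ hζ0 (DlL Kbar) * qExpand Kbar q (DlLinv Kbar)) ^ m ≠ 0 :=
    pow_ne_zero _ (mul_ne_zero (left_ne_zero_of_mul_eq_one h2) (right_ne_zero_of_mul_eq_one h3))
  rw [psiB, map_div₀, T.phi1_U1 hB hqF.out hζ, T.phi1_U2 hB hqF.out hζ, KS.psiB, div_eq_iff hne]
  generalize qExpand Kbar q (DlL Kbar) = a at *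
  generalize qExpand Kbar q (DlLinv Kbar) = a' at *
  generalize Fermat.Agent.S24.twist ζ hζ0 (DlL Kbar) = b at *
  generalize Fermat.Agent.S24.twist ζ hζ0 (DlLinv Kbar) = b' at *
  generalize DlLinv Kbar = d' at *
  generalize (q : LaurentSeries Kbar) = Q at *
  exact cuspKS_alg a a' b b' d' Q m h3 h2

/-- **Leaf CR4.** the residue on `W 1` of `(j2 / j0 - 1)^e / ψ'`.
PROOF. `(j2/j0 - 1)^e / ψ' = (j2 - j0)^e / psiB * (1/j0)^(e + 2m(q-1))`.  `KS.res11 A q hζ hζ0 m (x := jqModC Kbar)`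
gives the residue `C e₀ * (θ(j̄)^6 * Δ̄⁻¹)^(2m(q-1))` of the first factor (`phi1_psiB`, `T.h10`, `T.h12`);
`KS.theta_jqModC_pow_six` and `DlL_mul_DlLinv`: `θ(j̄)^6 Δ̄⁻¹ = j̄^4 (j̄ - 1728)^3`; the exponent of `1/j̄` is
`14 m (q-1) = 7 * (2m(q-1))` and `j̄^4 (j̄-1728)^3 / j̄^7 = (1 - 1728/j̄)^3`. -/
theorem res1_unit (hB : BData q Φ U G m c₀) (hζ : IsPrimitiveRoot ζ q) :
    ∃ e₀ : IsLocalRing.ResidueField ↥A, e₀ ≠ 0 ∧
      T.Res 1 ((T.j2 * T.j0⁻¹ - 1) ^ (12 * m * (q - 1)) * (T.psiB' Φ G m)⁻¹)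
        (HahnSeries.C e₀ *
          ((1 - 1728 * (jqModC (IsLocalRing.ResidueField ↥A))⁻¹) ^ 3) ^ (2 * m * (q - 1))) := by
  have hJ := jb_ne_zero (A := A)
  have hJK : jqModC Kbar ≠ 0 := jqModC_ne_zero_of_nontrivial _
  obtain ⟨h, e₀, he₀, hres⟩ := KS.res11 A q hζ hζ0 m (x := jqModC Kbar) (GR_j (A := A)).mem
  have hgj : gRes A ⟨jqModC Kbar, (GR_j (A := A)).mem⟩ = jqModC (IsLocalRing.ResidueField ↥A) :=
    (GR.of_mem (GR_j (A := A)).mem).unique GR_j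
  rw [hgj] at hres
  refine ⟨e₀, he₀, ?_⟩
  have h1 : GR A ((Fermat.Agent.S24.twist ζ hζ0 (jqModC Kbar) - jqModC Kbar) ^ (12 * m * (q - 1)) *
      (KS.psiB q ζ hζ0 m)⁻¹) _ := ⟨h, hres⟩
  have h2 := h1.mul (((GR_j (A := A)).inv hJ).pow (12 * m * (q - 1) + 2 * m * (q - 1)))
  unfold Res
  have e1 : T.φ 1 ((T.j2 * T.j0⁻¹ - 1) ^ (12 * m * (q - 1)) * (T.psiB' Φ G m)⁻¹) =
      (Fermat.Agent.S24.twist ζ hζ0 (jqModC Kbar) - jqModC Kbar) ^ (12 * m * (q - 1)) *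
      (KS.psiB q ζ hζ0 m)⁻¹ * (jqModC Kbar)⁻¹ ^ (12 * m * (q - 1) + 2 * m * (q - 1)) := by
    rw [psiB', map_mul, map_pow, map_sub, map_mul, map_inv₀, map_inv₀, map_mul, map_pow, map_one,
      T.phi1_psiB hB hζ, T.h10, T.h12]
    have e3 : Fermat.Agent.S24.twist ζ hζ0 (jqModC Kbar) * (jqModC Kbar)⁻¹ - 1 =
        (Fermat.Agent.S24.twist ζ hζ0 (jqModC Kbar) - jqModC Kbar) * (jqModC Kbar)⁻¹ := by
      rw [sub_mul, mul_inv_cancel₀ hJK]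
    rw [e3, mul_pow, mul_inv, pow_add, inv_pow, inv_pow]
    ring
  rw [e1]
  convert h2 using 1
  rw [KS.theta_jqModC_pow_six]
  have hDD := DlL_mul_DlLinv (Λ := IsLocalRing.ResidueField ↥A)
  generalize jqModC (IsLocalRing.ResidueField ↥A) = J at hJ
  have e4 : DlL (IsLocalRing.ResidueField ↥A) * J ^ 4 * (J - 1728) ^ 3 *
      DlLinv (IsLocalRing.ResidueField ↥A) = J ^ 4 * (J - 1728) ^ 3 := by
    calc DlL (IsLocalRing.ResidueField ↥A) * J ^ 4 * (J - 1728) ^ 3 *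
        DlLinv (IsLocalRing.ResidueField ↥A)
        = (DlL (IsLocalRing.ResidueField ↥A) * DlLinv (IsLocalRing.ResidueField ↥A)) *
          (J ^ 4 * (J - 1728) ^ 3) := by ring
      _ = _ := by rw [hDD, one_mul]
  have e5 : 12 * m * (q - 1) + 2 * m * (q - 1) = 7 * (2 * m * (q - 1)) := by ring
  have e6 : (1 - 1728 * J⁻¹) ^ 3 = J ^ 4 * (J - 1728) ^ 3 * J⁻¹ ^ 7 := by
    field_simp
  rw [e4, e5, pow_mul J⁻¹ 7, e6]
  generalize 2 * m * (q - 1) = n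
  rw [mul_pow (J ^ 4 * (J - 1728) ^ 3), mul_assoc]

end Frame

end Fermat.Agent.S36R.Unit
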