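import Fermat.Agent.S36R.Unit.CuspMem
import Fermat.Agent.S36R.Unit.CuspKS

/-!
# S36 route R, block R-UNIT: the middle component is principal at the closed points over `j = ∞`
-/

set_option autoImplicit false

noncomputable section

namespace Fermat.Agent.S36R.Unit

open ModularCurve Polynomial Fermat.Agent.S28 Fermat.Agent.GAL.Gauss Fermat.Agent.S24
  Fermat.Agent.S36R.Inj

variable {A : ValuationSubring Kbar} {q : ℕ} [NeZero q] {ζ : Kbar} {hζ0 : ζ ≠ 0}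
  {F : Type*} [Field F] (T : Frame A q ζ hζ0 F) {Φ U G : ℤ[X][X]} {m : ℕ} {c₀ : ℤ}

namespace Frame

variable {O : Type*} [CommRing O] [Algebra O F] {R : Subring F}
variable [hqF : Fact q.Prime] [CharP (IsLocalRing.ResidueField ↥A) q]
variable (hB : BData q Φ U G m c₀) (hζ : IsPrimitiveRoot ζ q)
  (hV : Vert (q : O) T.W (q - 1)) (chart : Chart (q : O) T.W T.j0⁻¹ R)
  (e1 : ∀ z : F, z ≠ 0 → ∃ x : ℤ, (T.W 1).valuation (z ^ (q - 1) / (q : F) ^ x) = 1)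
  (GF : ∀ x : F, IsIntegral ↥(Algebra.adjoin Kbar {(jqModC Kbar)⁻¹}) (T.φ 0 x) →
    ∃ k : ℕ, (q : F) ^ k * x ∈ R)

include hB hζ hV chart e1 GF in
/-- **Leaf CP.** the middle component is principal at the closed points over `j = ∞`.
PROOF. `locGen_of_unit` with `ψ = psiB'`, `e = 12 m (q-1)`, `a = aa`, `u = aa^e / ψ'`
(`∈ R` by `IsCut.pow_div_mem`; `v_1 aa < 1` since `Res 1 (j2/j0 - 1) 0`).  `u ∉ 𝔫`: by `res1_unit`, `cg1_vv`, the
element `u - ε (1 - 1728 y0)^(6m(q-1)) (1 - vv)^(r e)` (`ε ∈ R` a unit lifting `C e₀`, `hconst`) has `v_1 < 1`, so it is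
in `𝔫`; and `ε`, `1 - 1728 y0`, `1 - vv` are not in `𝔫` (`y0 ∈ 𝔫`, `vv ∈ 𝔫`). -/
theorem cusp_locGen
    (hconst : ∀ e : IsLocalRing.ResidueField ↥A, e ≠ 0 →
      ∃ a b : R, a * b = 1 ∧ T.Res 1 (a : F) (HahnSeries.C e))
    (𝔫 : Ideal R) [𝔫.IsPrime] (hq𝔫 : (q : R) ∈ 𝔫)
    (hy : (⟨T.j0⁻¹, chart.c_mem⟩ : R) ∈ 𝔫) (h1 : Thru T.W 𝔫 1) :
    LocGen T.W 𝔫 1 ⟨T.aa, T.aa_mem hζ chart GF⟩ := by
  have hq2 : 2 ≤ q := hqF.out.two_le
  have hqq : 0 < q * q - 1 := by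
    have : 2 * 2 ≤ q * q := Nat.mul_le_mul hq2 hq2
    omega
  have h1n : (1 : R) ∉ 𝔫 := (Ideal.ne_top_iff_one 𝔫).1 (Ideal.IsPrime.ne_top ‹_›)
  have hyp : (⟨T.j0⁻¹, chart.c_mem⟩ : R) ^ (q * q - 1) ∈ 𝔫 := Ideal.pow_mem_of_mem 𝔫 hy _ hqq
  have hcut := T.isCut_psiB' hB hζ hV chart e1 GF
  set e : ℕ := 12 * m * (q - 1) with he
  set r : ℕ := (q * q - 1) * (q * q) with hr
  set ψ : F := T.psiB' Φ G m with hψ
  set jb := jqModC (IsLocalRing.ResidueField ↥A) with hjb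
  have hjb0 : jb ≠ 0 := Frame.jb_ne_zero
  set vR : R := ⟨T.vv, T.vv_mem hζ chart GF⟩ with hvR
  set yR : R := ⟨T.j0⁻¹, chart.c_mem⟩ with hyR
  -- residues on `W 1`
  have hry : T.Res 1 T.j0⁻¹ jb⁻¹ := T.res1_j0.inv hjb0
  have hrd : T.Res 1 (T.j2 * T.j0⁻¹ - 1) 0 := by
    have h2 := ((T.res1_j2 hζ).mul hry).sub (Res.one (T := T) (i := 1))
    rwa [mul_inv_cancel₀ hjb0, sub_self] at h2
  obtain ⟨sv, hsv⟩ := exists_res (T.vv_mem_W hζ 1)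
  have hr1v : T.Res 1 (1 - T.vv) (1 - sv) := (Res.one (T := T) (i := 1)).sub hsv
  have haa : (T.W 1).valuation T.aa < 1 := by
    have h2 := hrd.mul (hr1v.pow r)
    rw [zero_mul] at h2
    exact h2.val_lt_one
  have hvn : vR ∈ 𝔫 := by
    have h2 : vR - yR ^ (q * q - 1) ∈ 𝔫 := h1 _ (T.cg1_vv hζ)
    have h3 := 𝔫.add_mem h2 hyp
    rwa [sub_add_cancel] at h3
  have humem : T.aa ^ e * ψ⁻¹ ∈ R := hcut.pow_div_mem chart (T.aa_mem hζ chart GF) haa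
  refine locGen_of_unit chart hcut.pos (fun z hz => hcut.pow_div_mem chart z.2 hz) 𝔫
    ⟨T.aa, T.aa_mem hζ chart GF⟩ ⟨_, humem⟩ haa ?_ hcut.ne ?_
  · show T.aa ^ e * ψ⁻¹ * ψ = T.aa ^ e
    rw [mul_assoc, inv_mul_cancel₀ hcut.ne, mul_one]
  · obtain ⟨e₀, he₀, hres⟩ := T.res1_unit (Φ := Φ) (G := G) (m := m) hB hζ
    obtain ⟨ε, ε', hεε', hε⟩ := hconst e₀ he₀
    set t : R := ε * ((1 - 1728 * yR) ^ 3) ^ (2 * m * (q - 1)) * ((1 - vR) ^ r) ^ e with ht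
    have hεn : ε ∉ 𝔫 := by
      intro h
      apply h1n
      rw [← hεε']
      exact 𝔫.mul_mem_right _ h
    have hyn : (1 - 1728 * yR) ∉ 𝔫 := by
      intro h
      apply h1n
      have h3 := 𝔫.add_mem h (𝔫.mul_mem_left 1728 hy)
      rwa [sub_add_cancel] at h3
    have hvn' : (1 - vR) ∉ 𝔫 := by
      intro h
      apply h1n
      have h3 := 𝔫.add_mem h hvn
      rwa [sub_add_cancel] at h3
    have htn : t ∉ 𝔫 := by
      intro h
      rcases (Ideal.IsPrime.mem_or_mem ‹_› h) with h | h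
      · rcases (Ideal.IsPrime.mem_or_mem ‹_› h) with h | h
        · exact hεn h
        · exact hyn (Ideal.IsPrime.mem_of_pow_mem ‹_› _ (Ideal.IsPrime.mem_of_pow_mem ‹_› _ h))
      · exact hvn' (Ideal.IsPrime.mem_of_pow_mem ‹_› _ (Ideal.IsPrime.mem_of_pow_mem ‹_› _ h))
    have h1728 : T.Res 1 (1728 : F) (1728 : LaurentSeries (IsLocalRing.ResidueField ↥A)) := by
      have h2 := Res.natCast (T := T) (i := 1) 1728
      simpa using h2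
    have hrt : T.Res 1 ((t : R) : F)
        (HahnSeries.C e₀ * ((1 - 1728 * jb⁻¹) ^ 3) ^ (2 * m * (q - 1)) * ((1 - sv) ^ r) ^ e) := by
      have h2 := (hε.mul ((((Res.one (T := T) (i := 1)).sub (h1728.mul hry)).pow 3).pow
        (2 * m * (q - 1)))).mul ((hr1v.pow r).pow e)
      exact h2
    have hru : T.Res 1 (T.aa ^ e * ψ⁻¹)
        (HahnSeries.C e₀ * ((1 - 1728 * jb⁻¹) ^ 3) ^ (2 * m * (q - 1)) * ((1 - sv) ^ r) ^ e) := by
      have h2 := hres.mul ((hr1v.pow r).pow e)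
      have h3 : T.aa ^ e * ψ⁻¹
          = (T.j2 * T.j0⁻¹ - 1) ^ e * ψ⁻¹ * ((1 - T.vv) ^ r) ^ e := by
        rw [Frame.aa, mul_pow]
        ring
      rw [h3]
      exact h2
    intro hun
    apply htn
    have h4 : (⟨_, humem⟩ : R) - t ∈ 𝔫 := h1 _ (hru.cg hrt)
    have h5 := 𝔫.sub_mem hun h4
    rwa [sub_sub_cancel] at h5

end Frame

end Fermat.Agent.S36R.Unit
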