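import Fermat.Agent.S36R.Unit.Psi
import Fermat.Agent.GAL.Igusa.CuspSep

/-!
# S36 route R, block R-UNIT: the three types of cusps of level `q²`
`(ord j0, ord j1, ord j2) = (-q², -q³, -q⁴)` (only `σ = σ₀`), `(-q², -q³, -q²)`, `(-q², -q, -1)`.
-/

set_option autoImplicit false

noncomputable section

namespace Fermat.Agent.S36R.Unit

open ModularCurve Polynomial Fermat.Agent.S28 Fermat.Agent.S24 Fermat.Agent.GAL.Igusa AlgebraicCurve

theorem CuspTypes_order_qExpand {R : Type*} [CommRing R] (m : ℕ) [NeZero m] (s : LaurentSeries R) :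
    (qExpand R m s).order = m * s.order := by
  have hm : (0 : ℤ) < m := by exact_mod_cast Nat.pos_of_ne_zero (NeZero.ne m)
  by_cases hs : s = 0
  · subst hs; simp
  have hs' : qExpand R m s ≠ 0 := fun h =>
    hs (qExpand_injective (R := R) (N := m) (by rw [h, map_zero]))
  apply le_antisymm
  · apply HahnSeries.order_le_of_coeff_ne_zero
    rw [qExpand_coeff_mul]
    exact HahnSeries.coeff_order_eq_zero.not.mpr hs
  · have h1 := HahnSeries.coeff_order_eq_zero.not.mpr hs'
    by_cases hd : (m : ℤ) ∣ (qExpand R m s).order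
    · obtain ⟨k, hk⟩ := hd
      rw [hk, qExpand_coeff_mul] at h1
      rw [hk]
      exact mul_le_mul_of_nonneg_left (HahnSeries.order_le_of_coeff_ne_zero h1) hm.le
    · exact absurd (qExpand_coeff_of_not_dvd m s hd) h1

theorem CuspTypes_order_coeffMap {K L : Type*} [Field K] [Field L] (ι : K →+* L)
    (j : LaurentSeries K) : (coeffMap ι j).order = j.order := by
  rcases eq_or_ne j 0 with rfl | hj
  · simp
  have hj' : coeffMap ι j ≠ 0 := by
    intro h
    apply hj
    ext n
    have h1 := congrArg (fun z => z.coeff n) h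
    simp only [coeffMap_coeff, HahnSeries.coeff_zero] at h1
    rw [HahnSeries.coeff_zero]
    exact (map_eq_zero ι).mp h1
  apply le_antisymm
  · apply HahnSeries.order_le_of_coeff_ne_zero
    rw [coeffMap_coeff]
    exact (map_ne_zero ι).mpr (HahnSeries.coeff_order_eq_zero.not.mpr hj)
  · apply HahnSeries.order_le_of_coeff_ne_zero
    have := HahnSeries.coeff_order_eq_zero.not.mpr hj'
    rw [coeffMap_coeff] at this
    exact (map_ne_zero ι).mp this

theorem CuspTypes_leadingCoeff_qExpand {R : Type*} [CommRing R] (m : ℕ) [NeZero m]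
    (s : LaurentSeries R) : (qExpand R m s).leadingCoeff = s.leadingCoeff := by
  rw [HahnSeries.leadingCoeff_eq, HahnSeries.leadingCoeff_eq, CuspTypes_order_qExpand,
    qExpand_coeff_mul]

section General

variable {k : Type} [Field k] {N : ℕ} [NeZero N]

/-- **Leaf IC3a.** the embedding attached to `σ₀` is the base embedding `t ↦ t^N`.
PROOF. `toBar_theta_injective`, `tau_spec`, `theta_baseL`, `algebraMap_FF_bar`, `incl_coe`. -/
theorem phi_sigma0 (hN : (N : k) ≠ 0) (y : EC k N) :
    phi hN (σ₀ : ↥(FF k N) →ₐ[↥(EE k)] OmBar k) y = baseL k N (y : LaurentSeries k) := by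
  apply toBar_theta_injective k N
  show toBar k (theta k N _) = toBar k (theta k N _)
  rw [phi_apply, ← tau_spec, theta_baseL]
  have h : (σ₀ : ↥(FF k N) →ₐ[↥(EE k)] OmBar k) (incl k N y)
      = algebraMap (FF k N) (OmBar k) (incl k N y) := rfl
  rw [h, algebraMap_FF_bar, incl_coe]

/-- consequence: orders at `σ₀`. (`baseL = qExpand N ∘ coeffMap`; `order (qExpand N x) = N * order x`.) -/
theorem ordOf_phi_sigma0 (hN : (N : k) ≠ 0) (y : EC k N) :
    ordOf (phi hN (σ₀ : ↥(FF k N) →ₐ[↥(EE k)] OmBar k)) y = N * (y : LaurentSeries k).order := by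
  rw [ordOf, phi_sigma0, baseL, RingHom.comp_apply, CuspTypes_order_qExpand,
    CuspTypes_order_coeffMap]

end General

section LevelQQ

variable {k : Type} [Field k] {q : ℕ} [NeZero q] [NeZero (q * q)]

/-- **Leaf IC3b.** the three types of cusps of level `q²`.
PROOF. `T_r_one`, `T_r_step` (with `(p, d) = (q, 1)` and `(q, q)`), `T_r_noback`, `T_inj`/`T_step` to exclude
`(1, q, 1)` with `T σ (q q) = T σ 1`... (not needed: only the `r`'s matter), `eq_σ₀_of_T_r` (the divisors of
`q * q` are `1, q, q * q`: `Nat.divisors_prime_pow` / `(Nat.dvd_prime_pow hq).mp`), `CuspSep_ordOf_jEd`,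
`exists_pnat_T_r`. -/
theorem cusp_types (hq : q.Prime) (hN : ((q * q : ℕ) : k) ≠ 0)
    (σ : ↥(FF k (q * q)) →ₐ[↥(EE k)] OmBar k) :
    σ = σ₀ ∨
    (ordOf (phi hN σ) (jEd k (q * q) q) = -(q : ℤ) ^ 3 ∧
      ordOf (phi hN σ) (jEd k (q * q) (q * q)) = -(q : ℤ) ^ 2) ∨
    (ordOf (phi hN σ) (jEd k (q * q) q) = -(q : ℤ) ∧
      ordOf (phi hN σ) (jEd k (q * q) (q * q)) = -1) := by
  have hq0 : (q : ℚ) ≠ 0 := by exact_mod_cast hq.ne_zero
  have h1 : (T σ 1).r = 1 := T_r_one hB hN σ
  have hd1 : q ∣ q * q := Dvd.intro q rfl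
  have hd2 : q * q ∣ q * q := dvd_rfl
  -- orders from the exponents
  have key : ∀ {d : ℕ} (hd : d ∣ q * q) (z : ℤ), (z : ℚ) = (T σ d).r * ((q * q : ℕ) : ℚ) →
      ordOf (phi hN σ) (jEd k (q * q) d) = -z := by
    intro d hd z hz
    obtain ⟨m, hm⟩ := exists_pnat_T_r hN σ hd
    rw [CuspSep_ordOf_jEd hN σ hd m hm]
    have : (((m : ℕ) : ℤ) : ℚ) = (z : ℚ) := by
      rw [hz, ← hm]; norm_cast
    have h2 : ((m : ℕ) : ℤ) = z := by exact_mod_cast this
    rw [h2]
  have s1 := T_r_step hB hN σ q 1 hq (by rw [mul_one]; exact hd1)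
  have s2 := T_r_step hB hN σ q q hq hd2
  have nb := T_r_noback hB hN σ q 1 hq (by rw [mul_one])
  rw [mul_one] at s1 nb
  rw [h1] at s1 nb
  rcases s1 with s1 | s1
  · rw [mul_one] at s1
    rcases s2 with s2 | s2
    · left
      apply eq_σ₀_of_T_r hB hN σ
      intro d hd
      have hd' : d ∣ q ^ 2 := by rw [pow_two]; exact hd
      obtain ⟨i, hi, rfl⟩ := (Nat.dvd_prime_pow hq).mp hd'
      interval_cases i
      · rw [pow_zero, h1, Nat.cast_one]
      · rw [pow_one, s1]
      · rw [pow_two, s2, s1]; push_cast; ring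
    · right; left
      rw [s1] at s2
      have s3 : (T σ (q * q)).r = 1 := by
        field_simp at s2
        linarith
      refine ⟨?_, ?_⟩
      · rw [key hd1 ((q : ℤ) ^ 3) (by rw [s1]; push_cast; ring)]
      · rw [key hd2 ((q : ℤ) ^ 2) (by rw [s3]; push_cast; ring)]
  · right; right
    have s3 := nb s1
    have e1 : (T σ q).r = 1 / q := by
      field_simp
      linarith
    have e2 : (T σ (q * q)).r = 1 / (q * q) := by
      rw [e1] at s3
      field_simp
      field_simp at s3
      linarith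
    refine ⟨?_, ?_⟩
    · rw [key hd1 (q : ℤ) (by rw [e1]; push_cast; field_simp)]
    · rw [key hd2 1 (by rw [e2]; push_cast; field_simp)]

/-- `1 - j(t^{q²}) / j(t)^{q²}` has positive order.
PROOF. `jqModC k = single (-1) 1 * (power series with constant term 1)` (see `S28.IsMono`,
`S28/BMono.lean`, `subL_jqModC_coeff`). -/
theorem order_one_sub_V_pos :
    0 < (1 - qExpand k q (qExpand k q (jqModC k)) * ((jqModC k)⁻¹) ^ (q * q)).order ∨
      1 - qExpand k q (qExpand k q (jqModC k)) * ((jqModC k)⁻¹) ^ (q * q) = 0 := by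
  set x : LaurentSeries k := qExpand k q (qExpand k q (jqModC k)) * ((jqModC k)⁻¹) ^ (q * q)
    with hx
  have hj0 : jqModC k ≠ 0 := HahnSeries.ne_zero_of_coeff_ne_zero
    (g := -1) (by rw [coeff_jqModC_neg_one]; exact one_ne_zero)
  have hjo : (jqModC k).order = -1 := by
    refine le_antisymm (HahnSeries.order_le_of_coeff_ne_zero
      (by rw [coeff_jqModC_neg_one]; exact one_ne_zero)) ?_
    by_contra hlt
    rw [not_le] at hlt
    exact hj0 (HahnSeries.coeff_order_eq_zero.mp (coeff_jqModC_of_lt _ hlt))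
  have hjl : (jqModC k).leadingCoeff = 1 := by
    rw [HahnSeries.leadingCoeff_eq, hjo, coeff_jqModC_neg_one]
  have hi0 : (jqModC k)⁻¹ ≠ 0 := inv_ne_zero hj0
  have hmul : jqModC k * (jqModC k)⁻¹ = 1 := mul_inv_cancel₀ hj0
  have hio : ((jqModC k)⁻¹).order = 1 := by
    have := HahnSeries.order_mul hj0 hi0
    rw [hmul, HahnSeries.order_one, hjo] at this
    omega
  have hil : ((jqModC k)⁻¹).leadingCoeff = 1 := by
    have := HahnSeries.leadingCoeff_mul (x := jqModC k) (y := (jqModC k)⁻¹)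
    rw [hmul, HahnSeries.leadingCoeff_one, hjl, one_mul] at this
    exact this.symm
  have hA0 : qExpand k q (qExpand k q (jqModC k)) ≠ 0 := by
    intro h
    apply hj0
    apply qExpand_injective (R := k) (N := q)
    apply qExpand_injective (R := k) (N := q)
    rw [h, map_zero, map_zero]
  have hB0 : ((jqModC k)⁻¹) ^ (q * q) ≠ 0 := pow_ne_zero _ hi0
  have hxo : x.order = 0 := by
    rw [hx, HahnSeries.order_mul hA0 hB0, CuspTypes_order_qExpand, CuspTypes_order_qExpand, hjo,
      HahnSeries.order_pow, hio]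
    simp
  have hxl : x.leadingCoeff = 1 := by
    have hpw : ∀ n : ℕ, (((jqModC k)⁻¹) ^ n).leadingCoeff = 1 := by
      intro n
      induction n with
      | zero => simp
      | succ n ih => rw [pow_succ, HahnSeries.leadingCoeff_mul, ih, hil, one_mul]
    rw [hx, HahnSeries.leadingCoeff_mul, CuspTypes_leadingCoeff_qExpand,
      CuspTypes_leadingCoeff_qExpand, hjl, hpw, one_mul]
  have hc0 : x.coeff 0 = 1 := by
    rw [← hxl, HahnSeries.leadingCoeff_eq, hxo]
  have hcn : ∀ n : ℤ, n ≤ 0 → (1 - x).coeff n = 0 := by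
    intro n hn
    rcases lt_or_eq_of_le hn with hlt | rfl
    · rw [HahnSeries.coeff_sub, HahnSeries.coeff_one, if_neg hlt.ne,
        HahnSeries.coeff_eq_zero_of_lt_order (by rw [hxo]; exact hlt), sub_zero]
    · rw [HahnSeries.coeff_sub, HahnSeries.coeff_one, if_pos rfl, hc0, sub_self]
  by_cases h0 : 1 - x = 0
  · exact Or.inr h0
  · left
    by_contra hle
    rw [not_lt] at hle
    exact h0 (HahnSeries.coeff_order_eq_zero.mp (hcn _ hle))

end LevelQQ

end Fermat.Agent.S36R.Unit
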