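import Fermat.Agent.S36R.Unit.Psi
import Fermat.Agent.GAL.Igusa.CuspSep

/-!
# S36 route R, block R-UNIT: the order of the units `ψ(j_d, j_{qd})` at the cusps
-/

set_option autoImplicit false

noncomputable section

namespace Fermat.Agent.S36R.Unit

open ModularCurve Polynomial Fermat.Agent.S28 Fermat.Agent.S24 Fermat.Agent.GAL.Igusa AlgebraicCurve

variable {k : Type} [Field k] {N : ℕ} [NeZero N]

/-- **Leaf IC4.** the order of the unit `ψ(j_d, j_{qd})` at a cusp.
PROOF. Copy the part `key`/`hσ` of the proof of `S28.exists_step_unit` (`S28/CUnit.lean`):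
`σ (ψ) = toBar (u ^ m)` with `u.orderTop = (T σ (q d)).r - (T σ d).r` (`step_unit`, `T_step`, `T_spec`,
`step_sep`); here `ψ` is transported from `EC k N` to `FF k N` by `incl` (`map_psiOf`, `incl_jEd`).
`σ x = toBar (theta (tau σ x))` (`tau_spec`), `phi σ y = tau σ (incl y)`, and
`(theta z).orderTop = z.order / N` (`theta = sub (parT k N)`); finally `CuspSep_ordOf_jEd`,
`exists_pnat_T_r`. -/
theorem ordOf_psiOf {q : ℕ} [NeZero q] {Φ U G : ℤ[X][X]} {m : ℕ} {c : ℤ} (hB' : BData q Φ U G m c)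
    (hq : q.Prime) (hN : (N : k) ≠ 0) (σ : ↥(FF k N) →ₐ[↥(EE k)] OmBar k) {d : ℕ} (hd : q * d ∣ N) :
    psiOf Φ G (jEd k N d) (jEd k N (q * d)) ≠ 0 ∧
    ordOf (phi hN σ) (psiOf Φ G (jEd k N d) (jEd k N (q * d))) =
      m * (ordOf (phi hN σ) (jEd k N d) - ordOf (phi hN σ) (jEd k N (q * d))) := by
  have hd' : d ∣ N := (Dvd.intro_left q rfl).trans hd
  have hd0 : d ≠ 0 := ne_zero_of_dvd N hd'
  have : NeZero d := ⟨hd0⟩
  have : NeZero (q * d) := ⟨ne_zero_of_dvd N hd⟩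
  have hpK := natCast_ne_zero_of_dvd k N hN ((Dvd.intro d rfl).trans hd)
  have hrel : (Φ.map (evY (jF k N d))).eval (jF k N (q * d)) = 0 := by
    apply (algebraMap ↥(FF k N) (LaurentSeries k)).injective
    rw [map_eval_evY, map_zero]
    change (Φ.map (evY ((jF k N d : ↥(FF k N)) : LaurentSeries k))).eval
      ((jF k N (q * d) : ↥(FF k N)) : LaurentSeries k) = 0
    rw [jF_coe k N hd', jF_coe k N hd]
    exact Phi_jd k hB' hpK d hd0
  obtain ⟨u, hu1, hu2⟩ := step_unit hB' hpK (T σ d) (T σ (q * d)) (T_step hB hN σ hq hd)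
  have ht := T_spec hB hN σ hd'
  have hs := T_spec hB hN σ hd
  have hroot : (Φ.map (evY (J (T σ d)))).eval (J (T σ (q * d))) = 0 := by
    apply toBar_injective k
    rw [map_eval_evY, ← ht, ← hs]
    have := map_eval_evY (σ : ↥(FF k N) →+* OmBar k) (jF k N d) (jF k N (q * d)) Φ
    rw [hrel, map_zero] at this
    rw [map_zero]
    exact this.symm
  have hne : (Φ.map (evY (J (T σ d)))).derivative.eval (J (T σ (q * d))) ≠ 0 := by
    have h1 := (step_sep hB' hq hpK (T σ d)).eval₂_derivative_ne_zero (RingHom.id _)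
      (x := J (T σ (q * d))) (by rwa [eval₂_id])
    rwa [eval₂_id] at h1
  set ψ := psiOf Φ G (jEd k N d) (jEd k N (q * d)) with hψ
  have hincl : incl k N ψ = psiOf Φ G (jF k N d) (jF k N (q * d)) := by
    have := map_psiOf (incl k N : EC k N ≃+* ↥(FF k N)).toRingHom Φ G (jEd k N d) (jEd k N (q * d))
    rw [← incl_jEd k N hd', ← incl_jEd k N hd]
    exact this
  have hσψ : σ (incl k N ψ) = toBar k (u ^ m) := by
    have h1 := map_psiOf (σ : ↥(FF k N) →+* OmBar k) Φ G (jF k N d) (jF k N (q * d))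
    have h2 : (σ : ↥(FF k N) →+* OmBar k) (jF k N d) = toBar k (J (T σ d)) := ht
    have h3 : (σ : ↥(FF k N) →+* OmBar k) (jF k N (q * d)) = toBar k (J (T σ (q * d))) := hs
    rw [h2, h3, ← map_psiOf (toBar k)] at h1
    rw [hincl]
    refine h1.trans ?_
    rw [psiOf, hu2, mul_div_assoc, div_self hne, mul_one]
  have hth : theta k N (phi hN σ ψ) = u ^ m := by
    apply toBar_injective k
    rw [phi_apply, ← tau_spec, hσψ]
  have hord := orderTop_pow_eq u _ hu1 m
  have hz0 : phi hN σ ψ ≠ 0 := by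
    intro h0
    rw [h0, map_zero] at hth
    rw [← hth, HahnSeries.orderTop_zero] at hord
    exact WithTop.top_ne_coe hord
  have hψ0 : ψ ≠ 0 := by
    intro h0
    exact hz0 (by rw [h0, map_zero])
  refine ⟨hψ0, ?_⟩
  have h4 := orderTop_sub (parT k N) (phi hN σ ψ) (phi hN σ ψ).order
    (HahnSeries.order_eq_orderTop_of_ne_zero hz0).symm
  have h5 : sub (parT k N) (phi hN σ ψ) = u ^ m := hth
  rw [h5, hord] at h4
  have h6 := WithTop.coe_injective h4
  obtain ⟨md, hmd⟩ := exists_pnat_T_r hN σ hd'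
  obtain ⟨mqd, hmqd⟩ := exists_pnat_T_r hN σ hd
  rw [CuspSep_ordOf_jEd hN σ hd' md hmd, CuspSep_ordOf_jEd hN σ hd mqd hmqd, ordOf]
  have hN0 : (N : ℚ) ≠ 0 := Nat.cast_ne_zero.2 (NeZero.ne N)
  have h7 : (parT k N).r = 1 / (N : ℚ) := rfl
  rw [h7] at h6
  have h8 : (((phi hN σ ψ).order : ℤ) : ℚ) = (m : ℚ) * ((mqd : ℚ) - (md : ℚ)) := by
    rw [hmd, hmqd]
    field_simp at h6
    linarith
  have h9 : (((phi hN σ ψ).order : ℤ) : ℚ) = (((m : ℤ) * (-((md : ℕ) : ℤ) - -((mqd : ℕ) : ℤ)) : ℤ) : ℚ) := by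
    rw [h8]
    push_cast
    ring
  exact_mod_cast h9

end Fermat.Agent.S36R.Unit
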