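import Fermat.Agent.S36R.Unit.IntCrit
import Fermat.Agent.S36R.Unit.CuspTypes
import Fermat.Agent.S36R.Unit.OrdPsi

/-!
# S36 route R, block R-UNIT: integrality over `k[1/j]` (regularity at the cusps of the generic fibre)

Level `N = q * q`, `k` algebraically closed with `q ≠ 0` in `k` (application: `k = Kbar`).
`j0 = j(t)`, `j1 = j(t^q)`, `j2 = j(t^{q²})`.  All cusps are described by the embeddings
`phi hN σ : EC k N → k̄((t^{1/N}))` of `GAL/Igusa/CuspMain.lean`; there are three types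
`(ord j0, ord j1, ord j2) = (-q², -q³, -q⁴)` (only `σ = σ₀`), `(-q², -q³, -q²)`, `(-q², -q, -1)`.

Final statements (`IC5a-d`), used by `Unit/Cusp.lean` through the generic fibre criterion:
the series `V = j2 / j0^{q²}`, `Wq = j1 / j0^q`, `(U2 / U1) / j0^{2m(q-1)}` and
`(j2 / j0 - 1) (1 - V)^{(q²-1) q²}` are integral over `k[1/j]`.
-/

set_option autoImplicit false

noncomputable section

namespace Fermat.Agent.S36R.Unit

open ModularCurve Polynomial Fermat.Agent.S28 Fermat.Agent.S24 Fermat.Agent.GAL.Igusa AlgebraicCurve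

variable {k : Type} [Field k] {q : ℕ} [NeZero q] [NeZero (q * q)]

variable [IsAlgClosed k]

/-- **Leaf IC5a.** `V = j2 / j0^{q²}` is integral over `k[1/j]`.
(orders at the three types: `0`, `q⁴ - q²`, `q⁴ - 1`; `j0^{q²} V = j2` is integral over `k[j]`:
`S28.isIntegral_jd`.) -/
theorem isIntegral_V (hq : q.Prime) (hqk : (q : k) ≠ 0) :
    IsIntegral (Algebra.adjoin k {(jqModC k)⁻¹})
      (qExpand k q (qExpand k q (jqModC k)) * ((jqModC k)⁻¹) ^ (q * q)) := by
  sorry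

/-- **Leaf IC5b.** `Wq = j1 / j0^q` is integral over `k[1/j]`. (orders: `0`, `0`, `q³ - q`.) -/
theorem isIntegral_Wq (hq : q.Prime) (hqk : (q : k) ≠ 0) :
    IsIntegral (Algebra.adjoin k {(jqModC k)⁻¹})
      (qExpand k q (jqModC k) * ((jqModC k)⁻¹) ^ q) := by
  sorry

/-- **Leaf IC5c.** `(U2 / U1) / j0^{2m(q-1)}` is integral over `k[1/j]`.
(`ord U1 = m (ord j0 - ord j1)`, `ord U2 = m (ord j1 - ord j2)` by `ordOf_psiOf`; so the order is
`m (2 ord j1 - ord j0 - ord j2) + 2 m (q-1) q²`, i.e. `m q² (q²-1)`, `0`, `m ((q-1)² + 2 (q-1) q²)`;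
`U2`, `U1⁻¹` are integral over `k[j]`: `S28.isIntegral_unit` + `psiOf_up`, `psiOf_up2`.) -/
theorem isIntegral_psi' {Φ U G : ℤ[X][X]} {m : ℕ} {c : ℤ} (hB' : BData q Φ U G m c)
    (hq : q.Prime) (hqk : (q : k) ≠ 0) :
    IsIntegral (Algebra.adjoin k {(jqModC k)⁻¹})
      (psiOf Φ G (qExpand k q (jqModC k)) (qExpand k q (qExpand k q (jqModC k))) *
        (psiOf Φ G (jqModC k) (qExpand k q (jqModC k)))⁻¹ * ((jqModC k)⁻¹) ^ (2 * m * (q - 1))) := by
  sorry

/-- **Leaf IC5d.** `(j2 / j0 - 1) (1 - V)^r`, `r = (q² - 1) q²`, is integral over `k[1/j]`.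
(at `σ₀`: `ord (j2/j0 - 1) = -(q²-1) q²` and `ord (1 - V) ≥ 1` (`order_one_sub_V_pos`, `ordOf_phi_sigma0`);
at the two other types both factors are regular.) -/
theorem isIntegral_a (hq : q.Prime) (hqk : (q : k) ≠ 0) :
    IsIntegral (Algebra.adjoin k {(jqModC k)⁻¹})
      ((qExpand k q (qExpand k q (jqModC k)) * (jqModC k)⁻¹ - 1) *
        (1 - qExpand k q (qExpand k q (jqModC k)) * ((jqModC k)⁻¹) ^ (q * q)) ^
          ((q * q - 1) * (q * q))) := by
  sorry

end Fermat.Agent.S36R.Unit
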