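import Fermat.Agent.S36R.Unit.CuspRes
import Fermat.Agent.S36R.Unit.AffCut
import Fermat.Agent.S36R.Unit.IntCusp

/-!
# S36 route R, block R-UNIT: `vv, ww, aa ∈ R₁`, and `ψ'` cuts out the middle component near the cusps
-/

set_option autoImplicit false

noncomputable section

namespace Fermat.Agent.S36R.Unit

open ModularCurve Polynomial Fermat.Agent.S28 Fermat.Agent.GAL.Gauss Fermat.Agent.S24
  Fermat.Agent.S36R.Inj

variable {A : ValuationSubring Kbar} {q : ℕ} [NeZero q] {ζ : Kbar} {hζ0 : ζ ≠ 0}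
  {F : Type*} [Field F] (T : Frame A q ζ hζ0 F) {Φ U G : ℤ[X][X]} {m : ℕ} {c₀ : ℤ}

namespace Frame

variable {O : Type*} [CommRing O] [Algebra O F] {R : Subring F}
variable [hqF : Fact q.Prime] [CharP (IsLocalRing.ResidueField ↥A) q]
variable (hB : BData q Φ U G m c₀) (hζ : IsPrimitiveRoot ζ q)
  (hV : Vert (q : O) T.W (q - 1)) (chart : Chart (q : O) T.W T.j0⁻¹ R)
  (e1 : ∀ z : F, z ≠ 0 → ∃ x : ℤ, (T.W 1).valuation (z ^ (q - 1) / (q : F) ^ x) = 1)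
  (GF : ∀ x : F, IsIntegral ↥(Algebra.adjoin Kbar {(jqModC Kbar)⁻¹}) (T.φ 0 x) →
    ∃ k : ℕ, (q : F) ^ k * x ∈ R)

include chart GF in
theorem mem_of_GF' {x : F} (h : IsIntegral ↥(Algebra.adjoin Kbar {(jqModC Kbar)⁻¹}) (T.φ 0 x))
    (hW : ∀ i, x ∈ T.W i) : x ∈ R := by
  obtain ⟨k, hk⟩ := GF x h
  refine Chart.mem_of_pow_mul chart k ?_ hW
  rwa [map_natCast]

include hζ chart GF in
/-- **Leaf CM.** (`mem_of_GF'`, `vv_mem_W`, and `isIntegral_V hq hqk` after rewriting `T.φ 0 T.vv` with `vv`, `map_mul`,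
`map_pow`, `map_inv₀`, `T.h00`, `T.h02`; `hqk : (q : Kbar) ≠ 0` by `Nat.cast_ne_zero`; the instance `NeZero (q * q)`.) -/
theorem vv_mem : T.vv ∈ R := by
  have : NeZero (q * q) := ⟨Nat.mul_ne_zero hqF.out.ne_zero hqF.out.ne_zero⟩
  have hqk : (q : Kbar) ≠ 0 := Nat.cast_ne_zero.mpr hqF.out.ne_zero
  refine T.mem_of_GF' chart GF ?_ (T.vv_mem_W hζ)
  rw [vv, map_mul, map_pow, map_inv₀, T.h00, T.h02]
  exact isIntegral_V hqF.out hqk

include chart GF in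
/-- (`isIntegral_Wq`, `ww_mem_W`.) -/
theorem ww_mem : T.ww ∈ R := by
  have : NeZero (q * q) := ⟨Nat.mul_ne_zero hqF.out.ne_zero hqF.out.ne_zero⟩
  have hqk : (q : Kbar) ≠ 0 := Nat.cast_ne_zero.mpr hqF.out.ne_zero
  refine T.mem_of_GF' chart GF ?_ T.ww_mem_W
  rw [ww, map_mul, map_pow, map_inv₀, T.h00, T.h01]
  exact isIntegral_Wq hqF.out hqk

include hζ chart GF in
/-- (`isIntegral_a`, `aa_mem_W`.) -/
theorem aa_mem : T.aa ∈ R := by
  have : NeZero (q * q) := ⟨Nat.mul_ne_zero hqF.out.ne_zero hqF.out.ne_zero⟩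
  have hqk : (q : Kbar) ≠ 0 := Nat.cast_ne_zero.mpr hqF.out.ne_zero
  refine T.mem_of_GF' chart GF ?_ (T.aa_mem_W hζ)
  rw [aa, vv, map_mul, map_pow, map_sub, map_sub, map_one, map_mul, map_mul, map_pow, map_inv₀,
    T.h00, T.h02]
  exact isIntegral_a hqF.out hqk

include hB hζ hV chart e1 GF in
/-- `ψ'` cuts out `W 1` on the chart at infinity (it need not be in `R`).
PROOF. `m > 0` is `hB.1`, `q ≥ 2`.  `Res 1 (psiB' / q^(12m)) ((H^2)⁻¹ * j̄^(2m(q-1)))` (`res1_psiB`, `res1_j0`), nonzero, so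
`v_1 psiB' = v_1 q ^ (12m) < 1`; `other`: `res0_psiB`, `res2_psiB`, `res0_j0`, `res2_j0`, `Res.val_eq_one`; `pow_le` as in
`isCut_psiB` (`pow_le_of_valueGroup`); `inv`: `GF (psiB')⁻¹` with `isIntegral_psi' hB hq hqk`
(`T.φ 0 (psiB')⁻¹ = ψ(j1,j2) * ψ(j0,j1)⁻¹ * (j⁻¹)^(2m(q-1))` by `map_psiOf`, `T.h00`, `T.h01`, `T.h02`). -/
theorem isCut_psiB' : IsCut (q : O) T.W R (T.psiB' Φ G m) 1 (12 * m * (q - 1)) := by
  have : NeZero (q * q) := ⟨Nat.mul_ne_zero hqF.out.ne_zero hqF.out.ne_zero⟩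
  have hqk : (q : Kbar) ≠ 0 := Nat.cast_ne_zero.mpr hqF.out.ne_zero
  have hm : 0 < m := hB.1
  have hq1 : 0 < q - 1 := Nat.sub_pos_of_lt hqF.out.one_lt
  have hH := Hs_ne_zero (IsLocalRing.ResidueField ↥A) q m
  have hJ := jb_ne_zero (A := A)
  have hq0 : (q : F) ≠ 0 := T.natCast_ne_zero q hqF.out.ne_zero
  have hqlt : (T.W 1).valuation (q : F) < 1 := by
    have h := hV.pi_lt 1
    rwa [map_natCast] at h
  have h1 : (T.W 1).valuation (T.psiB Φ G / (q : F) ^ (12 * m) * T.j0 ^ (2 * m * (q - 1))) = 1 :=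
    ((T.res1_psiB hB hζ).mul (T.res1_j0.pow _)).val_eq_one
      (mul_ne_zero (inv_ne_zero (pow_ne_zero _ hH)) (pow_ne_zero _ hJ))
  have e : T.psiB' Φ G m =
      (q : F) ^ (12 * m) * (T.psiB Φ G / (q : F) ^ (12 * m) * T.j0 ^ (2 * m * (q - 1))) := by
    rw [psiB']
    field_simp
  have hval : (T.W 1).valuation (T.psiB' Φ G m) = (T.W 1).valuation (q : F) ^ (12 * m) := by
    rw [e, map_mul, h1, mul_one, map_pow]
  refine ⟨Nat.mul_pos (Nat.mul_pos (by norm_num) hm) hq1, ?_, ?_, ?_, ?_, ?_⟩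
  · rw [hval]
    exact pow_lt_one₀ zero_le hqlt (Nat.mul_pos (by norm_num) hm).ne'
  · intro h0
    rw [h0, map_zero] at hval
    exact (pow_ne_zero _ ((Valuation.ne_zero_iff _).mpr hq0)) hval.symm
  · intro j hj
    fin_cases j
    · exact ((T.res0_psiB hB hζ).mul (T.res0_j0.pow _)).val_eq_one
        (mul_ne_zero (pow_ne_zero _ hH) (pow_ne_zero _ hJ))
    · exact absurd rfl hj
    · exact ((T.res2_psiB hB hζ).mul (T.res2_j0.pow _)).val_eq_one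
        (mul_ne_zero (pow_ne_zero _ hH) (pow_ne_zero _ (pow_ne_zero _ hJ)))
  · intro z hz
    have h2 := T.pow_le_of_valueGroup hV 1 (q - 1) hq1 e1 z hz
    rw [hval, mul_comm (12 * m) (q - 1), pow_mul]
    exact pow_le_pow_left₀ zero_le h2 _
  · obtain ⟨k, hk⟩ := GF (T.psiB' Φ G m)⁻¹ (by
      have e2 : T.φ 0 (T.psiB' Φ G m)⁻¹ =
          psiOf Φ G (qExpand Kbar q (jqModC Kbar)) (qExpand Kbar q (qExpand Kbar q (jqModC Kbar))) *
          (psiOf Φ G (jqModC Kbar) (qExpand Kbar q (jqModC Kbar)))⁻¹ *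
          ((jqModC Kbar)⁻¹) ^ (2 * m * (q - 1)) := by
        rw [psiB', psiB, U1, U2, map_inv₀, map_mul, map_div₀, map_pow, map_psiOf, map_psiOf, T.h00,
          T.h01, T.h02, mul_inv, inv_div, inv_pow, div_eq_mul_inv]
      rw [e2]
      exact isIntegral_psi' hB hqF.out hqk)
    exact ⟨k, by rwa [map_natCast]⟩

end Frame

end Fermat.Agent.S36R.Unit
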