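import Fermat.Agent.S36R.Unit.Units

/-!
# S36 route R, block R-UNIT: the closed points of the special fibre over `j = ∞`

Chart `R` with coordinate `y0 = 1 / j0`.  `𝔫` a prime of `R` containing `q` and `y0`.

* `vv = j2 / j0^{q²} ∈ R`  is `≡ 1` on `W 0`, `≡ y0^{q²-1}` on `W 1`;
* `ww = j1 / j0^q ∈ R`  is `≡ 1` on `W 0`, `W 1` and `ww^q ≡ y0^{q²-1}` on `W 2`;
  hence exactly one component passes through `𝔫` (`cusp_unique`);
* on `W 1`: `aa = (j2 / j0 - 1) (1 - vv)^r` generates the centre of `W 1` at `𝔫` (`cusp_locGen`), by the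
  principality criterion with `ψ' = psiB * j0^{2m(q-1)}`:
  `(j2/j0 - 1)^e / ψ' ≡ const * (1 - 1728 y0)^{6m(q-1)}` on `W 1`, `e = 12 m (q-1)`.
-/

set_option autoImplicit false

noncomputable section

namespace Fermat.Agent.S36R.Unit

open ModularCurve Polynomial Fermat.Agent.S28 Fermat.Agent.GAL.Gauss Fermat.Agent.S24
  Fermat.Agent.S36R.Inj

variable {A : ValuationSubring Kbar} {q : ℕ} [NeZero q] {ζ : Kbar} {hζ0 : ζ ≠ 0}
  {F : Type*} [Field F] (T : Frame A q ζ hζ0 F) (Φ G : ℤ[X][X]) (m : ℕ)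

namespace Frame

/-- `j2 / j0^{q²}`. -/
def vv : F := T.j2 * (T.j0⁻¹) ^ (q * q)

/-- `j1 / j0^q`. -/
def ww : F := T.j1 * (T.j0⁻¹) ^ q

/-- `(j2 / j0 - 1) (1 - vv)^r`. -/
def aa : F := (T.j2 * T.j0⁻¹ - 1) * (1 - T.vv) ^ ((q * q - 1) * (q * q))

/-- `psiB * j0^{2m(q-1)}`. -/
def psiB' : F := T.psiB Φ G * T.j0 ^ (2 * m * (q - 1))

variable [hqF : Fact q.Prime] [CharP (IsLocalRing.ResidueField ↥A) q]

theorem jb_ne_zero : jqModC (IsLocalRing.ResidueField ↥A) ≠ 0 := by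
  exact jqModC_ne_zero_of_nontrivial _

theorem CuspRes_GR_j1 : GR A (qExpand Kbar q (jqModC Kbar))
    (jqModC (IsLocalRing.ResidueField ↥A) ^ q) := by
  have h := (GR_j (A := A)).qExpand q
  rwa [qExpand_j (IsLocalRing.ResidueField ↥A) q] at h

theorem CuspRes_GR_j2 : GR A (qExpand Kbar q (qExpand Kbar q (jqModC Kbar)))
    (jqModC (IsLocalRing.ResidueField ↥A) ^ (q * q)) := by
  have h := (CuspRes_GR_j1 (A := A) (q := q)).qExpand q
  rwa [map_pow, qExpand_j (IsLocalRing.ResidueField ↥A) q, ← pow_mul] at h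

/-! **Leaf CR1**: residues of `j0, j1, j2` (`GR_j`, `GR.qExpand`, `GR.twist`, `qExpand_j`, `KS.zeta_mem`,
`KS.residue_zeta`). -/

theorem res0_j0 : T.Res 0 T.j0 (jqModC (IsLocalRing.ResidueField ↥A)) := by
  unfold Res
  rw [T.h00]
  exact GR_j

theorem res1_j0 : T.Res 1 T.j0 (jqModC (IsLocalRing.ResidueField ↥A)) := by
  unfold Res
  rw [T.h10]
  exact GR_j

theorem res2_j0 : T.Res 2 T.j0 (jqModC (IsLocalRing.ResidueField ↥A) ^ (q * q)) := by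
  unfold Res
  rw [T.h20]
  exact CuspRes_GR_j2

theorem res_j1 (i : Fin 3) : T.Res i T.j1 (jqModC (IsLocalRing.ResidueField ↥A) ^ q) := by
  unfold Res
  fin_cases i
  · show GR A (T.φ 0 T.j1) _
    rw [T.h01]
    exact CuspRes_GR_j1
  · show GR A (T.φ 1 T.j1) _
    rw [T.h11]
    exact CuspRes_GR_j1
  · show GR A (T.φ 2 T.j1) _
    rw [T.h21]
    exact CuspRes_GR_j1

theorem res0_j2 : T.Res 0 T.j2 (jqModC (IsLocalRing.ResidueField ↥A) ^ (q * q)) := by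
  unfold Res
  rw [T.h02]
  exact CuspRes_GR_j2

theorem res1_j2 (hζ : IsPrimitiveRoot ζ q) : T.Res 1 T.j2 (jqModC (IsLocalRing.ResidueField ↥A)) := by
  unfold Res
  rw [T.h12]
  obtain ⟨h1, h2⟩ := KS.zeta_mem A q hζ.pow_eq_one
  exact GR_j.twist hζ0 h1 h2 (KS.residue_zeta A q hζ.pow_eq_one h1)

theorem res2_j2 : T.Res 2 T.j2 (jqModC (IsLocalRing.ResidueField ↥A)) := by
  unfold Res
  rw [T.h22]
  exact GR_j

/-! **Leaf CR2**: congruences for `vv`, `ww` (from CR1, `Res.mul/inv/pow/cg`, `field_simp`). -/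

theorem CuspRes_res0_vv : T.Res 0 T.vv 1 := by
  have h := T.res0_j2.mul ((T.res0_j0.inv jb_ne_zero).pow (q * q))
  have e : jqModC (IsLocalRing.ResidueField ↥A) ^ (q * q) *
      (jqModC (IsLocalRing.ResidueField ↥A))⁻¹ ^ (q * q) = 1 := by
    rw [inv_pow, mul_inv_cancel₀ (pow_ne_zero _ jb_ne_zero)]
  rwa [e] at h

theorem CuspRes_res1_vv (hζ : IsPrimitiveRoot ζ q) :
    T.Res 1 T.vv ((jqModC (IsLocalRing.ResidueField ↥A))⁻¹ ^ (q * q - 1)) := by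
  have h := (T.res1_j2 hζ).mul ((T.res1_j0.inv jb_ne_zero).pow (q * q))
  obtain ⟨n, hn⟩ : ∃ n, q * q = n + 1 :=
    ⟨q * q - 1, (Nat.sub_add_cancel (Nat.mul_pos hqF.out.pos hqF.out.pos)).symm⟩
  have e : jqModC (IsLocalRing.ResidueField ↥A) * (jqModC (IsLocalRing.ResidueField ↥A))⁻¹ ^ (q * q)
      = (jqModC (IsLocalRing.ResidueField ↥A))⁻¹ ^ (q * q - 1) := by
    rw [hn, Nat.add_sub_cancel, pow_succ', ← mul_assoc, mul_inv_cancel₀ jb_ne_zero, one_mul]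
  rwa [e] at h

theorem CuspRes_res0_ww : T.Res 0 T.ww 1 := by
  have h := (T.res_j1 0).mul ((T.res0_j0.inv jb_ne_zero).pow q)
  have e : jqModC (IsLocalRing.ResidueField ↥A) ^ q *
      (jqModC (IsLocalRing.ResidueField ↥A))⁻¹ ^ q = 1 := by
    rw [inv_pow, mul_inv_cancel₀ (pow_ne_zero _ jb_ne_zero)]
  rwa [e] at h

theorem CuspRes_res1_ww : T.Res 1 T.ww 1 := by
  have h := (T.res_j1 1).mul ((T.res1_j0.inv jb_ne_zero).pow q)
  have e : jqModC (IsLocalRing.ResidueField ↥A) ^ q *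
      (jqModC (IsLocalRing.ResidueField ↥A))⁻¹ ^ q = 1 := by
    rw [inv_pow, mul_inv_cancel₀ (pow_ne_zero _ jb_ne_zero)]
  rwa [e] at h

theorem CuspRes_res2_ww : T.Res 2 T.ww (jqModC (IsLocalRing.ResidueField ↥A) ^ q *
    (jqModC (IsLocalRing.ResidueField ↥A) ^ (q * q))⁻¹ ^ q) :=
  (T.res_j1 2).mul ((T.res2_j0.inv (pow_ne_zero _ jb_ne_zero)).pow q)

theorem vv_mem_W (hζ : IsPrimitiveRoot ζ q) (i : Fin 3) : T.vv ∈ T.W i := by
  fin_cases i
  · exact T.CuspRes_res0_vv.mem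
  · exact (T.CuspRes_res1_vv hζ).mem
  · exact (T.res2_j2.mul ((T.res2_j0.inv (pow_ne_zero _ jb_ne_zero)).pow (q * q))).mem

theorem ww_mem_W (i : Fin 3) : T.ww ∈ T.W i := by
  fin_cases i
  · exact T.CuspRes_res0_ww.mem
  · exact T.CuspRes_res1_ww.mem
  · exact T.CuspRes_res2_ww.mem

theorem cg0_vv : (T.W 0).valuation (T.vv - 1) < 1 := by
  exact T.CuspRes_res0_vv.cg Res.one

theorem cg1_vv (hζ : IsPrimitiveRoot ζ q) :
    (T.W 1).valuation (T.vv - (T.j0⁻¹) ^ (q * q - 1)) < 1 := by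
  exact (T.CuspRes_res1_vv hζ).cg ((T.res1_j0.inv jb_ne_zero).pow _)

theorem cg0_ww : (T.W 0).valuation (T.ww - 1) < 1 := by
  exact T.CuspRes_res0_ww.cg Res.one

theorem cg1_ww : (T.W 1).valuation (T.ww - 1) < 1 := by
  exact T.CuspRes_res1_ww.cg Res.one

theorem cg2_ww : (T.W 2).valuation (T.ww ^ q - (T.j0⁻¹) ^ (q * q - 1)) < 1 := by
  have h1 := T.CuspRes_res2_ww.pow q
  have h2 := (T.res2_j0.inv (pow_ne_zero _ jb_ne_zero)).pow (q * q - 1)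
  have e : ((jqModC (IsLocalRing.ResidueField ↥A) ^ (q * q))⁻¹) ^ (q * q - 1) =
      (jqModC (IsLocalRing.ResidueField ↥A) ^ q *
        (jqModC (IsLocalRing.ResidueField ↥A) ^ (q * q))⁻¹ ^ q) ^ q := by
    have hj := jb_ne_zero (A := A)
    generalize jqModC (IsLocalRing.ResidueField ↥A) = J at hj
    obtain ⟨n, hn⟩ : ∃ n, q * q = n + 1 :=
      ⟨q * q - 1, (Nat.sub_add_cancel (Nat.mul_pos hqF.out.pos hqF.out.pos)).symm⟩
    rw [mul_pow, ← pow_mul, ← pow_mul, hn, Nat.add_sub_cancel, inv_pow, inv_pow,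
      pow_succ (J ^ (n + 1)) n, mul_inv, mul_comm ((J ^ (n + 1)) ^ n)⁻¹, ← mul_assoc,
      mul_inv_cancel₀ (pow_ne_zero _ hj), one_mul]
  rw [e] at h2
  exact h1.cg h2

theorem aa_mem_W (hζ : IsPrimitiveRoot ζ q) (i : Fin 3) : T.aa ∈ T.W i := by
  have h1 : T.j2 * T.j0⁻¹ ∈ T.W i := by
    fin_cases i
    · exact (T.res0_j2.mul (T.res0_j0.inv jb_ne_zero)).mem
    · exact ((T.res1_j2 hζ).mul (T.res1_j0.inv jb_ne_zero)).mem
    · exact (T.res2_j2.mul (T.res2_j0.inv (pow_ne_zero _ jb_ne_zero))).mem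
  exact mul_mem (sub_mem h1 (one_mem _)) (pow_mem (sub_mem (one_mem _) (T.vv_mem_W hζ i)) _)

end Frame

end Fermat.Agent.S36R.Unit
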