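import Fermat.Agent.S36R.Unit.CuspMem

/-!
# S36 route R, block R-UNIT: exactly one component through a closed point over `j = ∞`
-/

set_option autoImplicit false

noncomputable section

namespace Fermat.Agent.S36R.Unit

open ModularCurve Polynomial Fermat.Agent.S28 Fermat.Agent.GAL.Gauss Fermat.Agent.S24
  Fermat.Agent.S36R.Inj

variable {A : ValuationSubring Kbar} {q : ℕ} [NeZero q] {ζ : Kbar} {hζ0 : ζ ≠ 0}
  {F : Type*} [Field F] (T : Frame A q ζ hζ0 F) {Φ U G : ℤ[X][X]} {m : ℕ} {c₀ : ℤ}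

namespace Frame

variable {O : Type*} [CommRing O] [Algebra O F] {R : Subring F}
variable [hqF : Fact q.Prime] [CharP (IsLocalRing.ResidueField ↥A) q]
variable (hB : BData q Φ U G m c₀) (hζ : IsPrimitiveRoot ζ q)
  (hV : Vert (q : O) T.W (q - 1)) (chart : Chart (q : O) T.W T.j0⁻¹ R)
  (e1 : ∀ z : F, z ≠ 0 → ∃ x : ℤ, (T.W 1).valuation (z ^ (q - 1) / (q : F) ^ x) = 1)
  (GF : ∀ x : F, IsIntegral ↥(Algebra.adjoin Kbar {(jqModC Kbar)⁻¹}) (T.φ 0 x) →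
    ∃ k : ℕ, (q : F) ^ k * x ∈ R)

include hζ hV chart GF in
/-- **Leaf CU.** exactly one component passes through a closed point over `j = ∞`.
PROOF. existence: `exists_thru`.  `Thru 0 ∧ Thru 1`: `vv - 1 ∈ 𝔫` (`cg0_vv`), `vv - y0^(q²-1) ∈ 𝔫` (`cg1_vv`),
`y0 ∈ 𝔫`: `1 ∈ 𝔫`.  `Thru 2` and (`Thru 0` or `Thru 1`): `ww - 1 ∈ 𝔫`, `ww^q - y0^(q²-1) ∈ 𝔫` so `ww ∈ 𝔫`. -/
theorem cusp_unique (𝔫 : Ideal R) [𝔫.IsPrime] (hq𝔫 : (q : R) ∈ 𝔫)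
    (hy : (⟨T.j0⁻¹, chart.c_mem⟩ : R) ∈ 𝔫) : ∃! i, Thru T.W 𝔫 i := by
  have hq2 : 2 ≤ q := hqF.out.two_le
  have hqq : 0 < q * q - 1 := by
    have : 2 * 2 ≤ q * q := Nat.mul_le_mul hq2 hq2
    omega
  have h1n : (1 : R) ∉ 𝔫 := (Ideal.ne_top_iff_one 𝔫).1 (Ideal.IsPrime.ne_top ‹_›)
  have hyp : (⟨T.j0⁻¹, chart.c_mem⟩ : R) ^ (q * q - 1) ∈ 𝔫 := Ideal.pow_mem_of_mem 𝔫 hy _ hqq
  have hπ : ∀ x : R, (x : F) = algebraMap O F (q : O) → x ∈ 𝔫 := by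
    intro x hx
    have hx' : x = (q : R) := by
      apply Subtype.ext
      rw [hx, map_natCast]
      push_cast
      rfl
    rw [hx']
    exact hq𝔫
  -- the elements `vv`, `ww` of `R`
  set vR : R := ⟨T.vv, T.vv_mem hζ chart GF⟩ with hvR
  set wR : R := ⟨T.ww, T.ww_mem chart GF⟩ with hwR
  have hv0 : Thru T.W 𝔫 0 → vR - 1 ∈ 𝔫 := fun h => h (vR - 1) T.cg0_vv
  have hv1 : Thru T.W 𝔫 1 → vR ∈ 𝔫 := by
    intro h
    have h2 : vR - (⟨T.j0⁻¹, chart.c_mem⟩ : R) ^ (q * q - 1) ∈ 𝔫 := h _ (T.cg1_vv hζ)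
    have h3 := 𝔫.add_mem h2 hyp
    rwa [sub_add_cancel] at h3
  have hw0 : Thru T.W 𝔫 0 → wR - 1 ∈ 𝔫 := fun h => h (wR - 1) T.cg0_ww
  have hw1 : Thru T.W 𝔫 1 → wR - 1 ∈ 𝔫 := fun h => h (wR - 1) T.cg1_ww
  have hw2 : Thru T.W 𝔫 2 → wR ∈ 𝔫 := by
    intro h
    have h2 : wR ^ q - (⟨T.j0⁻¹, chart.c_mem⟩ : R) ^ (q * q - 1) ∈ 𝔫 := h _ T.cg2_ww
    have h3 := 𝔫.add_mem h2 hyp
    rw [sub_add_cancel] at h3
    exact Ideal.IsPrime.mem_of_pow_mem ‹_› q h3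
  have hone : ∀ z : R, z ∈ 𝔫 → z - 1 ∈ 𝔫 → False := by
    intro z hz hz1
    apply h1n
    have h3 := 𝔫.sub_mem hz hz1
    rwa [sub_sub_cancel] at h3
  have h01 : Thru T.W 𝔫 0 → Thru T.W 𝔫 1 → False := fun a b => hone vR (hv1 b) (hv0 a)
  have h02 : Thru T.W 𝔫 0 → Thru T.W 𝔫 2 → False := fun a b => hone wR (hw2 b) (hw0 a)
  have h12 : Thru T.W 𝔫 1 → Thru T.W 𝔫 2 → False := fun a b => hone wR (hw2 b) (hw1 a)
  obtain ⟨i, hi⟩ := exists_thru hV chart 𝔫 hπ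
  refine ⟨i, hi, fun j hj => ?_⟩
  fin_cases i <;> fin_cases j <;>
    first
      | rfl
      | exact (h01 hi hj).elim
      | exact (h01 hj hi).elim
      | exact (h02 hi hj).elim
      | exact (h02 hj hi).elim
      | exact (h12 hi hj).elim
      | exact (h12 hj hi).elim

end Frame

end Fermat.Agent.S36R.Unit
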