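import Fermat.Agent.S36R.Unit.Abs
import Fermat.Agent.S36R.Unit.Table
import Fermat.Agent.S36R.KS.Zeta

/-!
# S36 route R, block R-UNIT: the frame (three expansions of a field containing `j, j_q, j_{q²}`)

`Frame A q ζ hζ0 F` : a field `F` with three elements `j0, j1, j2` (`= j(τ), j(qτ), j(q²τ)`), three ring
homomorphisms `φ 0, φ 1, φ 2 : F → Kbar((t))` (the expansions at `∞`, at the middle cusp attached to
`ζ`, at `0`) and three valuation rings `W i = (φ i)⁻¹ (gRing A)`.

Application: `F = FF (K0 A) (M * q * q)`, `φ 0 = coe ∘ bc0`, `φ 1 = ι_ζ ∘ bc0` (`S36.StepA.IsMid`),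
`φ 2 = coe ∘ W2 ∘ bc0` (`S36.StepA.IsW2`), `W` = the valuation rings of block R-VAL.

The units: `U1 = ψ(j0, j1)`, `U2 = ψ(j1, j2)`,
`psiA = U2`, `psiB = U1 / U2`, `psiC = q^{12 m} / U1`; `psiA * psiB * psiC = q^{12 m}`.
With `H = Hs k q m = Δ̄^{(1-q) m}` the table of (valuation, residue) is

|        | `φ 0`                 | `φ 1`               | `φ 2`                 |
| `psiA` | `q^{12m} * (→ H^{-q})` | `→ H`               | `→ H`                 |
| `psiB` | `→ H^{q-1}`           | `q^{12m} * (→ H^{-2})` | `→ H^{q-1}`        |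
| `psiC` | `→ H`                 | `→ H`               | `q^{12m} * (→ H^{-q})` |
-/

set_option autoImplicit false

noncomputable section

namespace Fermat.Agent.S36R.Unit

open ModularCurve Polynomial Fermat.Agent.S28 Fermat.Agent.GAL.Gauss Fermat.Agent.S24

/-- the frame. -/
structure Frame (A : ValuationSubring Kbar) (q : ℕ) [NeZero q] (ζ : Kbar) (hζ0 : ζ ≠ 0)
    (F : Type*) [Field F] where
  φ : Fin 3 → F →+* LaurentSeries Kbar
  W : Fin 3 → ValuationSubring F
  mem_W : ∀ i x, x ∈ W i ↔ φ i x ∈ gRing A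
  j0 : F
  j1 : F
  j2 : F
  h00 : φ 0 j0 = jqModC Kbar
  h01 : φ 0 j1 = qExpand Kbar q (jqModC Kbar)
  h02 : φ 0 j2 = qExpand Kbar q (qExpand Kbar q (jqModC Kbar))
  h10 : φ 1 j0 = jqModC Kbar
  h11 : φ 1 j1 = qExpand Kbar q (jqModC Kbar)
  h12 : φ 1 j2 = Fermat.Agent.S24.twist ζ hζ0 (jqModC Kbar)
  h20 : φ 2 j0 = qExpand Kbar q (qExpand Kbar q (jqModC Kbar))
  h21 : φ 2 j1 = qExpand Kbar q (jqModC Kbar)
  h22 : φ 2 j2 = jqModC Kbar

variable {A : ValuationSubring Kbar} {q : ℕ} [NeZero q] {ζ : Kbar} {hζ0 : ζ ≠ 0}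
  {F : Type*} [Field F] (T : Frame A q ζ hζ0 F)

namespace Frame

/-- `x` is integral for `W i` with residue `r`. -/
def Res (i : Fin 3) (x : F) (r : LaurentSeries (IsLocalRing.ResidueField ↥A)) : Prop :=
  GR A (T.φ i x) r

variable {T}
variable {i : Fin 3} {x y : F} {r s : LaurentSeries (IsLocalRing.ResidueField ↥A)}

theorem Res.mem (h : T.Res i x r) : x ∈ T.W i := (T.mem_W i x).mpr h.1

theorem Res.mul (h : T.Res i x r) (h' : T.Res i y s) : T.Res i (x * y) (r * s) := by
  unfold Res; rw [map_mul]; exact GR.mul h h'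

theorem Res.add (h : T.Res i x r) (h' : T.Res i y s) : T.Res i (x + y) (r + s) := by
  unfold Res; rw [map_add]; exact GR.add h h'

theorem Res.sub (h : T.Res i x r) (h' : T.Res i y s) : T.Res i (x - y) (r - s) := by
  unfold Res; rw [map_sub]; exact GR.sub h h'

theorem Res.pow (h : T.Res i x r) (n : ℕ) : T.Res i (x ^ n) (r ^ n) := by
  unfold Res; rw [map_pow]; exact GR.pow h n

theorem Res.inv (h : T.Res i x r) (hr : r ≠ 0) : T.Res i x⁻¹ r⁻¹ := by
  unfold Res; rw [map_inv₀]; exact GR.inv h hr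

theorem Res.div (h : T.Res i x r) (h' : T.Res i y s) (hs : s ≠ 0) : T.Res i (x / y) (r / s) := by
  unfold Res; rw [map_div₀]; exact GR.div h h' hs

theorem Res.one : T.Res i 1 1 := by
  unfold Res; rw [map_one]; exact GR.one

theorem Res.natCast (n : ℕ) : T.Res i (n : F) (n : LaurentSeries (IsLocalRing.ResidueField ↥A)) := by
  unfold Res; rw [map_natCast]; exact GR.natCast n

theorem exists_res (h : x ∈ T.W i) : ∃ r, T.Res i x r := ⟨_, GR.of_mem ((T.mem_W i x).mp h)⟩

/-- units of `W i` = nonzero residue. -/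
theorem Res.val_eq_one (h : T.Res i x r) (hr : r ≠ 0) : (T.W i).valuation x = 1 := by
  have h1 := (ValuationSubring.valuation_le_one_iff _ _).mpr h.mem
  have h2 := (ValuationSubring.valuation_le_one_iff _ _).mpr (h.inv hr).mem
  rw [map_inv₀] at h2
  have hx0 : (T.W i).valuation x ≠ 0 := by
    intro h0
    have hx : x = 0 := (Valuation.zero_iff _).mp h0
    subst hx
    have h3 : T.Res i 0 0 := by unfold Res; rw [map_zero]; exact GR.zero
    exact hr (GR.unique h h3)
  exact le_antisymm h1 ((inv_le_one₀ (zero_lt_iff.mpr hx0)).mp h2)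

/-- the maximal ideal of `W i` = zero residue. -/
theorem Res.val_lt_one (h : T.Res i x 0) : (T.W i).valuation x < 1 := by
  have h1 := (ValuationSubring.valuation_le_one_iff _ _).mpr h.mem
  refine lt_of_le_of_ne h1 fun h2 => ?_
  have hx0 : x ≠ 0 := by
    rintro rfl
    rw [map_zero] at h2
    exact zero_ne_one h2
  have h3 : x⁻¹ ∈ T.W i := by
    rw [← ValuationSubring.valuation_le_one_iff, map_inv₀, h2, inv_one]
  have h4 : (T.φ i x)⁻¹ ∈ gRing A := by
    rw [← map_inv₀]; exact (T.mem_W i _).mp h3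
  exact GR.ne_zero_of_inv_mem h ((_root_.map_ne_zero _).mpr hx0) h4 rfl

theorem val_lt_one_iff : (T.W i).valuation x < 1 ↔ T.Res i x 0 := by
  refine ⟨fun h => ?_, Res.val_lt_one⟩
  obtain ⟨r, hr⟩ := exists_res ((ValuationSubring.valuation_le_one_iff _ _).mp h.le)
  by_cases h0 : r = 0
  · exact h0 ▸ hr
  · exact absurd (hr.val_eq_one h0) h.ne

/-- congruence modulo the maximal ideal of `W i` from equality of residues. -/
theorem Res.cg (h : T.Res i x r) (h' : T.Res i y r) : (T.W i).valuation (x - y) < 1 := by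
  have := h.sub h'
  rw [sub_self] at this
  exact this.val_lt_one

end Frame

end Fermat.Agent.S36R.Unit
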