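import Mathlib

/-!
# S36 route R, block R-UNIT: the generic fibre criterion (abstract form)

`O ⊆ K0` with `K0 = O[1/π]`, `F / K0` a field, `φ : F → L` a ring homomorphism into a field `L` which is
an algebra over an algebraic extension `Kb` of `K0`, compatible with the constants.  If `φ x` is integral
over `Kb[φ c]` then `π ^ k x` is integral over `O[c]` for some `k`.

Application: `O = O0 A`, `K0 = K0 A`, `Kb = Kbar`, `L = Kbar((t))`, `φ = coe ∘ bc0`, `c = j` or `1/j`:
this is the hypothesis `GF` of `Unit/Affine.lean` and `Unit/Cusp.lean`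
(for `R = (integralClosure (Algebra.adjoin O {c}) F).toSubring`).
-/

set_option autoImplicit false

namespace Fermat.Agent.S36R.Unit

open Polynomial

variable {O K0 F L Kb : Type*} [CommRing O] [Field K0] [Field F] [Field L] [Field Kb]
  [Algebra O K0] [Algebra K0 F] [Algebra O F] [IsScalarTower O K0 F]
  [Algebra K0 Kb] [Algebra.IsAlgebraic K0 Kb] [Algebra Kb L]

/-- **Leaf GF1.** descent of integrality from `Kb[φ c]` to `K0[c]`.
PROOF. Give `L` the `K0`-algebra structure through `Kb` (`Algebra.compHom` or work with ring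
homomorphisms: `RingHom.IsIntegralElem`).  `Kb[φ c]` is integral over `K0[φ c]`: it is generated by the
constants (algebraic, hence integral over `K0`) and `φ c`  (`Algebra.adjoin_induction`,
`IsIntegral.add/mul`).  So `φ x` is integral over `K0[φ c]` (`isIntegral_trans`), i.e. it is a root of a
monic polynomial whose coefficients are `aeval (φ c) p_i = φ (aeval c p_i)`, `p_i ∈ K0[X]`.  `φ` is
injective. -/
theorem isIntegral_of_map (φ : F →+* L)
    (hφ : ∀ a : K0, φ (algebraMap K0 F a) = algebraMap Kb L (algebraMap K0 Kb a))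
    (c x : F) (hx : IsIntegral (Algebra.adjoin Kb {φ c}) (φ x)) :
    IsIntegral (Algebra.adjoin K0 {c}) x := by
  let _ : Algebra K0 L := ((algebraMap Kb L).comp (algebraMap K0 Kb)).toAlgebra
  have : IsScalarTower K0 Kb L := IsScalarTower.of_algebraMap_eq fun _ => rfl
  have hint : Algebra.IsIntegral K0 Kb := Algebra.IsAlgebraic.isIntegral
  -- every element of `Kb[φ c]` is integral over `K0[φ c]`
  have h1 : ∀ s ∈ Algebra.adjoin Kb {φ c}, s ∈ integralClosure (Algebra.adjoin K0 {φ c}) L := by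
    intro s hs
    induction hs using Algebra.adjoin_induction with
    | mem y hy =>
      rw [Set.mem_singleton_iff] at hy
      rw [hy]
      exact isIntegral_algebraMap (x := (⟨φ c, Algebra.subset_adjoin rfl⟩ : Algebra.adjoin K0 {φ c}))
    | algebraMap b =>
      have h2 : IsIntegral K0 (algebraMap Kb L b) := (hint.isIntegral b).algebraMap
      exact h2.tower_top
    | add p q _ _ hp hq => exact add_mem hp hq
    | mul p q _ _ hp hq => exact mul_mem hp hq
  have h2 : IsIntegral (integralClosure (Algebra.adjoin K0 {φ c}) L) (φ x) := by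
    obtain ⟨p, hp, hpx⟩ := hx
    let g : Algebra.adjoin Kb {φ c} →+* integralClosure (Algebra.adjoin K0 {φ c}) L :=
      { toFun := fun u => ⟨u, h1 u u.2⟩
        map_one' := rfl
        map_mul' := fun _ _ => rfl
        map_zero' := rfl
        map_add' := fun _ _ => rfl }
    refine ⟨p.map g, hp.map g, ?_⟩
    rw [eval₂_map]
    exact hpx
  have h3 : IsIntegral (Algebra.adjoin K0 {φ c}) (φ x) :=
    isIntegral_trans (R := Algebra.adjoin K0 {φ c})
      (A := integralClosure (Algebra.adjoin K0 {φ c}) L) _ h2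
  -- descend along `φ`
  have h4 : ∀ s ∈ Algebra.adjoin K0 {φ c}, ∃ r : Algebra.adjoin K0 {c}, φ r = s := by
    intro s hs
    induction hs using Algebra.adjoin_induction with
    | mem y hy =>
      rw [Set.mem_singleton_iff] at hy
      exact ⟨⟨c, Algebra.subset_adjoin rfl⟩, hy.symm⟩
    | algebraMap a => exact ⟨algebraMap K0 _ a, hφ a⟩
    | add p q _ _ hp hq =>
      obtain ⟨r, hr⟩ := hp
      obtain ⟨r', hr'⟩ := hq
      exact ⟨r + r', by rw [← hr, ← hr', ← map_add]; rfl⟩
    | mul p q _ _ hp hq =>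
      obtain ⟨r, hr⟩ := hp
      obtain ⟨r', hr'⟩ := hq
      exact ⟨r * r', by rw [← hr, ← hr', ← map_mul]; rfl⟩
  obtain ⟨p, hp, hpx⟩ := h3
  have hlift : p.map (algebraMap (Algebra.adjoin K0 {φ c}) L) ∈
      lifts (φ.comp (algebraMap (Algebra.adjoin K0 {c}) F)) := by
    rw [lifts_iff_coeff_lifts]
    intro i
    rw [coeff_map]
    obtain ⟨r, hr⟩ := h4 _ (p.coeff i).2
    exact ⟨r, hr⟩
  obtain ⟨Q, hQ, -, hQm⟩ := lifts_and_natDegree_eq_and_monic hlift (hp.map _)
  refine ⟨Q, hQm, φ.injective ?_⟩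
  rw [map_zero, hom_eval₂, ← eval_map, hQ, eval_map]
  exact hpx

/-- **Leaf GF2.** clearing denominators.
PROOF. `x ^ n + a_1 x ^ (n-1) + ... + a_n = 0`, `a_i = aeval c p_i`, `p_i ∈ K0[X]`; choose `k` with
`π ^ k p_i ∈ O[X]` for all `i` (finitely many coefficients, `hπ`); then `y = π ^ k x` satisfies
`y ^ n + (π ^ k a_1) y ^ (n-1) + ... + (π ^ (k n) a_n) = 0`
(`Polynomial.scaleRoots`, `Polynomial.scaleRoots_aeval_eq_zero`, or
`IsIntegral.exists_multiple_integral_of_isLocalization`). -/
theorem exists_pow_mul_isIntegral (π : O)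
    (hπ : ∀ a : K0, ∃ (k : ℕ) (b : O), algebraMap O K0 π ^ k * a = algebraMap O K0 b)
    (c x : F) (hx : IsIntegral (Algebra.adjoin K0 {c}) x) :
    ∃ k : ℕ, IsIntegral (Algebra.adjoin O {c}) (algebraMap O F π ^ k * x) := by
  have hπm : ∀ k : ℕ, algebraMap O F π ^ k ∈ Algebra.adjoin O {c} := fun k =>
    pow_mem (Subalgebra.algebraMap_mem _ _) k
  have h1 : ∀ s ∈ Algebra.adjoin K0 {c}, ∃ k : ℕ, ∀ k' ≥ k,
      algebraMap O F π ^ k' * s ∈ Algebra.adjoin O {c} := by
    intro s hs
    induction hs using Algebra.adjoin_induction with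
    | mem y hy =>
      exact ⟨0, fun k' _ => mul_mem (hπm k') (Algebra.subset_adjoin hy)⟩
    | algebraMap a =>
      obtain ⟨k, b, hb⟩ := hπ a
      refine ⟨k, fun k' hk' => ?_⟩
      obtain ⟨d, rfl⟩ := Nat.exists_eq_add_of_le hk'
      have e : algebraMap O F π ^ k * algebraMap K0 F a = algebraMap O F b := by
        rw [IsScalarTower.algebraMap_apply O K0 F, IsScalarTower.algebraMap_apply O K0 F, ← map_pow,
          ← map_mul, hb]
      rw [add_comm, pow_add, mul_assoc, e]
      exact mul_mem (hπm d) (Subalgebra.algebraMap_mem _ _)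
    | add p q _ _ hp hq =>
      obtain ⟨k, hk⟩ := hp
      obtain ⟨l, hl⟩ := hq
      refine ⟨max k l, fun k' hk' => ?_⟩
      rw [mul_add]
      exact add_mem (hk k' (le_trans (le_max_left _ _) hk')) (hl k' (le_trans (le_max_right _ _) hk'))
    | mul p q _ _ hp hq =>
      obtain ⟨k, hk⟩ := hp
      obtain ⟨l, hl⟩ := hq
      refine ⟨k + l, fun k' hk' => ?_⟩
      obtain ⟨d, rfl⟩ := Nat.exists_eq_add_of_le hk'
      have e : algebraMap O F π ^ (k + l + d) * (p * q) =
          (algebraMap O F π ^ (k + d) * p) * (algebraMap O F π ^ l * q) := by ring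
      rw [e]
      exact mul_mem (hk _ (Nat.le_add_right _ _)) (hl _ le_rfl)
  obtain ⟨p, hp, hpx⟩ := hx
  choose κ hκ using fun i : ℕ => h1 _ (p.coeff i).2
  set k := (Finset.range (p.natDegree + 1)).sup κ with hk
  refine ⟨k, ?_⟩
  set P : F[X] := (p.map (algebraMap (Algebra.adjoin K0 {c}) F)).scaleRoots (algebraMap O F π ^ k)
    with hP
  have hPm : P.Monic := (monic_scaleRoots_iff _).2 (hp.map _)
  have hdeg : (p.map (algebraMap (Algebra.adjoin K0 {c}) F)).natDegree = p.natDegree :=
    hp.natDegree_map _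
  have hlift : P ∈ lifts (algebraMap (Algebra.adjoin O {c}) F) := by
    rw [lifts_iff_coeff_lifts]
    intro i
    rw [hP, coeff_scaleRoots, hdeg, coeff_map]
    rcases lt_trichotomy i p.natDegree with hi | hi | hi
    · have h2 : κ i ≤ k * (p.natDegree - i) := by
        have h3 : κ i ≤ k := Finset.le_sup (f := κ) (Finset.mem_range.2 (by omega))
        exact h3.trans (Nat.le_mul_of_pos_right _ (by omega))
      have h4 := hκ i _ h2
      rw [← pow_mul, mul_comm]
      exact ⟨⟨_, h4⟩, rfl⟩
    · subst hi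
      rw [Nat.sub_self, pow_zero, mul_one, hp.coeff_natDegree, map_one]
      exact ⟨1, map_one _⟩
    · rw [coeff_eq_zero_of_natDegree_lt hi, map_zero, zero_mul]
      exact ⟨0, map_zero _⟩
  obtain ⟨Q, hQ, -, hQm⟩ := lifts_and_natDegree_eq_and_monic hlift hPm
  refine ⟨Q, hQm, ?_⟩
  rw [← eval_map, hQ, hP, scaleRoots_eval_mul, eval_map]
  rw [show eval₂ (algebraMap (↥(Algebra.adjoin K0 {c})) F) x p = 0 from hpx, mul_zero]

/-- the generic fibre criterion. -/
theorem genericFibre (π : O)
    (hπ : ∀ a : K0, ∃ (k : ℕ) (b : O), algebraMap O K0 π ^ k * a = algebraMap O K0 b)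
    (φ : F →+* L)
    (hφ : ∀ a : K0, φ (algebraMap K0 F a) = algebraMap Kb L (algebraMap K0 Kb a))
    (c x : F) (hx : IsIntegral (Algebra.adjoin Kb {φ c}) (φ x)) :
    ∃ k : ℕ, IsIntegral (Algebra.adjoin O {c}) (algebraMap O F π ^ k * x) :=
  exists_pow_mul_isIntegral π hπ c x (isIntegral_of_map φ hφ c x hx)

end Fermat.Agent.S36R.Unit
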