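import Fermat.Agent.S36R.Unit.CuspKS
import Fermat.Agent.S36R.Unit.AffCut
import Fermat.Agent.S36R.KS.Main

/-!
# S36 route R, blocks R-UNIT + R-KS: the middle component is locally principal

* `LocGen.prin`  : from `LocGen` to the shape of `Lvl.ChartOK.prin`;
* `prin_point`   : on the affine chart, at a closed point `𝔫` of `W 1` which corresponds to the non cuspidal
  place `P` of `E 𝕜 M`: if `x0, x2 ∈ R` have the expansions `X(t)`, `X(ζ t)` at the middle cusp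
  (`x0 = π₀^* u`, `x2 = π₂^* u`) and `ū = X̄` is regular off the cusps with `ū - c` a uniformiser at `P`, then
  `x2 - x0` generates the centre of `W 1` at `𝔫`.
-/

set_option autoImplicit false

noncomputable section

namespace Fermat.Agent.S36R.Unit

open ModularCurve Polynomial AlgebraicCurve Fermat.Agent.S28 Fermat.Agent.GAL Fermat.Agent.GAL.Gauss
  Fermat.Agent.S24 Fermat.Agent.S36R.Inj Fermat.Agent.DR.Gal

/-- **Leaf PR0.** `LocGen` gives the shape of `Lvl.ChartOK.prin`.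
PROOF. `z ∈ locAt 𝔫`: `s z ∈ R`, `s ∉ 𝔫`; `v (s z) < 1` (`hRW`); `s' (s z) = b y`; so `(s' s) (z / b) = y ∈ R`. -/
theorem LocGen.prin {F : Type*} [Field F] {ι : Type*} {W : ι → ValuationSubring F} {R : Subring F}
    (hRW : ∀ i, ∀ z ∈ R, z ∈ W i) {𝔫 : Ideal R} [𝔫.IsPrime] {i : ι} {b : R} (hb0 : (b : F) ≠ 0)
    (h : LocGen W 𝔫 i b) :
    (b : F) ∈ locAt 𝔫 ∧ (W i).valuation (b : F) < 1 ∧
      ∀ z ∈ locAt 𝔫, (W i).valuation z < 1 → z / (b : F) ∈ locAt 𝔫 := by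
  refine ⟨le_locAt 𝔫 b.2, h.1, ?_⟩
  rintro z ⟨s, hs, hsz⟩ hz
  have hv : (W i).valuation (((⟨(s : F) * z, hsz⟩ : R) : R) : F) < 1 := by
    change (W i).valuation ((s : F) * z) < 1
    rw [map_mul]
    exact lt_of_le_of_lt
      (mul_le_of_le_one_left' ((ValuationSubring.valuation_le_one_iff _ _).2 (hRW i _ s.2))) hz
  obtain ⟨s', y, hs', hy⟩ := h.2 ⟨(s : F) * z, hsz⟩ hv
  refine ⟨s' * s, Ideal.IsPrime.mul_notMem ‹_› hs' hs, ?_⟩
  have hy' : (s' : F) * ((s : F) * z) = (b : F) * y := congrArg Subtype.val hy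
  have : ((s' * s : R) : F) * (z / (b : F)) = y := by
    push_cast
    field_simp
    linear_combination hy'
  rw [this]
  exact y.2

/-- `KS.KS_main` with the additional information `κ ≠ 0`. -/
theorem Prin_KS_main (A : ValuationSubring Kbar) (M : ℕ) [NeZero M]
    (hM : ((M : ℕ) : IsLocalRing.ResidueField ↥A) ≠ 0) (hneat : 4 ∣ M ∨ 9 ∣ M)
    (ub : Igusa.E (IsLocalRing.ResidueField ↥A) M)
    (hub : ub ∈ regOff (IsLocalRing.ResidueField ↥A) (Igusa.jb (IsLocalRing.ResidueField ↥A) M))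
    (P : Place (IsLocalRing.ResidueField ↥A) (Igusa.E (IsLocalRing.ResidueField ↥A) M))
    (hP : Igusa.jb (IsLocalRing.ResidueField ↥A) M ∈ P.toValuationSubring)
    (c : IsLocalRing.ResidueField ↥A)
    (h1 : P.ord (ub - algebraMap (IsLocalRing.ResidueField ↥A) _ c) = 1) :
    ∃ κ : Igusa.E (IsLocalRing.ResidueField ↥A) M, κ ≠ 0 ∧
      (κ : LaurentSeries (IsLocalRing.ResidueField ↥A)) * S28.DlL (IsLocalRing.ResidueField ↥A) =
        KS.theta (ub : LaurentSeries (IsLocalRing.ResidueField ↥A)) ^ 6 ∧ P.ord κ = 0 := by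
  have hsep := Igusa.isSeparable_jb (IsLocalRing.ResidueField ↥A) M hM
  obtain ⟨gb, hgb⟩ := KS.exists_theta_eq
    (modularFunctionFieldFullC (IsLocalRing.ResidueField ↥A) M)
    (Igusa.jb (IsLocalRing.ResidueField ↥A) M) rfl ub
  have hgb0 := KS.dj_ne_zero A M hM hneat ub hub P hP c h1 gb hgb
  have hjtr : Transcendental (IsLocalRing.ResidueField ↥A)
      (Igusa.jb (IsLocalRing.ResidueField ↥A) M) :=
    Igusa.transcendental_jb (IsLocalRing.ResidueField ↥A) M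
  have hjne : ∀ a : IsLocalRing.ResidueField ↥A, Igusa.jb (IsLocalRing.ResidueField ↥A) M -
      algebraMap (IsLocalRing.ResidueField ↥A) (Igusa.E (IsLocalRing.ResidueField ↥A) M) a ≠ 0 := by
    intro a h0
    apply hjtr
    rw [sub_eq_zero.mp h0]
    exact isAlgebraic_algebraMap a
  have hjb0 : Igusa.jb (IsLocalRing.ResidueField ↥A) M ≠ 0 := by
    have := hjne 0
    rwa [map_zero, sub_zero] at this
  have hj1728 : Igusa.jb (IsLocalRing.ResidueField ↥A) M - 1728 ≠ 0 := by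
    have := hjne 1728
    rwa [map_ofNat] at this
  refine ⟨KS.kap (Igusa.jb (IsLocalRing.ResidueField ↥A) M) gb, ?_, KS.kap_mul_DlL _ rfl hgb,
    KS.ord_kap_of_ne_zero A M hM hneat ub hub P hP c h1 gb hgb hgb0⟩
  unfold KS.kap
  exact mul_ne_zero (mul_ne_zero (pow_ne_zero _ hgb0) (pow_ne_zero _ hjb0)) (pow_ne_zero _ hj1728)

variable {A : ValuationSubring Kbar} {q : ℕ} [NeZero q] {ζ : Kbar} {hζ0 : ζ ≠ 0}
  {F : Type*} [Field F] (T : Frame A q ζ hζ0 F) {Φ U G : ℤ[X][X]} {m : ℕ} {c₀ : ℤ}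

namespace Frame

variable {O : Type*} [CommRing O] [Algebra O F] {c : F} {R : Subring F}
variable [hqF : Fact q.Prime] [CharP (IsLocalRing.ResidueField ↥A) q]

/-- **Leaf PR1.** the generator `π₂^* u - π₀^* u` of the middle component at a non cuspidal point.
PROOF. `a := x2 - x0`, `e := 12 m (q-1)`.  `Res 1 x2 ū` (`GR.twist`, `KS.zeta_mem`, `KS.residue_zeta`), so `v_1 a < 1`
(`Res.cg`).  `u := a^e / psiB ∈ R` (`IsCut.pow_div_mem`, `isCut_psiB`).  By `KS.res11 A q hζ hζ0 m (x := T.φ 1 x0)` and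
`phi1_psiB`: `Res 1 u (C e₀ * (θ(ū)^6 * Δ̄⁻¹)^(2m(q-1)))`, and `θ(ū)^6 Δ̄⁻¹ = κ` with `P.ord κ = 0` (`KS.KS_main`,
`DlL_mul_DlLinv`).  So the residue of `u` is (the coercion of) `r := algebraMap e₀ * κ^(2m(q-1)) : E 𝕜 M`, a unit at
`P`; by `hnP`, `u ∉ 𝔫`.  Conclude with `locGen_of_unit`. -/
theorem prin_point (hB : BData q Φ U G m c₀) (hζ : IsPrimitiveRoot ζ q)
    (hV : Vert (q : O) T.W (q - 1)) (chart : Chart (q : O) T.W c R)
    (e1 : ∀ z : F, z ≠ 0 → ∃ x : ℤ, (T.W 1).valuation (z ^ (q - 1) / (q : F) ^ x) = 1)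
    (GF : ∀ x : F, IsIntegral ↥(AA Kbar) (T.φ 0 x) → ∃ k : ℕ, (q : F) ^ k * x ∈ R)
    (M : ℕ) [NeZero M] (hM : ((M : ℕ) : IsLocalRing.ResidueField ↥A) ≠ 0) (hneat : 4 ∣ M ∨ 9 ∣ M)
    (𝔫 : Ideal R) [𝔫.IsPrime]
    (P : Place (IsLocalRing.ResidueField ↥A) (Igusa.E (IsLocalRing.ResidueField ↥A) M))
    (hP : Igusa.jb (IsLocalRing.ResidueField ↥A) M ∈ P.toValuationSubring)
    (hnP : ∀ (x : R) (r : Igusa.E (IsLocalRing.ResidueField ↥A) M),
      T.Res 1 (x : F) (r : LaurentSeries (IsLocalRing.ResidueField ↥A)) →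
        (x ∈ 𝔫 ↔ P.toValuationSubring.valuation r < 1))
    (ub : Igusa.E (IsLocalRing.ResidueField ↥A) M)
    (hub : ub ∈ regOff (IsLocalRing.ResidueField ↥A) (Igusa.jb (IsLocalRing.ResidueField ↥A) M))
    (c₁ : IsLocalRing.ResidueField ↥A)
    (h1 : P.ord (ub - algebraMap (IsLocalRing.ResidueField ↥A) _ c₁) = 1)
    (x0 x2 : R) (hx0 : T.Res 1 (x0 : F) (ub : LaurentSeries (IsLocalRing.ResidueField ↥A)))
    (hx2 : T.φ 1 (x2 : F) = Fermat.Agent.S24.twist ζ hζ0 (T.φ 1 (x0 : F))) :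
    LocGen T.W 𝔫 1 (x2 - x0) := by
  have hζq : ζ ^ q = 1 := hζ.pow_eq_one
  obtain ⟨hA, hA'⟩ := KS.zeta_mem A q hζq
  have h1z := KS.residue_zeta A q hζq hA
  have hx2res : T.Res 1 (x2 : F) (ub : LaurentSeries (IsLocalRing.ResidueField ↥A)) := by
    unfold Res
    rw [hx2]
    exact GR.twist hx0 hζ0 hA hA' h1z
  have ha : (T.W 1).valuation ((x2 - x0 : R) : F) < 1 := by
    push_cast
    exact Res.cg hx2res hx0
  have hcut := T.isCut_psiB hB hζ hV chart e1 GF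
  have hu_mem := hcut.pow_div_mem chart (x2 - x0 : R).2 ha
  obtain ⟨hmem, e₀, he₀, hres⟩ := KS.res11 A q hζ hζ0 m (x := T.φ 1 (x0 : F)) hx0.1
  obtain ⟨κ, hκ0, hκ, hκord⟩ := Prin_KS_main A M hM hneat ub hub P hP c₁ h1
  have hgres : gRes A ⟨T.φ 1 (x0 : F), hx0.1⟩ = (ub : LaurentSeries (IsLocalRing.ResidueField ↥A)) :=
    hx0.2
  have hκ' : KS.theta (ub : LaurentSeries (IsLocalRing.ResidueField ↥A)) ^ 6 *
      S28.DlLinv (IsLocalRing.ResidueField ↥A) = (κ : LaurentSeries (IsLocalRing.ResidueField ↥A)) := by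
    rw [← hκ, mul_assoc, S28.DlL_mul_DlLinv, mul_one]
  rw [hgres, hκ'] at hres
  -- the residue of `u`
  have hφu : T.φ 1 (((x2 - x0 : R) : F) ^ (12 * m * (q - 1)) * (T.psiB Φ G)⁻¹) =
      (Fermat.Agent.S24.twist ζ hζ0 (T.φ 1 (x0 : F)) - T.φ 1 (x0 : F)) ^ (12 * m * (q - 1)) *
        (KS.psiB q ζ hζ0 m)⁻¹ := by
    push_cast
    rw [map_mul, map_pow, map_sub, map_inv₀, hx2, T.phi1_psiB hB hζ]
  set r : Igusa.E (IsLocalRing.ResidueField ↥A) M :=
    algebraMap (IsLocalRing.ResidueField ↥A) _ e₀ * κ ^ (2 * m * (q - 1)) with hr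
  have hrcoe : (r : LaurentSeries (IsLocalRing.ResidueField ↥A)) =
      HahnSeries.C e₀ * (κ : LaurentSeries (IsLocalRing.ResidueField ↥A)) ^ (2 * m * (q - 1)) := by
    rw [hr]
    change ((algebraMap (IsLocalRing.ResidueField ↥A) (Igusa.E (IsLocalRing.ResidueField ↥A) M) e₀ :
      Igusa.E (IsLocalRing.ResidueField ↥A) M) : LaurentSeries (IsLocalRing.ResidueField ↥A)) *
        (κ : LaurentSeries (IsLocalRing.ResidueField ↥A)) ^ (2 * m * (q - 1)) = _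
    rw [IntermediateField.coe_algebraMap_apply, algebraMap_eq_C]
  have hures : T.Res 1 (((x2 - x0 : R) : F) ^ (12 * m * (q - 1)) * (T.psiB Φ G)⁻¹)
      (r : LaurentSeries (IsLocalRing.ResidueField ↥A)) := by
    unfold Res
    rw [hφu, hrcoe]
    exact ⟨hmem, hres⟩
  have he₀' : algebraMap (IsLocalRing.ResidueField ↥A)
      (Igusa.E (IsLocalRing.ResidueField ↥A) M) e₀ ≠ 0 := by
    rwa [Ne, map_eq_zero]
  have hr0 : r ≠ 0 := mul_ne_zero he₀' (pow_ne_zero _ hκ0)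
  have hrord : P.ord r = 0 := by
    rw [hr, P.ord_mul he₀' (pow_ne_zero _ hκ0), RED.ord_algebraMap, RED.ord_pow, hκord]
    simp
  have hrval : P.toValuationSubring.valuation r = 1 := by
    have := Igusa.isAlgClosed_residueField A
    have := Igusa.isFF_E (IsLocalRing.ResidueField ↥A) M hM
    have h2 : r ∈ P.toValuationSubring := (Lib.PlaceEval.mem_iff P).2 hrord.ge
    have h3 : r⁻¹ ∈ P.toValuationSubring := by
      rw [Lib.PlaceEval.mem_iff P, Place.ord_inv, hrord]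
      simp
    rw [← ValuationSubring.valuation_le_one_iff] at h2 h3
    rw [map_inv₀, inv_le_one₀ (zero_lt_iff.2 ((Valuation.ne_zero_iff _).2 hr0))] at h3
    exact le_antisymm h2 h3
  have hun : (⟨_, hu_mem⟩ : R) ∉ 𝔫 := by
    rw [hnP ⟨_, hu_mem⟩ r hures, hrval]
    exact lt_irrefl _
  refine locGen_of_unit chart hcut.pos (fun z hz => hcut.pow_div_mem chart z.2 hz) 𝔫 (x2 - x0)
    ⟨_, hu_mem⟩ ha ?_ hcut.ne hun
  change ((x2 - x0 : R) : F) ^ (12 * m * (q - 1)) * (T.psiB Φ G)⁻¹ * T.psiB Φ G = _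
  rw [mul_assoc, inv_mul_cancel₀ hcut.ne, mul_one]

end Frame

end Fermat.Agent.S36R.Unit
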