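import Fermat.Agent.S36R.Unit.Frame

/-!
# S36 route R, block R-UNIT: the units `psiA, psiB, psiC` of a frame and their table
-/

set_option autoImplicit false

noncomputable section

namespace Fermat.Agent.S36R.Unit

open ModularCurve Polynomial Fermat.Agent.S28 Fermat.Agent.GAL.Gauss Fermat.Agent.S24

variable {A : ValuationSubring Kbar} {q : ℕ} [NeZero q] {ζ : Kbar} {hζ0 : ζ ≠ 0}
  {F : Type*} [Field F] (T : Frame A q ζ hζ0 F) (Φ G : ℤ[X][X]) (m : ℕ)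

namespace Frame

/-- `(q¹² Δ(qτ)/Δ(τ))^m`. -/
def U1 : F := psiOf Φ G T.j0 T.j1

/-- `(q¹² Δ(q²τ)/Δ(qτ))^m`. -/
def U2 : F := psiOf Φ G T.j1 T.j2

/-- cuts out the component `W 0`. -/
def psiA : F := T.U2 Φ G

/-- cuts out the component `W 1`. -/
def psiB : F := T.U1 Φ G / T.U2 Φ G

/-- cuts out the component `W 2`. -/
def psiC : F := (q : F) ^ (12 * m) / T.U1 Φ G

include T in
theorem natCast_ne_zero (n : ℕ) (hn : n ≠ 0) : (n : F) ≠ 0 := by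
  intro h
  have h1 := congrArg (T.φ 0) h
  rw [map_natCast, map_zero, ← map_natCast (algebraMap Kbar (LaurentSeries Kbar)),
    _root_.map_eq_zero] at h1
  exact (Nat.cast_ne_zero.mpr hn) h1

variable {Φ G m} {U : ℤ[X][X]} {c : ℤ}

omit [NeZero q] in
theorem prim_unit (hζ0 : ζ ≠ 0) (hζ : IsPrimitiveRoot ζ q) : IsPrimitiveRoot (Units.mk0 ζ hζ0) q :=
  IsPrimitiveRoot.coe_units_iff.mp (by simpa using hζ)

section Expansions

variable (hB : BData q Φ U G m c) (hq : q.Prime) (hζ : IsPrimitiveRoot ζ q)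
include hB hq hζ

theorem phi0_U1 : T.φ 0 (T.U1 Φ G) =
    (q : LaurentSeries Kbar) ^ (12 * m) * (qExpand Kbar q (DlL Kbar) * DlLinv Kbar) ^ m := by
  rw [U1, map_psiOf, T.h00, T.h01, psiOf_up hB hq _ (prim_unit hζ0 hζ), pow_mul, ← mul_pow, mul_assoc]

theorem phi1_U1 : T.φ 1 (T.U1 Φ G) =
    (q : LaurentSeries Kbar) ^ (12 * m) * (qExpand Kbar q (DlL Kbar) * DlLinv Kbar) ^ m := by
  rw [U1, map_psiOf, T.h10, T.h11, psiOf_up hB hq _ (prim_unit hζ0 hζ), pow_mul, ← mul_pow, mul_assoc]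

theorem phi2_U1 : T.φ 2 (T.U1 Φ G) =
    (qExpand Kbar q (DlL Kbar) * qExpand Kbar q (qExpand Kbar q (DlLinv Kbar))) ^ m := by
  rw [U1, map_psiOf, T.h20, T.h21, psiOf_down2 hB hq _ (prim_unit hζ0 hζ)]

theorem phi0_U2 : T.φ 0 (T.U2 Φ G) = (q : LaurentSeries Kbar) ^ (12 * m) *
    (qExpand Kbar q (qExpand Kbar q (DlL Kbar)) * qExpand Kbar q (DlLinv Kbar)) ^ m := by
  rw [U2, map_psiOf, T.h01, T.h02, psiOf_up2 hB hq _ (prim_unit hζ0 hζ), unitInf, pow_mul, ← mul_pow,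
    mul_assoc]

theorem phi1_U2 : T.φ 1 (T.U2 Φ G) =
    (Fermat.Agent.S24.twist ζ hζ0 (DlL Kbar) * qExpand Kbar q (DlLinv Kbar)) ^ m := by
  have h := psiOf_tw hB hq _ (prim_unit hζ0 hζ) 1 hq.one_lt
  rw [pow_one, ← twist_eq, unitFin, pow_one, ← twist_eq] at h
  rw [U2, map_psiOf, T.h11, T.h12, h]

theorem phi2_U2 : T.φ 2 (T.U2 Φ G) = (DlL Kbar * qExpand Kbar q (DlLinv Kbar)) ^ m := by
  rw [U2, map_psiOf, T.h21, T.h22, psiOf_down hB hq _ (prim_unit hζ0 hζ)]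

end Expansions

section Table

omit [NeZero q] in
theorem qL_ne_zero (hq : q.Prime) : (q : LaurentSeries Kbar) ≠ 0 := by
  rw [← map_natCast (algebraMap Kbar (LaurentSeries Kbar))]
  exact (_root_.map_ne_zero _).mpr (Nat.cast_ne_zero.mpr hq.ne_zero)

theorem res_div_pow (hq : q.Prime) {i : Fin 3} {x : F} {X : LaurentSeries Kbar}
    {r : LaurentSeries (IsLocalRing.ResidueField ↥A)}
    (hx : T.φ i x = (q : LaurentSeries Kbar) ^ (12 * m) * X) (hX : GR A X r) :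
    T.Res i (x / (q : F) ^ (12 * m)) r := by
  unfold Res
  rw [map_div₀, map_pow, map_natCast, hx, mul_div_cancel_left₀ _ (pow_ne_zero _ (qL_ne_zero hq))]
  exact hX

variable [hqF : Fact q.Prime] [CharP (IsLocalRing.ResidueField ↥A) q]
variable (hB : BData q Φ U G m c) (hζ : IsPrimitiveRoot ζ q)
include hB hζ

theorem res0_U1 : T.Res 0 (T.U1 Φ G / (q : F) ^ (12 * m)) (Hs (IsLocalRing.ResidueField ↥A) q m)⁻¹ :=
  T.res_div_pow hqF.out (T.phi0_U1 hB hqF.out hζ) (GR_up m)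

theorem res1_U1 : T.Res 1 (T.U1 Φ G / (q : F) ^ (12 * m)) (Hs (IsLocalRing.ResidueField ↥A) q m)⁻¹ :=
  T.res_div_pow hqF.out (T.phi1_U1 hB hqF.out hζ) (GR_up m)

theorem res2_U1 : T.Res 2 (T.U1 Φ G) (Hs (IsLocalRing.ResidueField ↥A) q m ^ q) := by
  unfold Res
  rw [T.phi2_U1 hB hqF.out hζ]
  exact GR_down2 m

theorem res0_U2 : T.Res 0 (T.U2 Φ G / (q : F) ^ (12 * m))
    (Hs (IsLocalRing.ResidueField ↥A) q m ^ q)⁻¹ :=
  T.res_div_pow hqF.out (T.phi0_U2 hB hqF.out hζ) (GR_up2 m)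

theorem res1_U2 : T.Res 1 (T.U2 Φ G) (Hs (IsLocalRing.ResidueField ↥A) q m) := by
  unfold Res
  rw [T.phi1_U2 hB hqF.out hζ]
  obtain ⟨h1, h2⟩ := KS.zeta_mem A q hζ.pow_eq_one
  exact GR_tw m hζ0 h1 h2 (KS.residue_zeta A q hζ.pow_eq_one h1)

theorem res2_U2 : T.Res 2 (T.U2 Φ G) (Hs (IsLocalRing.ResidueField ↥A) q m) := by
  unfold Res
  rw [T.phi2_U2 hB hqF.out hζ]
  exact GR_down m

/-! the table -/

theorem res0_psiA : T.Res 0 (T.psiA Φ G / (q : F) ^ (12 * m))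
    (Hs (IsLocalRing.ResidueField ↥A) q m ^ q)⁻¹ := T.res0_U2 hB hζ

theorem res1_psiA : T.Res 1 (T.psiA Φ G) (Hs (IsLocalRing.ResidueField ↥A) q m) := T.res1_U2 hB hζ

theorem res2_psiA : T.Res 2 (T.psiA Φ G) (Hs (IsLocalRing.ResidueField ↥A) q m) := T.res2_U2 hB hζ

theorem res0_psiC : T.Res 0 (T.psiC Φ G m) (Hs (IsLocalRing.ResidueField ↥A) q m) := by
  have h := (T.res0_U1 hB hζ).inv (inv_ne_zero (Hs_ne_zero _ q m))
  rwa [inv_inv, inv_div] at h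

theorem res1_psiC : T.Res 1 (T.psiC Φ G m) (Hs (IsLocalRing.ResidueField ↥A) q m) := by
  have h := (T.res1_U1 hB hζ).inv (inv_ne_zero (Hs_ne_zero _ q m))
  rwa [inv_inv, inv_div] at h

theorem res2_psiC : T.Res 2 (T.psiC Φ G m / (q : F) ^ (12 * m))
    (Hs (IsLocalRing.ResidueField ↥A) q m ^ q)⁻¹ := by
  have h := (T.res2_U1 hB hζ).inv (pow_ne_zero _ (Hs_ne_zero _ q m))
  have hq0 : (q : F) ^ (12 * m) ≠ 0 := pow_ne_zero _ (T.natCast_ne_zero q hqF.out.ne_zero)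
  have e : T.psiC Φ G m / (q : F) ^ (12 * m) = (T.U1 Φ G)⁻¹ := by
    rw [psiC]; field_simp
  rwa [e]

theorem res0_psiB : T.Res 0 (T.psiB Φ G) (Hs (IsLocalRing.ResidueField ↥A) q m ^ (q - 1)) := by
  have h := (T.res0_U1 hB hζ).div (T.res0_U2 hB hζ) (inv_ne_zero (pow_ne_zero _ (Hs_ne_zero _ q m)))
  have hq0 : (q : F) ^ (12 * m) ≠ 0 := pow_ne_zero _ (T.natCast_ne_zero q hqF.out.ne_zero)
  have e : T.U1 Φ G / (q : F) ^ (12 * m) / (T.U2 Φ G / (q : F) ^ (12 * m)) = T.psiB Φ G := by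
    rw [psiB, div_div_div_cancel_right₀ hq0]
  rw [e] at h
  convert h using 1
  have hH := Hs_ne_zero (IsLocalRing.ResidueField ↥A) q m
  generalize Hs (IsLocalRing.ResidueField ↥A) q m = h0 at hH ⊢
  obtain ⟨n, hn⟩ : ∃ n, q = n + 1 := ⟨q - 1, (Nat.sub_add_cancel hqF.out.one_le).symm⟩
  rw [hn, Nat.add_sub_cancel]
  field_simp
  exact (pow_succ _ _).symm

theorem res1_psiB : T.Res 1 (T.psiB Φ G / (q : F) ^ (12 * m))
    (Hs (IsLocalRing.ResidueField ↥A) q m ^ 2)⁻¹ := by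
  have h := (T.res1_U1 hB hζ).div (T.res1_U2 hB hζ) (Hs_ne_zero _ q m)
  have e : T.U1 Φ G / (q : F) ^ (12 * m) / T.U2 Φ G = T.psiB Φ G / (q : F) ^ (12 * m) := by
    rw [psiB, div_right_comm]
  rw [e] at h
  convert h using 1
  have hH := Hs_ne_zero (IsLocalRing.ResidueField ↥A) q m
  field_simp

theorem res2_psiB : T.Res 2 (T.psiB Φ G) (Hs (IsLocalRing.ResidueField ↥A) q m ^ (q - 1)) := by
  have h := (T.res2_U1 hB hζ).div (T.res2_U2 hB hζ) (Hs_ne_zero _ q m)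
  rw [← psiB] at h
  convert h using 1
  have hH := Hs_ne_zero (IsLocalRing.ResidueField ↥A) q m
  generalize Hs (IsLocalRing.ResidueField ↥A) q m = h0 at hH ⊢
  obtain ⟨n, hn⟩ : ∃ n, q = n + 1 := ⟨q - 1, (Nat.sub_add_cancel hqF.out.one_le).symm⟩
  rw [hn, Nat.add_sub_cancel]
  field_simp
  exact (pow_succ _ _).symm

end Table

end Frame

end Fermat.Agent.S36R.Unit
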